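import Mathlib
import Fermat.Agent.Lib.Frob.PrimeZeta

/-!
# Class functions of mean zero have bounded Dirichlet series near `s = 1`

Input (hypothesis `hbdd`): the partial zeta functions of two ideal classes differ by a bounded
amount on `(1, 2]`.  Output: for `f : ClassGroup (𝓞 K) → ℂ` with `∑ C, f C = 0` (e.g. a nontrivial
character) the series `∑_I f([I]) N(I)^(-s)` is bounded on `(1, 2]`.
-/

set_option autoImplicit false

namespace Fermat.Agent.CFT.Analytic

open NumberField Ideal Fermat.Agent.Lib.Frob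

open scoped nonZeroDivisors

variable (K : Type*) [Field K] [NumberField K]

/-- The class of a nonzero ideal. -/
noncomputable def nzClass (I : NzIdeal K) : ClassGroup (𝓞 K) :=
  ClassGroup.mk0 ⟨I.1, mem_nonZeroDivisors_of_ne_zero I.2⟩

/-- Nonzero ideals, as a subtype and as the submonoid of non-zero-divisors. -/
noncomputable def nzIdealEquiv : NzIdeal K ≃ (Ideal (𝓞 K))⁰ where
  toFun I := ⟨I.1, mem_nonZeroDivisors_of_ne_zero I.2⟩
  invFun J := ⟨J.1, nonZeroDivisors.ne_zero J.2⟩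
  left_inv _ := rfl
  right_inv _ := rfl

/-- The ideals of a given class, in the two descriptions. -/
noncomputable def nzClassFiberEquiv (C : ClassGroup (𝓞 K)) :
    {I : NzIdeal K // nzClass K I = C} ≃ {J : (Ideal (𝓞 K))⁰ // ClassGroup.mk0 J = C} where
  toFun I := ⟨nzIdealEquiv K I.1, I.2⟩
  invFun J := ⟨(nzIdealEquiv K).symm J.1, J.2⟩
  left_inv _ := rfl
  right_inv _ := rfl

open scoped Classical in
/-- The partial zeta function of a class as a sum over `NzIdeal K` with an indicator. -/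
theorem tsum_nzClass_eq (C : ClassGroup (𝓞 K)) (s : ℝ) :
    ∑' I : NzIdeal K, (if nzClass K I = C then wt K s I.1 else 0)
      = ∑' J : {J : (Ideal (𝓞 K))⁰ // ClassGroup.mk0 J = C},
          (absNorm (J : Ideal (𝓞 K)) : ℝ) ^ (-s) := by
  classical
  have h1 : ∑' I : NzIdeal K, (if nzClass K I = C then wt K s I.1 else 0)
      = ∑' I : {I : NzIdeal K // nzClass K I = C}, wt K s I.1.1 := by
    have := tsum_subtype {I : NzIdeal K | nzClass K I = C} (fun I : NzIdeal K => wt K s I.1)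
    rw [show (∑' I : {I : NzIdeal K // nzClass K I = C}, wt K s I.1.1)
        = ∑' x : ({I : NzIdeal K | nzClass K I = C} : Set (NzIdeal K)), wt K s x.1.1 from rfl,
      this]
    refine tsum_congr fun I => ?_
    by_cases h : nzClass K I = C
    · rw [if_pos h, Set.indicator_of_mem (show I ∈ {I : NzIdeal K | nzClass K I = C} from h)]
    · rw [if_neg h, Set.indicator_of_notMem (show I ∉ {I : NzIdeal K | nzClass K I = C} from h)]
  rw [h1, ← (nzClassFiberEquiv K C).tsum_eq]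
  rfl

/-- For `s > 1` the partial zeta series of a class converges. -/
theorem summable_class_rpow (C : ClassGroup (𝓞 K)) {s : ℝ} (hs : 1 < s) :
    Summable fun J : {J : (Ideal (𝓞 K))⁰ // ClassGroup.mk0 J = C} =>
      (absNorm (J : Ideal (𝓞 K)) : ℝ) ^ (-s) := by
  have h := summable_wt K hs
  have hinj : Function.Injective (fun J : {J : (Ideal (𝓞 K))⁰ // ClassGroup.mk0 J = C} =>
      (nzIdealEquiv K).symm J.1) := fun a b hab =>
    Subtype.ext ((nzIdealEquiv K).symm.injective hab)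
  refine (h.comp_injective hinj).congr fun J => ?_
  rw [Function.comp_apply]
  rfl

/-- **Regrouping by classes.** -/
theorem tsum_classFun_eq (f : ClassGroup (𝓞 K) → ℂ) {s : ℝ} (hs : 1 < s) :
    ∑' I : NzIdeal K, f (nzClass K I) * ((wt K s I.1 : ℝ) : ℂ)
      = ∑ C : ClassGroup (𝓞 K), f C *
          ((∑' J : {J : (Ideal (𝓞 K))⁰ // ClassGroup.mk0 J = C},
            (absNorm (J : Ideal (𝓞 K)) : ℝ) ^ (-s) : ℝ) : ℂ) := by
  classical
  have hsw : Summable (fun I : NzIdeal K => wt K s I.1) := summable_wt K hs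
  have hterm : ∀ I : NzIdeal K, f (nzClass K I) * ((wt K s I.1 : ℝ) : ℂ)
      = ∑ C : ClassGroup (𝓞 K),
          f C * (((if nzClass K I = C then wt K s I.1 else 0 : ℝ)) : ℂ) := by
    intro I
    rw [Finset.sum_eq_single (nzClass K I)]
    · rw [if_pos rfl]
    · intro C _ hC
      rw [if_neg (Ne.symm hC)]
      simp
    · intro h
      exact absurd (Finset.mem_univ _) h
  have hsumC : ∀ C : ClassGroup (𝓞 K), Summable fun I : NzIdeal K =>
      f C * (((if nzClass K I = C then wt K s I.1 else 0 : ℝ)) : ℂ) := by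
    intro C
    refine Summable.mul_left _ ?_
    refine Complex.ofRealCLM.summable (f := fun I : NzIdeal K =>
      (if nzClass K I = C then wt K s I.1 else 0 : ℝ)) ?_
    refine Summable.of_nonneg_of_le (fun I => ?_) (fun I => ?_) hsw
    · split_ifs
      · exact wt_nonneg s _
      · exact le_rfl
    · split_ifs
      · exact le_rfl
      · exact wt_nonneg s _
  rw [tsum_congr hterm, Summable.tsum_finsetSum (fun C _ => hsumC C)]
  refine Finset.sum_congr rfl fun C _ => ?_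
  rw [tsum_mul_left, ← Complex.ofReal_tsum, tsum_nzClass_eq]

/-- **Mean-zero class functions have bounded Dirichlet series on `(1, 2]`.** -/
theorem classFun_tsum_bounded (f : ClassGroup (𝓞 K) → ℂ) (hf : ∑ C, f C = 0)
    (hbdd : ∀ C C' : ClassGroup (𝓞 K), ∃ B : ℝ, ∀ s : ℝ, 1 < s → s ≤ 2 →
      |∑' J : {J : (Ideal (𝓞 K))⁰ // ClassGroup.mk0 J = C}, (absNorm (J : Ideal (𝓞 K)) : ℝ) ^ (-s)
        - ∑' J : {J : (Ideal (𝓞 K))⁰ // ClassGroup.mk0 J = C'},
            (absNorm (J : Ideal (𝓞 K)) : ℝ) ^ (-s)| ≤ B) :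
    ∃ B : ℝ, ∀ s : ℝ, 1 < s → s ≤ 2 →
      ‖∑' I : NzIdeal K, f (nzClass K I) * ((wt K s I.1 : ℝ) : ℂ)‖ ≤ B := by
  classical
  choose B hB using fun C => hbdd C 1
  refine ⟨∑ C : ClassGroup (𝓞 K), ‖f C‖ * B C, fun s hs1 hs2 => ?_⟩
  rw [tsum_classFun_eq K f hs1]
  set Z : ClassGroup (𝓞 K) → ℝ := fun C =>
    ∑' J : {J : (Ideal (𝓞 K))⁰ // ClassGroup.mk0 J = C}, (absNorm (J : Ideal (𝓞 K)) : ℝ) ^ (-s)
    with hZ
  have hrew : ∑ C : ClassGroup (𝓞 K), f C * ((Z C : ℝ) : ℂ)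
      = ∑ C : ClassGroup (𝓞 K), f C * (((Z C - Z 1 : ℝ)) : ℂ) := by
    have : ∑ C : ClassGroup (𝓞 K), f C * (((Z C - Z 1 : ℝ)) : ℂ)
        = ∑ C : ClassGroup (𝓞 K), f C * ((Z C : ℝ) : ℂ)
          - (∑ C : ClassGroup (𝓞 K), f C) * ((Z 1 : ℝ) : ℂ) := by
      rw [Finset.sum_mul, ← Finset.sum_sub_distrib]
      refine Finset.sum_congr rfl fun C _ => ?_
      push_cast
      ring
    rw [this, hf, zero_mul, sub_zero]
  rw [hrew]
  refine (norm_sum_le _ _).trans (Finset.sum_le_sum fun C _ => ?_)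
  rw [norm_mul, Complex.norm_real, Real.norm_eq_abs]
  exact mul_le_mul_of_nonneg_left (hB C s hs1 hs2) (norm_nonneg _)

/-- The values of a nontrivial character of a finite group sum to zero. -/
theorem sum_char_eq_zero {G : Type*} [Group G] [Fintype G] (χ : G →* ℂˣ) (hχ : χ ≠ 1) :
    ∑ g : G, (χ g : ℂ) = 0 := by
  classical
  obtain ⟨a, ha⟩ : ∃ a : G, χ a ≠ 1 := by
    by_contra h
    push Not at h
    exact hχ (MonoidHom.ext h)
  have h1 : (χ a : ℂ) * ∑ g : G, (χ g : ℂ) = ∑ g : G, (χ g : ℂ) := by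
    rw [Finset.mul_sum]
    refine Fintype.sum_equiv (Equiv.mulLeft a) _ _ fun g => ?_
    simp [map_mul]
  have h2 : ((χ a : ℂ) - 1) * ∑ g : G, (χ g : ℂ) = 0 := by
    rw [sub_mul, h1, one_mul, sub_self]
  rcases mul_eq_zero.mp h2 with h | h
  · exact absurd (Units.ext (sub_eq_zero.mp h)) ha
  · exact h

/-- **Class-group `L`-series of a nontrivial character are bounded on `(1, 2]`**
(given the bounded difference of partial zeta functions). -/
theorem classChar_tsum_bounded (χ : ClassGroup (𝓞 K) →* ℂˣ) (hχ : χ ≠ 1)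
    (hbdd : ∀ C C' : ClassGroup (𝓞 K), ∃ B : ℝ, ∀ s : ℝ, 1 < s → s ≤ 2 →
      |∑' J : {J : (Ideal (𝓞 K))⁰ // ClassGroup.mk0 J = C}, (absNorm (J : Ideal (𝓞 K)) : ℝ) ^ (-s)
        - ∑' J : {J : (Ideal (𝓞 K))⁰ // ClassGroup.mk0 J = C'},
            (absNorm (J : Ideal (𝓞 K)) : ℝ) ^ (-s)| ≤ B) :
    ∃ B : ℝ, ∀ s : ℝ, 1 < s → s ≤ 2 →
      ‖∑' I : {I : Ideal (𝓞 K) // I ≠ ⊥},
        (χ (ClassGroup.mk0 ⟨I.1, mem_nonZeroDivisors_of_ne_zero I.2⟩) : ℂ)
          * (((absNorm I.1 : ℝ) ^ (-s) : ℝ) : ℂ)‖ ≤ B :=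
  classFun_tsum_bounded K (fun C => (χ C : ℂ)) (sum_char_eq_zero χ hχ) hbdd

end Fermat.Agent.CFT.Analytic
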