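import Mathlib

/-!
# Comparing a lattice sum with the sum over a sublattice of finite index

`tsum_sub_index_mul_tsum_bdd` : abstract (group level) statement.
`integer_ideal_tsum_compare` : the ring of integers of a number field against a nonzero ideal.
-/

set_option autoImplicit false

namespace Fermat.Agent.CFT.Analytic

/-- The decomposition of an additive group along a subgroup, with explicit formulas. -/
noncomputable def cosetSplit {A : Type*} [AddCommGroup A] (H : AddSubgroup A) :
    (A ⧸ H) × H ≃ A where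
  toFun p := (p.2 : A) + Quotient.out p.1
  invFun a := (QuotientAddGroup.mk a,
    ⟨a - Quotient.out (QuotientAddGroup.mk a : A ⧸ H), by
      rw [← QuotientAddGroup.eq_zero_iff, QuotientAddGroup.mk_sub, sub_eq_zero]
      exact (QuotientAddGroup.out_eq' _).symm⟩)
  left_inv := by
    rintro ⟨q, h⟩
    have hq : (QuotientAddGroup.mk ((h : A) + Quotient.out q) : A ⧸ H) = q := by
      rw [QuotientAddGroup.mk_add, (QuotientAddGroup.eq_zero_iff (h : A)).mpr h.2, zero_add]
      exact QuotientAddGroup.out_eq' q
    refine Prod.ext hq (Subtype.ext ?_)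
    simp only [hq]
    abel
  right_inv := by
    intro a
    simp

theorem cosetSplit_apply {A : Type*} [AddCommGroup A] (H : AddSubgroup A) (p : (A ⧸ H) × H) :
    cosetSplit H p = (p.2 : A) + Quotient.out p.1 := rfl

/-- **Sublattice comparison, group level.**  If the shifted differences of `f s` along a subgroup
`H` of finite index are dominated, uniformly in `s ∈ S`, by summable functions, then
`∑_A f s - [A : H] · ∑_H f s` is bounded on `S`. -/
theorem tsum_sub_index_mul_tsum_bdd {A : Type*} [AddCommGroup A] (H : AddSubgroup A)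
    [H.FiniteIndex] (S : Set ℝ) (f : ℝ → A → ℝ)
    (hsum : ∀ s ∈ S, Summable (f s))
    (hdiff : ∀ r : A, ∃ g : H → ℝ, Summable g ∧
      ∀ s ∈ S, ∀ a : H, |f s ((a : A) + r) - f s a| ≤ g a) :
    ∃ B : ℝ, ∀ s ∈ S, |∑' a, f s a - (H.index : ℝ) * ∑' a : H, f s a| ≤ B := by
  classical
  have : Fintype (A ⧸ H) := Fintype.ofFinite _
  choose g hg hgb using hdiff
  refine ⟨∑ q : A ⧸ H, ∑' a : H, g (Quotient.out q) a, fun s hs => ?_⟩
  have hsumH : Summable fun a : H => f s a :=
    (hsum s hs).comp_injective Subtype.val_injective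
  have hsplit : Summable fun p : (A ⧸ H) × H => f s ((p.2 : A) + Quotient.out p.1) :=
    (hsum s hs).comp_injective (cosetSplit H).injective
  have hfib : ∀ q : A ⧸ H, Summable fun a : H => f s ((a : A) + Quotient.out q) := fun q =>
    (hsum s hs).comp_injective (fun _ _ hab => Subtype.ext (add_right_cancel hab))
  have h1 : ∑' a, f s a = ∑ q : A ⧸ H, ∑' a : H, f s ((a : A) + Quotient.out q) := by
    rw [← (cosetSplit H).tsum_eq (f s)]
    have : (fun p : (A ⧸ H) × H => f s (cosetSplit H p))
        = fun p : (A ⧸ H) × H => f s ((p.2 : A) + Quotient.out p.1) := rfl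
    rw [this, hsplit.tsum_prod' hfib, tsum_fintype]
  have h2 : (H.index : ℝ) * ∑' a : H, f s a = ∑ q : A ⧸ H, ∑' a : H, f s a := by
    rw [Finset.sum_const, Finset.card_univ, nsmul_eq_mul, AddSubgroup.index,
      Nat.card_eq_fintype_card]
  rw [h1, h2, ← Finset.sum_sub_distrib]
  refine (Finset.abs_sum_le_sum_abs _ _).trans (Finset.sum_le_sum fun q _ => ?_)
  rw [← (hfib q).tsum_sub hsumH]
  have hd : Summable fun a : H => f s ((a : A) + Quotient.out q) - f s a := (hfib q).sub hsumH
  calc |∑' a : H, (f s ((a : A) + Quotient.out q) - f s a)|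
      ≤ ∑' a : H, |f s ((a : A) + Quotient.out q) - f s a| := by
        have := norm_tsum_le_tsum_norm (f := fun a : H => f s ((a : A) + Quotient.out q) - f s a)
          hd.abs
        simpa [Real.norm_eq_abs] using this
    _ ≤ ∑' a : H, g (Quotient.out q) a :=
        hd.abs.tsum_le_tsum (fun a => hgb (Quotient.out q) s hs a) (hg (Quotient.out q))

/-! ### The ring of integers against a nonzero ideal -/

open NumberField NumberField.mixedEmbedding

open scoped Classical

variable (K : Type*) [Field K] [NumberField K]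

/-- The embedding of the ring of integers into the mixed space. -/
noncomputable def intEmb (a : 𝓞 K) : mixedSpace K := mixedEmbedding K (a : K)

omit [NumberField K] in
theorem intEmb_apply (a : 𝓞 K) : intEmb K a = mixedEmbedding K (a : K) := rfl

theorem intEmb_injective : Function.Injective (intEmb K) := fun _ _ h =>
  RingOfIntegers.ext (mixedEmbedding_injective K h)

omit [NumberField K] in
theorem intEmb_add (a b : 𝓞 K) : intEmb K (a + b) = intEmb K a + intEmb K b := by
  simp [intEmb]

omit [NumberField K] in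
theorem intEmb_zero : intEmb K 0 = 0 := by simp [intEmb]

omit [NumberField K] in
theorem intEmb_mem_integerLattice (a : 𝓞 K) : intEmb K a ∈ mixedEmbedding.integerLattice K :=
  ⟨a, rfl⟩

theorem finrank_integerLattice :
    Module.finrank ℤ (mixedEmbedding.integerLattice K) = Module.finrank ℚ K := by
  rw [ZLattice.rank ℝ (mixedEmbedding.integerLattice K), mixedEmbedding.finrank]

theorem summable_norm_integerLattice_rpow (r : ℝ) (hr : r < -(Module.finrank ℚ K : ℝ)) :
    Summable fun z : mixedEmbedding.integerLattice K => ‖z‖ ^ r :=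
  ZLattice.summable_norm_rpow (L := mixedEmbedding.integerLattice K) r
    (by rw [finrank_integerLattice]; exact hr)

/-- The map from the integers to the integer lattice. -/
noncomputable def toIntegerLattice (a : 𝓞 K) : mixedEmbedding.integerLattice K :=
  ⟨intEmb K a, intEmb_mem_integerLattice K a⟩

theorem toIntegerLattice_injective : Function.Injective (toIntegerLattice K) := fun _ _ hab =>
  intEmb_injective K (congrArg Subtype.val hab)

/-- `∑_{a ∈ 𝓞 K} ‖a‖^r` converges for `r < -[K:ℚ]` (the term at `0` being `0^r`). -/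
theorem summable_norm_intEmb_rpow (r : ℝ) (hr : r < -(Module.finrank ℚ K : ℝ)) :
    Summable fun a : 𝓞 K => ‖intEmb K a‖ ^ r := by
  have h := (summable_norm_integerLattice_rpow K r hr).comp_injective
    (toIntegerLattice_injective K)
  refine h.congr fun a => ?_
  rw [Function.comp_apply]
  rfl

/-- Only finitely many integers have embedding of norm `< R`. -/
theorem finite_norm_intEmb_lt (R : ℝ) : {a : 𝓞 K | ‖intEmb K a‖ < R}.Finite := by
  have hn : (0 : ℝ) < Module.finrank ℚ K := Nat.cast_pos.mpr Module.finrank_pos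
  have hs := summable_norm_intEmb_rpow K (-(Module.finrank ℚ K : ℝ) - 1) (by linarith)
  by_cases hR : R ≤ 0
  · have : {a : 𝓞 K | ‖intEmb K a‖ < R} = ∅ := by
      ext a
      simp only [Set.mem_ofPred_eq, Set.mem_empty_iff_false, iff_false, not_lt]
      exact hR.trans (norm_nonneg _)
    rw [this]; exact Set.finite_empty
  rw [not_le] at hR
  set r : ℝ := -(Module.finrank ℚ K : ℝ) - 1 with hr
  have hr0 : r < 0 := by rw [hr]; linarith
  have hev := hs.tendsto_cofinite_zero.eventually (gt_mem_nhds (Real.rpow_pos_of_pos hR r))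
  rw [Filter.eventually_cofinite] at hev
  refine (hev.union (Set.finite_singleton 0)).subset fun a ha => ?_
  by_cases ha0 : a = 0
  · right; exact ha0
  left
  have hpos : 0 < ‖intEmb K a‖ := by
    rw [norm_pos_iff]
    intro h0
    exact ha0 (intEmb_injective K (h0.trans (intEmb_zero K).symm))
  simp only [Set.mem_ofPred_eq, not_lt]
  exact (Real.rpow_le_rpow_of_nonpos hpos ha.le hr0.le)

/-- **Integers against an ideal.**  For a function `φ s` on the mixed space which is bounded on
integer points and whose shifts by integer points decay like `‖x‖^(-n-1)`, uniformly in `s ∈ S`,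
the difference `∑_{a ∈ 𝓞 K} φ s a - N(J) · ∑_{a ∈ J} φ s a` is bounded on `S`. -/
theorem integer_ideal_tsum_compare (J : Ideal (𝓞 K)) (hJ : J ≠ ⊥) (S : Set ℝ)
    (φ : ℝ → mixedSpace K → ℝ) (M : ℝ)
    (hM : ∀ s ∈ S, ∀ a : 𝓞 K, |φ s (intEmb K a)| ≤ M)
    (hlip : ∀ r : 𝓞 K, ∃ C R : ℝ, ∀ s ∈ S, ∀ a : 𝓞 K, R ≤ ‖intEmb K a‖ →
      |φ s (intEmb K a + intEmb K r) - φ s (intEmb K a)|
        ≤ C * ‖intEmb K a‖ ^ (-(Module.finrank ℚ K : ℝ) - 1))
    (hsum : ∀ s ∈ S, Summable fun a : 𝓞 K => φ s (intEmb K a)) :
    ∃ B : ℝ, ∀ s ∈ S, |∑' a : 𝓞 K, φ s (intEmb K a)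
      - (Ideal.absNorm J : ℝ) * ∑' a : J, φ s (intEmb K (a : 𝓞 K))| ≤ B := by
  classical
  have hidx : (Submodule.toAddSubgroup J).index = Ideal.absNorm J := rfl
  have hfi : (Submodule.toAddSubgroup J).FiniteIndex :=
    ⟨by rw [hidx]; exact fun h => hJ (Ideal.absNorm_eq_zero_iff.mp h)⟩
  have hn : (0 : ℝ) < Module.finrank ℚ K := Nat.cast_pos.mpr Module.finrank_pos
  have key := tsum_sub_index_mul_tsum_bdd (Submodule.toAddSubgroup J) S
    (fun s a => φ s (intEmb K a)) hsum ?_
  · obtain ⟨B, hB⟩ := key
    refine ⟨B, fun s hs => ?_⟩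
    have := hB s hs
    rw [hidx] at this
    exact this
  · intro r
    obtain ⟨C, R, hCR⟩ := hlip r
    set F : Set (𝓞 K) := {a : 𝓞 K | ‖intEmb K a‖ < R} with hF
    have hFfin : F.Finite := finite_norm_intEmb_lt K R
    refine ⟨fun a => F.indicator (fun _ => 2 * |M|) (a : 𝓞 K)
      + |C| * ‖intEmb K (a : 𝓞 K)‖ ^ (-(Module.finrank ℚ K : ℝ) - 1), ?_, ?_⟩
    · refine Summable.add ?_ ?_
      · have h1 : Summable (F.indicator (fun _ : 𝓞 K => 2 * |M|)) :=
          summable_of_hasFiniteSupport (hFfin.subset (Set.support_indicator_subset))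
        exact h1.comp_injective Subtype.val_injective
      · have h2 := (summable_norm_intEmb_rpow K (-(Module.finrank ℚ K : ℝ) - 1)
          (by linarith)).mul_left |C|
        exact h2.comp_injective Subtype.val_injective
    · intro s hs a
      have hnn : 0 ≤ |C| * ‖intEmb K (a : 𝓞 K)‖ ^ (-(Module.finrank ℚ K : ℝ) - 1) :=
        mul_nonneg (abs_nonneg _) (Real.rpow_nonneg (norm_nonneg _) _)
      beta_reduce
      by_cases haF : (a : 𝓞 K) ∈ F
      · rw [Set.indicator_of_mem haF]
        have h1 := hM s hs ((a : 𝓞 K) + r)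
        have h2 := hM s hs (a : 𝓞 K)
        have h3 := le_abs_self M
        have := abs_sub (φ s (intEmb K ((a : 𝓞 K) + r))) (φ s (intEmb K (a : 𝓞 K)))
        linarith
      · rw [Set.indicator_of_notMem haF, zero_add]
        have hR : R ≤ ‖intEmb K (a : 𝓞 K)‖ := by
          simpa [hF] using haF
        have := hCR s hs (a : 𝓞 K) hR
        rw [intEmb_add]
        refine this.trans ?_
        exact mul_le_mul_of_nonneg_right (le_abs_self C) (Real.rpow_nonneg (norm_nonneg _) _)

end Fermat.Agent.CFT.Analytic
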