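import Mathlib

/-!
# Unfolding a sum over an ideal along unit orbits

Let `R` be a Dedekind domain, `J` a nonzero ideal with class `C⁻¹`.  The nonzero elements of `J`
are, up to units, the generators of the principal ideals `J * I` with `I` in the class `C`.
Hence, if `∑_{u ∈ Rˣ} F (u * a) = w * G (span {a})` for all `a ≠ 0`, then
`∑_{a ∈ J} F a = w * ∑_{I ∈ C} G (J * I)`.
-/

set_option autoImplicit false

namespace Fermat.Agent.CFT.Analytic

open Ideal

open scoped nonZeroDivisors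

section Dedekind

variable {R : Type*} [CommRing R] [IsDedekindDomain R]

/-- For `I` in the class `C` and `J` in the class `C⁻¹`, the ideal `J * I` is principal. -/
theorem unfold_isPrincipal (J : (Ideal R)⁰) (C : ClassGroup R) (hJ : ClassGroup.mk0 J = C⁻¹)
    (I : {I : (Ideal R)⁰ // ClassGroup.mk0 I = C}) :
    ((J : Ideal R) * (I.1 : Ideal R)).IsPrincipal := by
  have h1 : ClassGroup.mk0 (J * I.1) = 1 := by
    rw [map_mul, hJ, I.2, inv_mul_cancel]
  exact (ClassGroup.mk0_eq_one_iff (J * I.1).2).mp h1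

/-- A chosen generator of `J * I`. -/
noncomputable def unfoldGen (J : (Ideal R)⁰) (C : ClassGroup R) (hJ : ClassGroup.mk0 J = C⁻¹)
    (I : {I : (Ideal R)⁰ // ClassGroup.mk0 I = C}) : R :=
  haveI := unfold_isPrincipal J C hJ I
  Submodule.IsPrincipal.generator ((J : Ideal R) * (I.1 : Ideal R))

theorem span_unfoldGen (J : (Ideal R)⁰) (C : ClassGroup R) (hJ : ClassGroup.mk0 J = C⁻¹)
    (I : {I : (Ideal R)⁰ // ClassGroup.mk0 I = C}) :
    Ideal.span {unfoldGen J C hJ I} = (J : Ideal R) * (I.1 : Ideal R) := by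
  have := unfold_isPrincipal J C hJ I
  exact Ideal.span_singleton_generator _

theorem unfoldGen_ne_zero (J : (Ideal R)⁰) (C : ClassGroup R) (hJ : ClassGroup.mk0 J = C⁻¹)
    (I : {I : (Ideal R)⁰ // ClassGroup.mk0 I = C}) : unfoldGen J C hJ I ≠ 0 := by
  intro h
  have h1 := span_unfoldGen J C hJ I
  rw [h, Ideal.span_singleton_eq_bot.mpr rfl] at h1
  exact nonZeroDivisors.ne_zero (J * I.1).2 h1.symm

theorem unfoldGen_mem (J : (Ideal R)⁰) (C : ClassGroup R) (hJ : ClassGroup.mk0 J = C⁻¹)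
    (I : {I : (Ideal R)⁰ // ClassGroup.mk0 I = C}) : unfoldGen J C hJ I ∈ (J : Ideal R) := by
  have h1 : unfoldGen J C hJ I ∈ Ideal.span {unfoldGen J C hJ I} :=
    Ideal.mem_span_singleton_self _
  rw [span_unfoldGen] at h1
  have h2 : (J : Ideal R) * (I.1 : Ideal R) ≤ (J : Ideal R) := Ideal.mul_le_left
  exact h2 h1

/-- The parametrisation of the nonzero elements of `J` by (ideal in the class `C`, unit). -/
noncomputable def unfoldMap (J : (Ideal R)⁰) (C : ClassGroup R) (hJ : ClassGroup.mk0 J = C⁻¹)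
    (p : {I : (Ideal R)⁰ // ClassGroup.mk0 I = C} × Rˣ) : (J : Ideal R) :=
  ⟨(p.2 : R) * unfoldGen J C hJ p.1, Ideal.mul_mem_left _ _ (unfoldGen_mem J C hJ p.1)⟩

theorem unfoldMap_injective (J : (Ideal R)⁰) (C : ClassGroup R) (hJ : ClassGroup.mk0 J = C⁻¹) :
    Function.Injective (unfoldMap J C hJ) := by
  rintro ⟨I, u⟩ ⟨I', u'⟩ h
  have h0 : (u : R) * unfoldGen J C hJ I = (u' : R) * unfoldGen J C hJ I' :=
    congrArg Subtype.val h
  have h1 : Ideal.span {(u : R) * unfoldGen J C hJ I}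
      = Ideal.span {(u' : R) * unfoldGen J C hJ I'} := by rw [h0]
  rw [Ideal.span_singleton_mul_left_unit u.isUnit, Ideal.span_singleton_mul_left_unit u'.isUnit,
    span_unfoldGen, span_unfoldGen] at h1
  have hJ0 : (J : Ideal R) ≠ 0 := nonZeroDivisors.ne_zero J.2
  have h2 : (I.1 : Ideal R) = (I'.1 : Ideal R) := mul_left_cancel₀ hJ0 h1
  have h3 : I = I' := Subtype.ext (Subtype.ext h2)
  subst h3
  have h4 : (u : R) = (u' : R) := mul_right_cancel₀ (unfoldGen_ne_zero J C hJ I) h0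
  rw [Units.ext h4]

theorem unfoldMap_surjective (J : (Ideal R)⁰) (C : ClassGroup R) (hJ : ClassGroup.mk0 J = C⁻¹)
    (a : (J : Ideal R)) (ha : (a : R) ≠ 0) : a ∈ Set.range (unfoldMap J C hJ) := by
  obtain ⟨I0, hI0⟩ := (Ideal.dvd_span_singleton.mpr a.2 : (J : Ideal R) ∣ Ideal.span {(a : R)})
  have hI0ne : I0 ≠ ⊥ := by
    rintro rfl
    rw [Ideal.mul_bot, Ideal.span_singleton_eq_bot] at hI0
    exact ha hI0
  let I0' : (Ideal R)⁰ := ⟨I0, mem_nonZeroDivisors_of_ne_zero hI0ne⟩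
  have hspan : Ideal.span {(a : R)} ∈ (Ideal R)⁰ :=
    mem_nonZeroDivisors_of_ne_zero (fun h => ha (Ideal.span_singleton_eq_bot.mp h))
  have hcls : ClassGroup.mk0 I0' = C := by
    have h1 : ClassGroup.mk0 (J * I0') = 1 := by
      have h2 : (J * I0' : (Ideal R)⁰) = ⟨Ideal.span {(a : R)}, hspan⟩ := Subtype.ext hI0.symm
      rw [h2, ClassGroup.mk0_eq_one_iff]
      exact ⟨⟨(a : R), rfl⟩⟩
    rw [map_mul, hJ] at h1
    have := congrArg (fun x => C * x) h1
    simpa using this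
  let I : {I : (Ideal R)⁰ // ClassGroup.mk0 I = C} := ⟨I0', hcls⟩
  have hass : Associated (unfoldGen J C hJ I) (a : R) := by
    rw [← Ideal.span_singleton_eq_span_singleton, span_unfoldGen, hI0]
  obtain ⟨u, hu⟩ := hass
  refine ⟨(I, u), Subtype.ext ?_⟩
  show (u : R) * unfoldGen J C hJ I = (a : R)
  rw [mul_comm]
  exact hu

/-- **Orbit unfolding.** -/
theorem unfold_ideal_tsum_dedekind (J : (Ideal R)⁰) (C : ClassGroup R)
    (hJ : ClassGroup.mk0 J = C⁻¹) (F : R → ℝ) (G : Ideal R → ℝ) (w : ℝ)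
    (hF : ∀ a, 0 ≤ F a) (hF0 : F 0 = 0)
    (horb : ∀ a : R, a ≠ 0 → HasSum (fun u : Rˣ => F (u * a)) (w * G (Ideal.span {a})))
    (hG : Summable fun I : {I : (Ideal R)⁰ // ClassGroup.mk0 I = C} =>
      G ((J : Ideal R) * (I : Ideal R))) :
    Summable (fun a : (J : Ideal R) => F a) ∧
      ∑' a : (J : Ideal R), F a
        = w * ∑' I : {I : (Ideal R)⁰ // ClassGroup.mk0 I = C},
            G ((J : Ideal R) * (I : Ideal R)) := by
  have hfib : ∀ I : {I : (Ideal R)⁰ // ClassGroup.mk0 I = C},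
      HasSum (fun u : Rˣ => F ((u : R) * unfoldGen J C hJ I))
        (w * G ((J : Ideal R) * (I : Ideal R))) := by
    intro I
    have := horb (unfoldGen J C hJ I) (unfoldGen_ne_zero J C hJ I)
    rwa [span_unfoldGen] at this
  have hprod : Summable (fun p : {I : (Ideal R)⁰ // ClassGroup.mk0 I = C} × Rˣ =>
      F ((p.2 : R) * unfoldGen J C hJ p.1)) := by
    rw [summable_prod_of_nonneg (fun p => hF _)]
    refine ⟨fun I => (hfib I).summable, ?_⟩
    have : (fun I : {I : (Ideal R)⁰ // ClassGroup.mk0 I = C} =>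
        ∑' u : Rˣ, F ((u : R) * unfoldGen J C hJ I))
        = fun I : {I : (Ideal R)⁰ // ClassGroup.mk0 I = C} =>
          w * G ((J : Ideal R) * (I : Ideal R)) := by
      funext I
      exact (hfib I).tsum_eq
    rw [this]
    exact hG.mul_left w
  have hsupp : ∀ a : (J : Ideal R), a ∉ Set.range (unfoldMap J C hJ) → F (a : R) = 0 := by
    intro a ha
    by_cases h0 : (a : R) = 0
    · rw [h0, hF0]
    · exact absurd (unfoldMap_surjective J C hJ a h0) ha
  have hsum : Summable (fun a : (J : Ideal R) => F a) :=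
    ((unfoldMap_injective J C hJ).summable_iff hsupp).mp hprod
  refine ⟨hsum, ?_⟩
  have h1 : ∑' a : (J : Ideal R), F a
      = ∑' p : {I : (Ideal R)⁰ // ClassGroup.mk0 I = C} × Rˣ,
          F ((p.2 : R) * unfoldGen J C hJ p.1) := by
    have := (unfoldMap_injective J C hJ).tsum_eq (f := fun a : (J : Ideal R) => F a)
      (fun a ha => by
        by_contra hcon
        exact ha (hsupp a hcon))
    rw [← this]
    rfl
  rw [h1, hprod.tsum_prod' (fun I => (hfib I).summable), ← tsum_mul_left]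
  exact tsum_congr fun I => (hfib I).tsum_eq

end Dedekind

section NumberField

open NumberField

variable (K : Type*) [Field K] [NumberField K]

/-- **Orbit unfolding** for the ring of integers of a number field. -/
theorem unfold_ideal_tsum (J : (Ideal (𝓞 K))⁰) (C : ClassGroup (𝓞 K))
    (hJ : ClassGroup.mk0 J = C⁻¹) (F : 𝓞 K → ℝ) (G : Ideal (𝓞 K) → ℝ) (w : ℝ)
    (hF : ∀ a, 0 ≤ F a) (hF0 : F 0 = 0)
    (horb : ∀ a : 𝓞 K, a ≠ 0 → HasSum (fun u : (𝓞 K)ˣ => F (u * a)) (w * G (Ideal.span {a})))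
    (hG : Summable fun I : {I : (Ideal (𝓞 K))⁰ // ClassGroup.mk0 I = C} =>
      G ((J : Ideal (𝓞 K)) * (I : Ideal (𝓞 K)))) :
    Summable (fun a : (J : Ideal (𝓞 K)) => F a) ∧
      ∑' a : (J : Ideal (𝓞 K)), F a
        = w * ∑' I : {I : (Ideal (𝓞 K))⁰ // ClassGroup.mk0 I = C},
            G ((J : Ideal (𝓞 K)) * (I : Ideal (𝓞 K))) :=
  unfold_ideal_tsum_dedekind J C hJ F G w hF hF0 horb hG

/-- **Orbit unfolding, norm form**: if `∑_u F (u a) = w · N(a)^(-s)` for all `a ≠ 0`, then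
`∑_{a ∈ J} F a = w · N(J)^(-s) · ∑_{I ∈ C} N(I)^(-s)` for `J` in the class `C⁻¹`. -/
theorem unfold_ideal_tsum_norm (J : (Ideal (𝓞 K))⁰) (C : ClassGroup (𝓞 K))
    (hJ : ClassGroup.mk0 J = C⁻¹) (F : 𝓞 K → ℝ) (w : ℝ) (s : ℝ)
    (hF : ∀ a, 0 ≤ F a) (hF0 : F 0 = 0)
    (horb : ∀ a : 𝓞 K, a ≠ 0 →
      HasSum (fun u : (𝓞 K)ˣ => F (u * a)) (w * (absNorm (Ideal.span {a}) : ℝ) ^ (-s)))
    (hZ : Summable fun I : {I : (Ideal (𝓞 K))⁰ // ClassGroup.mk0 I = C} =>
      (absNorm (I : Ideal (𝓞 K)) : ℝ) ^ (-s)) :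
    Summable (fun a : (J : Ideal (𝓞 K)) => F a) ∧
      ∑' a : (J : Ideal (𝓞 K)), F a
        = w * (absNorm (J : Ideal (𝓞 K)) : ℝ) ^ (-s)
          * ∑' I : {I : (Ideal (𝓞 K))⁰ // ClassGroup.mk0 I = C},
              (absNorm (I : Ideal (𝓞 K)) : ℝ) ^ (-s) := by
  have hmul : ∀ I : {I : (Ideal (𝓞 K))⁰ // ClassGroup.mk0 I = C},
      (absNorm ((J : Ideal (𝓞 K)) * (I : Ideal (𝓞 K))) : ℝ) ^ (-s)
        = (absNorm (J : Ideal (𝓞 K)) : ℝ) ^ (-s) * (absNorm (I : Ideal (𝓞 K)) : ℝ) ^ (-s) := by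
    intro I
    rw [map_mul, Nat.cast_mul, Real.mul_rpow (Nat.cast_nonneg _) (Nat.cast_nonneg _)]
  have hG : Summable fun I : {I : (Ideal (𝓞 K))⁰ // ClassGroup.mk0 I = C} =>
      (absNorm ((J : Ideal (𝓞 K)) * (I : Ideal (𝓞 K))) : ℝ) ^ (-s) := by
    simp_rw [hmul]
    exact hZ.mul_left _
  obtain ⟨h1, h2⟩ := unfold_ideal_tsum K J C hJ F (fun I => (absNorm I : ℝ) ^ (-s)) w hF hF0
    horb hG
  refine ⟨h1, ?_⟩
  rw [h2]
  simp_rw [hmul]
  rw [tsum_mul_left, mul_assoc]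

end NumberField

end Fermat.Agent.CFT.Analytic
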