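import Fermat.Agent.CFT.Analytic.PhiEstimate
import Fermat.Agent.CFT.Analytic.SublatticeSum
import Fermat.Agent.Lib.Frob.PrimeZeta
import Fermat.Agent.CFT.Analytic.Unfold
import Fermat.Agent.CFT.Analytic.ClassCharSum

/-!
# Partial zeta functions of ideal classes differ by a bounded amount near `s = 1`

For a number field `K` and an ideal class `C`, `classZeta K C s = ∑_{I ∈ C} N(I)^(-s)`.
Main result: `classZeta_sub_bounded`: for two classes `C, C'` the difference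
`classZeta K C s - classZeta K C' s` is bounded on `1 < s ≤ 2`.

Proof: for `J` in the class `C⁻¹`, unfolding along unit orbits (with the weight `czPhi`, a smooth
cut-off in the logarithmic space times `N^(-s)`) gives
`∑_{a ∈ J} czPhi s a = w * N(J)^(-s) * classZeta K C s`; the sublattice comparison
(`integer_ideal_tsum_compare`) gives `|∑_{a ∈ 𝓞 K} czPhi s a - N(J) * ∑_{a ∈ J} czPhi s a| ≤ B`.
Comparing two classes through the common sum over `𝓞 K` gives the claim.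
-/

set_option autoImplicit false



namespace Fermat.Agent.CFT

open NumberField NumberField.InfinitePlace NumberField.mixedEmbedding NumberField.Units
  NumberField.Units.dirichletUnitTheorem Ideal
open scoped nonZeroDivisors

variable (K : Type*) [Field K] [NumberField K]

open scoped Classical

/-- The partial zeta function of an ideal class `C`: the sum of `N(I)^(-s)` over the nonzero
integral ideals `I` in `C`. -/
noncomputable def classZeta (C : ClassGroup (𝓞 K)) (s : ℝ) : ℝ :=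
  ∑' I : {I : (Ideal (𝓞 K))⁰ // ClassGroup.mk0 I = C}, (absNorm (I : Ideal (𝓞 K)) : ℝ) ^ (-s)

theorem classZeta_summable (C : ClassGroup (𝓞 K)) {s : ℝ} (hs : 1 < s) :
    Summable fun I : {I : (Ideal (𝓞 K))⁰ // ClassGroup.mk0 I = C} =>
      (absNorm (I : Ideal (𝓞 K)) : ℝ) ^ (-s) := by
  have h := Fermat.Agent.Lib.Frob.summable_wt K hs
  let f : {I : (Ideal (𝓞 K))⁰ // ClassGroup.mk0 I = C} → Fermat.Agent.Lib.Frob.NzIdeal K :=
    fun I => ⟨(I : Ideal (𝓞 K)), nonZeroDivisors.ne_zero I.1.2⟩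
  have hinj : Function.Injective f := by
    intro a b hab
    have h1 : (a : Ideal (𝓞 K)) = (b : Ideal (𝓞 K)) := by
      have := congrArg (fun x : Fermat.Agent.Lib.Frob.NzIdeal K => x.1) hab
      simpa [f] using this
    exact Subtype.ext (Subtype.ext h1)
  have h2 := h.comp_injective hinj
  refine h2.congr (fun I => ?_)
  simp [f, Fermat.Agent.Lib.Frob.wt]

theorem classZeta_nonneg (C : ClassGroup (𝓞 K)) (s : ℝ) : 0 ≤ classZeta K C s :=
  tsum_nonneg (fun _ => Real.rpow_nonneg (Nat.cast_nonneg _) _)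

/-- The value of the mixed norm on an integer is the absolute norm of the principal ideal. -/
theorem cz_norm_intEmb (a : 𝓞 K) :
    mixedEmbedding.norm (Analytic.intEmb K a) = (absNorm (Ideal.span {a}) : ℝ) := by
  rw [Analytic.intEmb_apply, mixedEmbedding.norm_eq_norm, Ideal.absNorm_span_singleton,
    ← Algebra.coe_norm_int, Nat.cast_natAbs, Int.cast_abs]
  simp

/-- Orbit sums of the weight: the unit orbit of a nonzero integer `a` contributes
`torsionOrder K * N((a))^(-s)`. -/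
theorem czPhi_orbit_hasSum (s : ℝ) (a : 𝓞 K) (ha : a ≠ 0) :
    HasSum (fun u : (𝓞 K)ˣ => czPhi K s (Analytic.intEmb K ((u : 𝓞 K) * a)))
      ((torsionOrder K : ℝ) * (absNorm (Ideal.span {a}) : ℝ) ^ (-s)) := by
  have hν : mixedEmbedding.norm (Analytic.intEmb K a) ≠ 0 := by
    rw [cz_norm_intEmb]
    exact_mod_cast (Ideal.absNorm_eq_zero_iff.not.mpr (by simpa using ha))
  have hfun : (fun u : (𝓞 K)ˣ => czPhi K s (Analytic.intEmb K ((u : 𝓞 K) * a))) =
      fun u : (𝓞 K)ˣ => czG K (logEmbedding K (Additive.ofMul u) + logMap (Analytic.intEmb K a)) *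
        (absNorm (Ideal.span {a}) : ℝ) ^ (-s) := by
    funext u
    have e : Analytic.intEmb K ((u : 𝓞 K) * a) = u • Analytic.intEmb K a := by
      simp [Analytic.intEmb_apply, unitSMul_smul]
    unfold czPhi
    rw [e, logMap_unit_smul u hν, norm_unit_smul, cz_norm_intEmb]
  rw [hfun]
  exact (czG_unit_hasSum K _).mul_right _

theorem czPhi_nonneg (s : ℝ) (x : mixedSpace K) : 0 ≤ czPhi K s x :=
  mul_nonneg (czG_nonneg K _) (Real.rpow_nonneg (mixedEmbedding.norm_nonneg x) _)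

theorem czPhi_intEmb_zero {s : ℝ} (hs : s ≠ 0) : czPhi K s (Analytic.intEmb K 0) = 0 := by
  rw [Analytic.intEmb_zero]
  exact czPhi_eq_zero_of_norm_eq_zero K hs (map_zero _)

/-- The lattice sum of the weight over a nonzero ideal `J` in the class `C⁻¹` unfolds to the
partial zeta function of `C`. -/
theorem cz_ideal_sum (J : (Ideal (𝓞 K))⁰) (C : ClassGroup (𝓞 K)) (hJ : ClassGroup.mk0 J = C⁻¹)
    {s : ℝ} (hs : 1 < s) :
    ∑' a : (J : Ideal (𝓞 K)), czPhi K s (Analytic.intEmb K (a : 𝓞 K)) =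
      (torsionOrder K : ℝ) * ((absNorm (J : Ideal (𝓞 K)) : ℝ) ^ (-s) * classZeta K C s) := by
  have hG : Summable fun I : {I : (Ideal (𝓞 K))⁰ // ClassGroup.mk0 I = C} =>
      (absNorm ((J : Ideal (𝓞 K)) * (I : Ideal (𝓞 K))) : ℝ) ^ (-s) := by
    refine ((classZeta_summable K C hs).mul_left ((absNorm (J : Ideal (𝓞 K)) : ℝ) ^ (-s))).congr
      (fun I => ?_)
    rw [map_mul, Nat.cast_mul, Real.mul_rpow (Nat.cast_nonneg _) (Nat.cast_nonneg _)]
  have key := (Analytic.unfold_ideal_tsum K J C hJ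
    (fun a => czPhi K s (Analytic.intEmb K a)) (fun I => (absNorm I : ℝ) ^ (-s))
    (torsionOrder K : ℝ) (fun a => czPhi_nonneg K s _) (czPhi_intEmb_zero K (by linarith))
    (fun a ha => czPhi_orbit_hasSum K s a ha) hG).2
  rw [key]
  congr 1
  rw [classZeta, ← tsum_mul_left]
  refine tsum_congr (fun I => ?_)
  rw [map_mul, Nat.cast_mul, Real.mul_rpow (Nat.cast_nonneg _) (Nat.cast_nonneg _)]

theorem czPhi_intEmb_abs_le_one {s : ℝ} (hs : 1 < s) (a : 𝓞 K) :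
    |czPhi K s (Analytic.intEmb K a)| ≤ 1 := by
  by_cases ha : a = 0
  · rw [ha, czPhi_intEmb_zero K (by linarith), abs_zero]; exact zero_le_one
  · unfold czPhi
    rw [abs_mul, abs_of_nonneg (Real.rpow_nonneg (mixedEmbedding.norm_nonneg _) _)]
    have h1 : (1 : ℝ) ≤ mixedEmbedding.norm (Analytic.intEmb K a) := by
      rw [cz_norm_intEmb]
      have : absNorm (Ideal.span {a}) ≠ 0 := Ideal.absNorm_eq_zero_iff.not.mpr (by simpa using ha)
      exact_mod_cast Nat.one_le_iff_ne_zero.mpr this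
    have h2 : (mixedEmbedding.norm (Analytic.intEmb K a)) ^ (-s) ≤ 1 :=
      Real.rpow_le_one_of_one_le_of_nonpos h1 (by linarith)
    calc |czG K (logMap (Analytic.intEmb K a))| * (mixedEmbedding.norm (Analytic.intEmb K a)) ^ (-s)
        ≤ 1 * 1 := mul_le_mul (czG_abs_le_one K _) h2 (Real.rpow_nonneg (mixedEmbedding.norm_nonneg _) _)
          zero_le_one
      _ = 1 := one_mul 1

theorem czPhi_intEmb_summable {s : ℝ} (hs : s ∈ Set.Ioc (1 : ℝ) 2) :
    Summable fun a : 𝓞 K => czPhi K s (Analytic.intEmb K a) := by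
  obtain ⟨A, hA, hle⟩ := czPhi_le_rpow K
  have hN : (0 : ℝ) < Module.finrank ℚ K := Nat.cast_pos.mpr Module.finrank_pos
  have hsum := (Analytic.summable_norm_intEmb_rpow K (-((Module.finrank ℚ K : ℝ) * s))
    (by nlinarith [hs.1])).mul_left A
  exact Summable.of_norm_bounded hsum (fun a => by rw [Real.norm_eq_abs]; exact hle s hs _)

/-- Comparison of the full integer lattice sum with the partial zeta function of a class. -/
theorem cz_T_compare (J : (Ideal (𝓞 K))⁰) (C : ClassGroup (𝓞 K)) (hJ : ClassGroup.mk0 J = C⁻¹) :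
    ∃ B : ℝ, ∀ s ∈ Set.Ioc (1 : ℝ) 2,
      |∑' a : 𝓞 K, czPhi K s (Analytic.intEmb K a) -
        (torsionOrder K : ℝ) * ((absNorm (J : Ideal (𝓞 K)) : ℝ) ^ (1 - s) * classZeta K C s)| ≤ B := by
  obtain ⟨C₁, R, hC₁, hlip⟩ := czPhi_lipschitz K
  obtain ⟨B, hB⟩ := Analytic.integer_ideal_tsum_compare K (J : Ideal (𝓞 K))
    (nonZeroDivisors.ne_zero J.2) (Set.Ioc (1 : ℝ) 2) (czPhi K) 1
    (fun s hs a => czPhi_intEmb_abs_le_one K hs.1 a)
    (fun r => ⟨C₁ * ‖Analytic.intEmb K r‖, R * (1 + ‖Analytic.intEmb K r‖), fun s hs a ha => by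
      have := hlip s hs (Analytic.intEmb K a) (Analytic.intEmb K r) ha
      have e : (-(Module.finrank ℚ K : ℝ) - 1) = -((Module.finrank ℚ K : ℝ) + 1) := by ring
      rw [e]
      exact this⟩)
    (fun s hs => czPhi_intEmb_summable K hs)
  refine ⟨B, fun s hs => ?_⟩
  have h := hB s hs
  rw [cz_ideal_sum K J C hJ hs.1] at h
  have hpos : (0 : ℝ) < absNorm (J : Ideal (𝓞 K)) := by
    have : absNorm (J : Ideal (𝓞 K)) ≠ 0 :=
      Ideal.absNorm_eq_zero_iff.not.mpr (nonZeroDivisors.ne_zero J.2)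
    exact_mod_cast Nat.pos_of_ne_zero this
  have e : (absNorm (J : Ideal (𝓞 K)) : ℝ) * ((torsionOrder K : ℝ) *
      ((absNorm (J : Ideal (𝓞 K)) : ℝ) ^ (-s) * classZeta K C s)) =
      (torsionOrder K : ℝ) * ((absNorm (J : Ideal (𝓞 K)) : ℝ) ^ (1 - s) * classZeta K C s) := by
    rw [sub_eq_add_neg, Real.rpow_add hpos, Real.rpow_one]
    ring
  rw [e] at h
  exact h

/-- One-sided comparison of the partial zeta functions of two ideal classes. -/
theorem classZeta_le_add (C C' : ClassGroup (𝓞 K)) :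
    ∃ B : ℝ, ∀ s : ℝ, 1 < s → s ≤ 2 → classZeta K C s ≤ classZeta K C' s + B := by
  obtain ⟨J, hJ⟩ := ClassGroup.mk0_surjective (C⁻¹ : ClassGroup (𝓞 K))
  obtain ⟨J₀, hJ₀⟩ := ClassGroup.mk0_surjective (C'⁻¹ : ClassGroup (𝓞 K))
  have hJne : (J : Ideal (𝓞 K)) ≠ ⊥ := nonZeroDivisors.ne_zero J.2
  have hnpos : 0 < absNorm (J : Ideal (𝓞 K)) :=
    Nat.pos_of_ne_zero (Ideal.absNorm_eq_zero_iff.not.mpr hJne)
  have hxmem : ((absNorm (J : Ideal (𝓞 K)) : ℕ) : 𝓞 K) ∈ (J : Ideal (𝓞 K)) := Ideal.absNorm_mem _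
  have hxne : ((absNorm (J : Ideal (𝓞 K)) : ℕ) : 𝓞 K) ≠ 0 := by
    exact_mod_cast hnpos.ne'
  have hspan : Ideal.span {((absNorm (J : Ideal (𝓞 K)) : ℕ) : 𝓞 K)} ∈ (Ideal (𝓞 K))⁰ :=
    mem_nonZeroDivisors_of_ne_zero (by simpa using hxne)
  have hJ' : ClassGroup.mk0 (J₀ * ⟨Ideal.span {((absNorm (J : Ideal (𝓞 K)) : ℕ) : 𝓞 K)}, hspan⟩)
      = C'⁻¹ := by
    rw [map_mul, hJ₀, (ClassGroup.mk0_eq_one_iff hspan).mpr ⟨⟨_, rfl⟩⟩, mul_one]
  have hdvd : (J : Ideal (𝓞 K)) ∣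
      ((J₀ * ⟨Ideal.span {((absNorm (J : Ideal (𝓞 K)) : ℕ) : 𝓞 K)}, hspan⟩ : (Ideal (𝓞 K))⁰) :
        Ideal (𝓞 K)) := by
    have h1 : (J : Ideal (𝓞 K)) ∣ Ideal.span {((absNorm (J : Ideal (𝓞 K)) : ℕ) : 𝓞 K)} :=
      Ideal.dvd_span_singleton.mpr hxmem
    exact Dvd.dvd.mul_left h1 _
  obtain ⟨B₁, hB₁⟩ := cz_T_compare K J C hJ
  obtain ⟨B₂, hB₂⟩ := cz_T_compare K _ C' hJ'
  generalize (J₀ * ⟨Ideal.span {((absNorm (J : Ideal (𝓞 K)) : ℕ) : 𝓞 K)}, hspan⟩ :
    (Ideal (𝓞 K))⁰) = J' at hJ' hdvd hB₂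
  have hJ'ne : (J' : Ideal (𝓞 K)) ≠ ⊥ := nonZeroDivisors.ne_zero J'.2
  have hn'pos : 0 < absNorm (J' : Ideal (𝓞 K)) :=
    Nat.pos_of_ne_zero (Ideal.absNorm_eq_zero_iff.not.mpr hJ'ne)
  have hle : absNorm (J : Ideal (𝓞 K)) ≤ absNorm (J' : Ideal (𝓞 K)) :=
    Nat.le_of_dvd hn'pos (map_dvd absNorm hdvd)
  refine ⟨(|B₁| + |B₂|) * (absNorm (J : Ideal (𝓞 K)) : ℝ), fun s hs1 hs2 => ?_⟩
  have hs : s ∈ Set.Ioc (1 : ℝ) 2 := ⟨hs1, hs2⟩
  have h1 := hB₁ s hs
  have h2 := hB₂ s hs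
  have hn1 : (1 : ℝ) ≤ (absNorm (J : Ideal (𝓞 K)) : ℝ) := by exact_mod_cast hnpos
  have hnn' : (absNorm (J : Ideal (𝓞 K)) : ℝ) ≤ (absNorm (J' : Ideal (𝓞 K)) : ℝ) := by
    exact_mod_cast hle
  have hw1 : (1 : ℝ) ≤ (torsionOrder K : ℝ) := by
    exact_mod_cast Nat.one_le_iff_ne_zero.mpr (torsionOrder_ne_zero K)
  have hZ := classZeta_nonneg K C s
  have hZ' := classZeta_nonneg K C' s
  -- powers
  have hp : (absNorm (J' : Ideal (𝓞 K)) : ℝ) ^ (1 - s) ≤ (absNorm (J : Ideal (𝓞 K)) : ℝ) ^ (1 - s) :=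
    Real.rpow_le_rpow_of_nonpos (by linarith) hnn' (by linarith)
  have hppos : 0 < (absNorm (J : Ideal (𝓞 K)) : ℝ) ^ (1 - s) := Real.rpow_pos_of_pos (by linarith) _
  have hpn : 1 ≤ (absNorm (J : Ideal (𝓞 K)) : ℝ) ^ (1 - s) * (absNorm (J : Ideal (𝓞 K)) : ℝ) := by
    have e : (absNorm (J : Ideal (𝓞 K)) : ℝ) ^ (1 - s) * (absNorm (J : Ideal (𝓞 K)) : ℝ) =
        (absNorm (J : Ideal (𝓞 K)) : ℝ) ^ (2 - s) := by
      have : (2 - s) = (1 - s) + 1 := by ring
      rw [this, Real.rpow_add (by linarith), Real.rpow_one]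
    rw [e]
    exact Real.one_le_rpow hn1 (by linarith)
  set n : ℝ := (absNorm (J : Ideal (𝓞 K)) : ℝ) with hn
  set p : ℝ := n ^ (1 - s) with hpdef
  set p' : ℝ := (absNorm (J' : Ideal (𝓞 K)) : ℝ) ^ (1 - s) with hp'def
  set w : ℝ := (torsionOrder K : ℝ) with hw
  set T : ℝ := ∑' a : 𝓞 K, czPhi K s (Analytic.intEmb K a) with hT
  set Z : ℝ := classZeta K C s with hZdef
  set Z' : ℝ := classZeta K C' s with hZ'def
  have h1' : w * (p * Z) ≤ T + B₁ := by
    have := (abs_le.mp h1).1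
    linarith
  have h2' : T ≤ w * (p' * Z') + B₂ := by
    have := (abs_le.mp h2).2
    linarith
  have h3 : w * (p' * Z') ≤ w * (p * Z') :=
    mul_le_mul_of_nonneg_left (mul_le_mul_of_nonneg_right hp hZ') (by linarith)
  have hc : 0 < w * p := mul_pos (by linarith) hppos
  have hcn : 1 ≤ w * p * n := by
    have : 1 * 1 ≤ w * (p * n) := mul_le_mul hw1 hpn zero_le_one (by linarith)
    linarith
  have hB : B₁ + B₂ ≤ (|B₁| + |B₂|) * (w * p * n) := by
    have h5 : B₁ + B₂ ≤ |B₁| + |B₂| := add_le_add (le_abs_self _) (le_abs_self _)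
    have h6 : 0 ≤ |B₁| + |B₂| := add_nonneg (abs_nonneg _) (abs_nonneg _)
    nlinarith
  have hfin : (w * p) * Z ≤ (w * p) * (Z' + (|B₁| + |B₂|) * n) := by
    have e1 : (w * p) * Z = w * (p * Z) := by ring
    have e2 : (w * p) * (Z' + (|B₁| + |B₂|) * n) = w * (p * Z') + (|B₁| + |B₂|) * (w * p * n) := by
      ring
    rw [e1, e2]
    linarith
  exact le_of_mul_le_mul_left hfin hc

/-- **Partial zeta functions of ideal classes differ by a bounded amount** on `1 < s ≤ 2`. -/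
theorem classZeta_sub_bounded (C C' : ClassGroup (𝓞 K)) :
    ∃ B : ℝ, ∀ s : ℝ, 1 < s → s ≤ 2 → |classZeta K C s - classZeta K C' s| ≤ B := by
  obtain ⟨B₁, hB₁⟩ := classZeta_le_add K C C'
  obtain ⟨B₂, hB₂⟩ := classZeta_le_add K C' C
  refine ⟨max B₁ B₂, fun s hs1 hs2 => ?_⟩
  rw [abs_le]
  have h1 := hB₁ s hs1 hs2
  have h2 := hB₂ s hs1 hs2
  have := le_max_left B₁ B₂
  have := le_max_right B₁ B₂
  constructor <;> linarith

/-- `classZeta_sub_bounded` with `classZeta` unfolded (the form consumed as `hbdd` by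
`ClassCharSum` and `SecondIneq`). -/
theorem classZeta_sub_bounded_unfolded (C C' : ClassGroup (𝓞 K)) :
    ∃ B : ℝ, ∀ s : ℝ, 1 < s → s ≤ 2 →
      |∑' J : {J : (Ideal (𝓞 K))⁰ // ClassGroup.mk0 J = C}, (absNorm (J : Ideal (𝓞 K)) : ℝ) ^ (-s)
        - ∑' J : {J : (Ideal (𝓞 K))⁰ // ClassGroup.mk0 J = C'},
            (absNorm (J : Ideal (𝓞 K)) : ℝ) ^ (-s)| ≤ B :=
  classZeta_sub_bounded K C C'

/-- **Mean-zero class functions have bounded Dirichlet series on `(1, 2]`** (unconditional). -/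
theorem classFun_tsum_bounded_uncond (f : ClassGroup (𝓞 K) → ℂ) (hf : ∑ C, f C = 0) :
    ∃ B : ℝ, ∀ s : ℝ, 1 < s → s ≤ 2 →
      ‖∑' I : Fermat.Agent.Lib.Frob.NzIdeal K,
        f (Analytic.nzClass K I) * ((Fermat.Agent.Lib.Frob.wt K s I.1 : ℝ) : ℂ)‖ ≤ B :=
  Analytic.classFun_tsum_bounded K f hf (classZeta_sub_bounded_unfolded K)

/-- **Class-group `L`-series of a nontrivial character are bounded on `(1, 2]`**
(unconditional). -/
theorem classChar_tsum_bounded_uncond (χ : ClassGroup (𝓞 K) →* ℂˣ) (hχ : χ ≠ 1) :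
    ∃ B : ℝ, ∀ s : ℝ, 1 < s → s ≤ 2 →
      ‖∑' I : {I : Ideal (𝓞 K) // I ≠ ⊥},
        (χ (ClassGroup.mk0 ⟨I.1, mem_nonZeroDivisors_of_ne_zero I.2⟩) : ℂ)
          * (((absNorm I.1 : ℝ) ^ (-s) : ℝ) : ℂ)‖ ≤ B :=
  Analytic.classChar_tsum_bounded K χ hχ (classZeta_sub_bounded_unfolded K)

end Fermat.Agent.CFT
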