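import Mathlib

/-!
# Euler product over the prime ideals of a Dedekind domain (exp-log form)

For a completely multiplicative function `φ` on the ideals of a Dedekind domain `R` with
`∑_I ‖φ I‖ < ∞` we prove
`exp (∑_𝔭 -log (1 - φ 𝔭)) = ∑_I φ I`, the sum over prime ideals being absolutely convergent.
(Mathlib only has the `ℕ`-indexed version.)
-/

namespace Fermat.Agent.CFT.SecondIneq

open IsDedekindDomain Filter Topology

section EulerIdeal

variable {R : Type*} [CommRing R] [IsDedekindDomain R]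

/-- Nonzero ideals all of whose prime divisors lie in `T`. -/
def suppIdeals (T : Finset (HeightOneSpectrum R)) : Set (Ideal R) :=
  {I | I ≠ ⊥ ∧ ∀ v : HeightOneSpectrum R, I ≤ v.asIdeal → v ∈ T}

theorem ei_suppIdeals_empty : suppIdeals (∅ : Finset (HeightOneSpectrum R)) = {⊤} := by
  ext I
  simp only [suppIdeals, Set.mem_ofPred_eq, Finset.notMem_empty, imp_false, Set.mem_singleton_iff]
  constructor
  · rintro ⟨hI, hv⟩
    by_contra hne
    obtain ⟨m, hm, hIm⟩ := Ideal.exists_le_maximal I hne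
    have hmbot : m ≠ ⊥ := by
      rintro rfl
      exact hI (le_bot_iff.mp hIm)
    exact hv ⟨m, hm.isPrime, hmbot⟩ hIm
  · rintro rfl
    refine ⟨top_ne_bot, fun v hv => ?_⟩
    exact v.isPrime.ne_top (top_le_iff.mp hv)

omit [IsDedekindDomain R] in
theorem ei_pow (φ : Ideal R → ℂ) (h1 : φ ⊤ = 1) (hmul : ∀ I J, φ (I * J) = φ I * φ J)
    (I : Ideal R) (k : ℕ) : φ (I ^ k) = φ I ^ k := by
  induction k with
  | zero => simpa [Ideal.one_eq_top] using h1
  | succ k ih => rw [pow_succ, hmul, ih, pow_succ]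

theorem ei_norm_lt_one {φ : Ideal R → ℂ} (h1 : φ ⊤ = 1) (hmul : ∀ I J, φ (I * J) = φ I * φ J)
    (hφ : Summable (fun I : Ideal R => ‖φ I‖)) (v : HeightOneSpectrum R) :
    ‖φ v.asIdeal‖ < 1 := by
  have hinj : Function.Injective (fun k : ℕ => v.asIdeal ^ k) :=
    pow_injective_of_not_isUnit (by rw [Ideal.isUnit_iff]; exact v.isPrime.ne_top) v.ne_bot
  have h2 : Summable (fun k : ℕ => ‖φ v.asIdeal ^ k‖) := by
    refine (hφ.comp_injective hinj).congr fun k => ?_
    simp only [Function.comp]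
    rw [ei_pow φ h1 hmul]
  exact summable_geometric_iff_norm_lt_one.mp h2.of_norm

/-- The map `(k, J) ↦ 𝔮 ^ k * J`. -/
theorem ei_mem_insert {T : Finset (HeightOneSpectrum R)} (q : HeightOneSpectrum R)
    [DecidableEq (HeightOneSpectrum R)] (k : ℕ)
    {J : Ideal R} (hJ : J ∈ suppIdeals T) : q.asIdeal ^ k * J ∈ suppIdeals (insert q T) := by
  refine ⟨mul_ne_zero (pow_ne_zero k q.ne_bot) hJ.1, fun v hv => ?_⟩
  rcases (v.isPrime.mul_le).mp hv with h | h
  · have hqv : q.asIdeal ≤ v.asIdeal := v.isPrime.le_of_pow_le h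
    have : q = v := HeightOneSpectrum.ext (q.isMaximal.eq_of_le v.isPrime.ne_top hqv)
    rw [← this]
    exact Finset.mem_insert_self _ _
  · exact Finset.mem_insert_of_mem (hJ.2 v h)

theorem ei_bijective {T : Finset (HeightOneSpectrum R)} (q : HeightOneSpectrum R)
    [DecidableEq (HeightOneSpectrum R)] (hq : q ∉ T) :
    Function.Bijective (fun x : ℕ × ↥(suppIdeals T) =>
      (⟨q.asIdeal ^ x.1 * x.2.1, ei_mem_insert q x.1 x.2.2⟩ : ↥(suppIdeals (insert q T)))) := by
  have key : ∀ (k k' : ℕ) (J J' : ↥(suppIdeals T)), k ≤ k' →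
      q.asIdeal ^ k * J.1 = q.asIdeal ^ k' * J'.1 → k = k' ∧ J = J' := by
    intro k k' J J' hkk h
    obtain ⟨m, rfl⟩ := Nat.exists_eq_add_of_le hkk
    rw [pow_add, mul_assoc] at h
    have h' : J.1 = q.asIdeal ^ m * J'.1 := mul_left_cancel₀ (pow_ne_zero k q.ne_bot) h
    have hm : m = 0 := by
      by_contra hm
      have hle : J.1 ≤ q.asIdeal := by
        rw [h']
        exact Ideal.mul_le_left.trans (Ideal.pow_le_self hm)
      exact hq (J.2.2 q hle)
    subst hm
    refine ⟨rfl, Subtype.ext ?_⟩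
    simpa using h'
  constructor
  · rintro ⟨k, J⟩ ⟨k', J'⟩ h
    have h' : q.asIdeal ^ k * J.1 = q.asIdeal ^ k' * J'.1 := congrArg Subtype.val h
    rcases Nat.le_total k k' with hk | hk
    · obtain ⟨h1, h2⟩ := key k k' J J' hk h'
      rw [h1, h2]
    · obtain ⟨h1, h2⟩ := key k' k J' J hk h'.symm
      rw [h1, h2]
  · rintro ⟨I, hI⟩
    obtain ⟨n, a, hna, hIa⟩ := WfDvdMonoid.max_power_factor (α := Ideal R) hI.1 q.irreducible
    have ha : a ∈ suppIdeals T := by
      refine ⟨?_, fun v hv => ?_⟩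
      · rintro rfl
        exact hI.1 (by rw [hIa]; simp)
      · have hIv : I ≤ v.asIdeal := by
          rw [hIa]
          exact Ideal.mul_le_right.trans hv
        rcases Finset.mem_insert.mp (hI.2 v hIv) with h | h
        · exact absurd (Ideal.dvd_iff_le.mpr (h ▸ hv)) hna
        · exact h
    exact ⟨(n, ⟨a, ha⟩), Subtype.ext hIa.symm⟩

theorem ei_finite_prod {φ : Ideal R → ℂ} (h1 : φ ⊤ = 1) (hmul : ∀ I J, φ (I * J) = φ I * φ J)
    (hφ : Summable (fun I : Ideal R => ‖φ I‖)) (T : Finset (HeightOneSpectrum R)) :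
    ∑' I : ↥(suppIdeals T), φ I.1 = ∏ v ∈ T, (1 - φ v.asIdeal)⁻¹ := by
  classical
  induction T using Finset.induction_on with
  | empty =>
    rw [Finset.prod_empty, ei_suppIdeals_empty, tsum_singleton (⊤ : Ideal R) φ, h1]
  | insert q T hq ih =>
    rw [Finset.prod_insert hq, ← ih]
    have hb := ei_bijective q hq
    rw [← (Equiv.ofBijective _ hb).tsum_eq (fun I : ↥(suppIdeals (insert q T)) => φ I.1)]
    have hlt := ei_norm_lt_one h1 hmul hφ q
    have hg : Summable (fun k : ℕ => ‖φ q.asIdeal ^ k‖) := by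
      simp only [norm_pow]
      exact summable_geometric_of_lt_one (norm_nonneg _) hlt
    have hT : Summable (fun J : ↥(suppIdeals T) => ‖φ J.1‖) := hφ.subtype _
    rw [← tsum_geometric_of_norm_lt_one hlt, tsum_mul_tsum_of_summable_norm hg hT]
    refine tsum_congr fun x => ?_
    simp only [Equiv.ofBijective_apply]
    rw [hmul, ei_pow φ h1 hmul]

theorem ei_tendsto {φ : Ideal R → ℂ} (h0 : φ ⊥ = 0) (h1 : φ ⊤ = 1)
    (hmul : ∀ I J, φ (I * J) = φ I * φ J)
    (hφ : Summable (fun I : Ideal R => ‖φ I‖)) :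
    Tendsto (fun T : Finset (HeightOneSpectrum R) => ∏ v ∈ T, (1 - φ v.asIdeal)⁻¹) atTop
      (𝓝 (∑' I : Ideal R, φ I)) := by
  have hdc := tendsto_tsum_of_dominated_convergence (𝓕 := (atTop : Filter (Finset (HeightOneSpectrum R))))
    (f := fun T I => (suppIdeals T).indicator φ I) (g := φ) (bound := fun I => ‖φ I‖) hφ ?_ ?_
  · refine hdc.congr fun T => ?_
    rw [← ei_finite_prod h1 hmul hφ T, tsum_subtype (suppIdeals T) φ]
  · intro I
    by_cases hI : I = ⊥
    · subst hI
      have : ∀ T : Finset (HeightOneSpectrum R), (suppIdeals T).indicator φ ⊥ = φ ⊥ := by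
        intro T
        rw [h0]
        exact Set.indicator_of_notMem (fun h => h.1 rfl) _
      simp only [this]
      exact tendsto_const_nhds
    · have hfin : {v : HeightOneSpectrum R | v.asIdeal ∣ I}.Finite := Ideal.finite_factors hI
      refine tendsto_const_nhds.congr' ?_
      filter_upwards [eventually_ge_atTop hfin.toFinset] with T hT
      refine (Set.indicator_of_mem ?_ _).symm
      refine ⟨hI, fun v hv => hT ?_⟩
      rw [Set.Finite.mem_toFinset]
      exact Ideal.dvd_iff_le.mpr hv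
  · refine Eventually.of_forall fun T I => ?_
    by_cases h : I ∈ suppIdeals T
    · rw [Set.indicator_of_mem h]
    · rw [Set.indicator_of_notMem h, norm_zero]
      exact norm_nonneg _

/-- **Euler product over prime ideals, exp-log form.** -/
theorem euler_exp_log {φ : Ideal R → ℂ} (h0 : φ ⊥ = 0) (h1 : φ ⊤ = 1)
    (hmul : ∀ I J, φ (I * J) = φ I * φ J)
    (hφ : Summable (fun I : Ideal R => ‖φ I‖)) :
    Summable (fun v : HeightOneSpectrum R => -Complex.log (1 - φ v.asIdeal)) ∧
    Complex.exp (∑' v : HeightOneSpectrum R, -Complex.log (1 - φ v.asIdeal)) =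
      ∑' I : Ideal R, φ I := by
  have hprime : Summable (fun v : HeightOneSpectrum R => ‖φ v.asIdeal‖) :=
    hφ.comp_injective (fun v w h => HeightOneSpectrum.ext h)
  have hlog : Summable (fun v : HeightOneSpectrum R => -Complex.log (1 - φ v.asIdeal)) := by
    refine Summable.of_norm_bounded_eventually (g := fun v => 3 / 2 * ‖φ v.asIdeal‖)
      (hprime.mul_left _) ?_
    have hev := hprime.tendsto_cofinite_zero.eventually
      (gt_mem_nhds (show (0 : ℝ) < 1 / 2 by norm_num))
    filter_upwards [hev] with v hv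
    have h2 := Complex.norm_log_one_add_half_le_self (z := -φ v.asIdeal)
      (by rw [norm_neg]; exact hv.le)
    rw [norm_neg] at h2
    rw [norm_neg, sub_eq_add_neg]
    exact h2
  refine ⟨hlog, ?_⟩
  have hE : Tendsto (fun T : Finset (HeightOneSpectrum R) =>
      Complex.exp (∑ v ∈ T, -Complex.log (1 - φ v.asIdeal))) atTop
      (𝓝 (Complex.exp (∑' v : HeightOneSpectrum R, -Complex.log (1 - φ v.asIdeal)))) :=
    (Complex.continuous_exp.tendsto _).comp hlog.hasSum
  have hEq : ∀ T : Finset (HeightOneSpectrum R),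
      Complex.exp (∑ v ∈ T, -Complex.log (1 - φ v.asIdeal)) =
        ∏ v ∈ T, (1 - φ v.asIdeal)⁻¹ := by
    intro T
    rw [Complex.exp_sum]
    refine Finset.prod_congr rfl fun v _ => ?_
    have hne : (1 : ℂ) - φ v.asIdeal ≠ 0 := by
      intro h
      have hlt := ei_norm_lt_one h1 hmul hφ v
      rw [← sub_eq_zero.mp h, norm_one] at hlt
      exact lt_irrefl _ hlt
    rw [Complex.exp_neg, Complex.exp_log hne]
  exact tendsto_nhds_unique (hE.congr hEq) (ei_tendsto h0 h1 hmul hφ)

end EulerIdeal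

end Fermat.Agent.CFT.SecondIneq
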