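/-
CFT / Analytic: comparison of lattice sums over a lattice and a sublattice of finite index.

If `φ s` is a family of functions on a normed space which is "homogeneously Lipschitz"
(`|φ s (x + v) - φ s x| ≤ C ‖v‖ ‖x‖ ^ (-(d+1))` for `‖x‖ ≥ R (1 + ‖v‖)`), then the sum of `φ s`
over a lattice and `t` times the sum over a sublattice of index `t` differ by a quantity bounded
uniformly in `s`.  The lattices are given abstractly by index types `X`, `X'` with maps to `E`
and a coset decomposition `ι × X' ≃ X`.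
-/
import Mathlib

set_option autoImplicit false

namespace Fermat.Agent.CFT

open Filter Topology

/-- Tail/finite-part bound: a family `D` on `X'` which is bounded by `c * ‖emb' x'‖ ^ (-(d+1))`
outside a finite set and by `M x'` everywhere is absolutely summable with an explicit bound. -/
theorem latCmp_tsum_abs_le {E X' : Type*} [NormedAddCommGroup E] (emb' : X' → E) (d : ℝ)
    (hsum : Summable fun x' : X' => ‖emb' x'‖ ^ (-(d + 1)))
    (F : Finset X') (M : X' → ℝ) (c : ℝ) (hc : 0 ≤ c) (D : X' → ℝ)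
    (hM : ∀ x', |D x'| ≤ M x')
    (hD : ∀ x', x' ∉ F → |D x'| ≤ c * ‖emb' x'‖ ^ (-(d + 1))) :
    Summable D ∧ |∑' x', D x'| ≤ ∑ x' ∈ F, M x' + c * ∑' x', ‖emb' x'‖ ^ (-(d + 1)) := by
  classical
  have hnn : ∀ x', 0 ≤ ‖emb' x'‖ ^ (-(d + 1)) := fun x' =>
    Real.rpow_nonneg (norm_nonneg _) _
  have hMnn : ∀ x', 0 ≤ M x' := fun x' => (abs_nonneg _).trans (hM x')
  have hbound : ∀ x', |D x'| ≤ (if x' ∈ F then M x' else 0) + c * ‖emb' x'‖ ^ (-(d + 1)) := by
    intro x'
    by_cases hx : x' ∈ F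
    · simp only [hx, if_true]
      have := mul_nonneg hc (hnn x')
      linarith [hM x']
    · simp only [hx, if_false, zero_add]
      exact hD x' hx
  have hs1 : Summable fun x' : X' => (if x' ∈ F then M x' else 0) :=
    summable_of_ne_finset_zero (s := F) (fun x' hx => by simp [hx])
  have hs2 : Summable fun x' : X' => (if x' ∈ F then M x' else 0) + c * ‖emb' x'‖ ^ (-(d + 1)) :=
    hs1.add (hsum.mul_left c)
  have habs : Summable fun x' => |D x'| :=
    Summable.of_nonneg_of_le (fun _ => abs_nonneg _) hbound hs2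
  have hDs : Summable D := habs.of_abs
  refine ⟨hDs, ?_⟩
  calc |∑' x', D x'| ≤ ∑' x', |D x'| := by
        have := norm_tsum_le_tsum_norm (f := D) (by simpa [Real.norm_eq_abs] using habs)
        simpa [Real.norm_eq_abs] using this
    _ ≤ ∑' x', ((if x' ∈ F then M x' else 0) + c * ‖emb' x'‖ ^ (-(d + 1))) :=
        habs.tsum_le_tsum hbound hs2
    _ = ∑ x' ∈ F, M x' + c * ∑' x', ‖emb' x'‖ ^ (-(d + 1)) := by
        rw [hs1.tsum_add (hsum.mul_left c), tsum_mul_left]
        congr 1
        rw [tsum_eq_sum (s := F) (fun x' hx => by simp [hx])]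
        exact Finset.sum_congr rfl (fun x' hx => by simp [hx])

/-- **Sublattice comparison.**  `X` is the big lattice, `X'` the sublattice, `ι` a (finite) set of
coset representatives `r i`.  For a homogeneously Lipschitz family `φ s`, the sums over `X` and
`card ι` times the sum over `X'` differ by a bounded amount, uniformly in `s ∈ S`. -/
theorem latCmp_sum_compare {E ι X X' : Type*} [NormedAddCommGroup E] [Fintype ι]
    (emb : X → E) (emb' : X' → E) (r : ι → E) (e : ι × X' ≃ X)
    (he : ∀ i x', emb (e (i, x')) = emb' x' + r i)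
    (d : ℝ) (hsum : Summable fun x' : X' => ‖emb' x'‖ ^ (-(d + 1)))
    (hfin : ∀ ρ : ℝ, {x' : X' | ‖emb' x'‖ ≤ ρ}.Finite)
    (S : Set ℝ) (φ : ℝ → E → ℝ) (C R : ℝ) (hC : 0 ≤ C)
    (hL : ∀ s ∈ S, ∀ x v : E, R * (1 + ‖v‖) ≤ ‖x‖ →
      |φ s (x + v) - φ s x| ≤ C * ‖v‖ * ‖x‖ ^ (-(d + 1)))
    (hB : ∀ x : E, ∃ M, ∀ s ∈ S, |φ s x| ≤ M)
    (hS : ∀ s ∈ S, Summable fun x => φ s (emb x))
    (hS' : ∀ s ∈ S, Summable fun x' => φ s (emb' x')) :
    ∃ B, ∀ s ∈ S, |∑' x, φ s (emb x) - Fintype.card ι * ∑' x', φ s (emb' x')| ≤ B := by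
  classical
  -- pointwise bounds, uniformly in s
  choose Mφ hMφ using hB
  set T : ℝ := ∑' x', ‖emb' x'‖ ^ (-(d + 1)) with hT
  -- the finite exceptional sets
  let Fs : ι → Finset X' := fun i => (hfin (R * (1 + ‖r i‖))).toFinset
  let Mi : ι → X' → ℝ := fun i x' => Mφ (emb' x' + r i) + Mφ (emb' x')
  refine ⟨∑ i, (∑ x' ∈ Fs i, Mi i x' + C * ‖r i‖ * T), fun s hs => ?_⟩
  -- decompose the sum over X along the cosets
  have hsumE : Summable fun p : ι × X' => φ s (emb (e p)) := (e.summable_iff).mpr (hS s hs)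
  have hfib : ∀ i, Summable fun x' => φ s (emb' x' + r i) := by
    intro i
    have := hsumE.comp_injective (i := fun x' : X' => (i, x')) (fun a b h => by simpa using h)
    simpa [Function.comp_def, he] using this
  have h1 : ∑' x, φ s (emb x) = ∑ i, ∑' x', φ s (emb' x' + r i) := by
    rw [← e.tsum_eq (fun x => φ s (emb x))]
    rw [hsumE.tsum_prod' (fun i => by simpa [he] using hfib i), tsum_fintype]
    exact Finset.sum_congr rfl (fun i _ => tsum_congr (fun x' => by rw [he]))
  have h2 : (Fintype.card ι : ℝ) * ∑' x', φ s (emb' x') = ∑ i : ι, ∑' x', φ s (emb' x') := by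
    simp [Finset.sum_const, Finset.card_univ]
  rw [h1, h2, ← Finset.sum_sub_distrib]
  refine (Finset.abs_sum_le_sum_abs _ _).trans (Finset.sum_le_sum (fun i _ => ?_))
  rw [← (hfib i).tsum_sub (hS' s hs)]
  have key := latCmp_tsum_abs_le emb' d hsum (Fs i) (Mi i) (C * ‖r i‖)
    (mul_nonneg hC (norm_nonneg _)) (fun x' => φ s (emb' x' + r i) - φ s (emb' x'))
    (fun x' => by
      have h1 := hMφ (emb' x' + r i) s hs
      have h2 := hMφ (emb' x') s hs
      calc |φ s (emb' x' + r i) - φ s (emb' x')| ≤ |φ s (emb' x' + r i)| + |φ s (emb' x')| :=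
            abs_sub _ _
        _ ≤ Mi i x' := add_le_add h1 h2)
    (fun x' hx' => by
      have hx : R * (1 + ‖r i‖) ≤ ‖emb' x'‖ := by
        by_contra hcon
        exact hx' ((hfin _).mem_toFinset.mpr (le_of_lt (not_le.mp hcon)))
      exact hL s hs (emb' x') (r i) hx)
  exact key.2.trans (le_of_eq (by rw [hT]))

end Fermat.Agent.CFT
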