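/-
CFT / Analytic: a Lipschitz partition of unity for the action of the units of a number field.

`czG K : logSpace K → ℝ` is a product of tent functions in the coordinates of the chosen basis of
the unit lattice.  It is Lipschitz, compactly supported, and the sum of its translates over the
images of all units is the number of roots of unity (`czG_unit_hasSum`).
-/
import Mathlib

set_option autoImplicit false

namespace Fermat.Agent.CFT

open NumberField NumberField.InfinitePlace NumberField.mixedEmbedding NumberField.Units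
  NumberField.Units.dirichletUnitTheorem

/-- The tent function `max 0 (1 - |t|)`. -/
noncomputable def czTent (t : ℝ) : ℝ := max 0 (1 - |t|)

theorem czTent_nonneg (t : ℝ) : 0 ≤ czTent t := le_max_left _ _

theorem czTent_le_one (t : ℝ) : czTent t ≤ 1 := by
  unfold czTent
  exact max_le zero_le_one (by linarith [abs_nonneg t])

theorem czTent_eq_zero {t : ℝ} (h : 1 ≤ |t|) : czTent t = 0 := by
  unfold czTent
  exact max_eq_left (by linarith)

theorem czTent_of_abs_le {t : ℝ} (h : |t| ≤ 1) : czTent t = 1 - |t| := by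
  unfold czTent
  exact max_eq_right (by linarith)

theorem czTent_lipschitz (a b : ℝ) : |czTent a - czTent b| ≤ |a - b| := by
  unfold czTent
  have h1 : |max 0 (1 - |a|) - max 0 (1 - |b|)| ≤ |(1 - |a|) - (1 - |b|)| := by
    have := abs_max_sub_max_le_abs (1 - |a|) (1 - |b|) 0
    simpa [max_comm] using this
  refine h1.trans ?_
  have : (1 - |a|) - (1 - |b|) = |b| - |a| := by ring
  rw [this, abs_sub_comm]
  exact abs_abs_sub_abs_le_abs_sub a b

/-- The integer translates of the tent function form a partition of unity: finite-support form. -/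
theorem czTent_sum (c : ℝ) :
    (∀ n : ℤ, n ∉ ({-⌊c⌋ - 1, -⌊c⌋} : Finset ℤ) → czTent (n + c) = 0) ∧
      ∑ n ∈ ({-⌊c⌋ - 1, -⌊c⌋} : Finset ℤ), czTent (n + c) = 1 := by
  have hf0 := Int.fract_nonneg c
  have hf1 := Int.fract_lt_one c
  have hc : c = ⌊c⌋ + Int.fract c := (Int.floor_add_fract c).symm
  constructor
  · intro n hn
    simp only [Finset.mem_insert, Finset.mem_singleton, not_or] at hn
    apply czTent_eq_zero
    rcases lt_or_gt_of_ne hn.2 with h | h
    · have h' : n ≤ -⌊c⌋ - 2 := by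
        have : n < -⌊c⌋ - 1 := lt_of_le_of_ne (by omega) hn.1
        omega
      have h'' : (n : ℝ) ≤ -⌊c⌋ - 2 := by exact_mod_cast h'
      rw [abs_of_nonpos (by linarith)]
      linarith
    · have h' : -⌊c⌋ + 1 ≤ n := by omega
      have h'' : (-⌊c⌋ + 1 : ℝ) ≤ n := by exact_mod_cast h'
      rw [abs_of_nonneg (by linarith)]
      linarith
  · have hne : (-⌊c⌋ - 1 : ℤ) ≠ -⌊c⌋ := by omega
    rw [Finset.sum_pair hne]
    have e1 : ((-⌊c⌋ - 1 : ℤ) : ℝ) + c = Int.fract c - 1 := by
      push_cast; linarith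
    have e2 : ((-⌊c⌋ : ℤ) : ℝ) + c = Int.fract c := by
      push_cast; linarith
    rw [e1, e2, czTent_of_abs_le (by rw [abs_le]; constructor <;> linarith),
      czTent_of_abs_le (by rw [abs_le]; constructor <;> linarith),
      abs_of_nonpos (by linarith), abs_of_nonneg hf0]
    ring

/-- Product version of `czTent_sum`. -/
theorem czTent_pi_sum {r : ℕ} (c : Fin r → ℝ) :
    ∃ s : Finset (Fin r → ℤ), (∀ n : Fin r → ℤ, n ∉ s → ∏ i, czTent (n i + c i) = 0) ∧
      ∑ n ∈ s, ∏ i, czTent (n i + c i) = 1 := by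
  classical
  refine ⟨Fintype.piFinset (fun i => ({-⌊c i⌋ - 1, -⌊c i⌋} : Finset ℤ)), ?_, ?_⟩
  · intro n hn
    rw [Fintype.mem_piFinset] at hn
    simp only [not_forall] at hn
    obtain ⟨i, hi⟩ := hn
    exact Finset.prod_eq_zero (Finset.mem_univ i) ((czTent_sum (c i)).1 _ hi)
  · rw [← Finset.prod_univ_sum (fun i => ({-⌊c i⌋ - 1, -⌊c i⌋} : Finset ℤ))
      (fun i (n : ℤ) => czTent (n + c i))]
    exact Finset.prod_eq_one (fun i _ => (czTent_sum (c i)).2)

variable (K : Type*) [Field K] [NumberField K]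

open scoped Classical

/-- The real basis of the log space given by the chosen basis of the unit lattice. -/
noncomputable def czBasis : Module.Basis (Fin (rank K)) ℝ (logSpace K) :=
  (basisUnitLattice K).ofZLatticeBasis ℝ (unitLattice K)

/-- The weight function on the log space: a product of tent functions in the coordinates of the
unit lattice basis.  Its translates by the unit lattice form a partition of unity. -/
noncomputable def czG (y : logSpace K) : ℝ := ∏ i, czTent ((czBasis K).equivFun y i)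

theorem czG_nonneg (y : logSpace K) : 0 ≤ czG K y :=
  Finset.prod_nonneg (fun _ _ => czTent_nonneg _)

theorem czG_le_one (y : logSpace K) : czG K y ≤ 1 :=
  Finset.prod_le_one (fun _ _ => czTent_nonneg _) (fun _ _ => czTent_le_one _)

theorem czG_abs_le_one (y : logSpace K) : |czG K y| ≤ 1 := by
  rw [abs_of_nonneg (czG_nonneg K y)]; exact czG_le_one K y

/-- Products of numbers in `[0,1]` are Lipschitz in the factors. -/
theorem cz_prod_sub_prod_le {ι : Type*} (s : Finset ι) (a b : ι → ℝ)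
    (ha : ∀ i, 0 ≤ a i ∧ a i ≤ 1) (hb : ∀ i, 0 ≤ b i ∧ b i ≤ 1) :
    |∏ i ∈ s, a i - ∏ i ∈ s, b i| ≤ ∑ i ∈ s, |a i - b i| := by
  classical
  induction s using Finset.induction_on with
  | empty => simp
  | insert j s hj ih =>
    rw [Finset.prod_insert hj, Finset.prod_insert hj, Finset.sum_insert hj]
    have hA : 0 ≤ ∏ i ∈ s, a i ∧ ∏ i ∈ s, a i ≤ 1 :=
      ⟨Finset.prod_nonneg (fun i _ => (ha i).1),
        Finset.prod_le_one (fun i _ => (ha i).1) (fun i _ => (ha i).2)⟩
    have e : a j * ∏ i ∈ s, a i - b j * ∏ i ∈ s, b i =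
        (a j - b j) * ∏ i ∈ s, a i + b j * (∏ i ∈ s, a i - ∏ i ∈ s, b i) := by ring
    rw [e]
    refine (abs_add_le _ _).trans (add_le_add ?_ ?_)
    · rw [abs_mul, abs_of_nonneg hA.1]
      exact mul_le_of_le_one_right (abs_nonneg _) hA.2
    · rw [abs_mul, abs_of_nonneg (hb j).1]
      exact (mul_le_of_le_one_left (abs_nonneg _) (hb j).2).trans ih

theorem czG_lipschitz : ∃ Lg : ℝ, 0 ≤ Lg ∧ ∀ y y' : logSpace K, |czG K y - czG K y'| ≤ Lg * ‖y - y'‖ := by
  classical
  let f : logSpace K →L[ℝ] (Fin (rank K) → ℝ) :=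
    LinearMap.toContinuousLinearMap ((czBasis K).equivFun : logSpace K →ₗ[ℝ] (Fin (rank K) → ℝ))
  refine ⟨(rank K : ℝ) * ‖f‖, by positivity, fun y y' => ?_⟩
  unfold czG
  refine (cz_prod_sub_prod_le Finset.univ _ _ (fun i => ⟨czTent_nonneg _, czTent_le_one _⟩)
    (fun i => ⟨czTent_nonneg _, czTent_le_one _⟩)).trans ?_
  have hi : ∀ i ∈ (Finset.univ : Finset (Fin (rank K))),
      |czTent ((czBasis K).equivFun y i) - czTent ((czBasis K).equivFun y' i)| ≤ ‖f‖ * ‖y - y'‖ := by
    intro i _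
    refine (czTent_lipschitz _ _).trans ?_
    have h1 : (czBasis K).equivFun y i - (czBasis K).equivFun y' i = f (y - y') i := by
      simp [f]
    rw [h1]
    exact (norm_le_pi_norm (f (y - y')) i).trans (f.le_opNorm _)
  refine (Finset.sum_le_sum hi).trans ?_
  simp [Finset.sum_const, mul_assoc]

theorem czG_support : ∃ Rg : ℝ, 0 ≤ Rg ∧ ∀ y : logSpace K, czG K y ≠ 0 → ‖y‖ ≤ Rg := by
  classical
  refine ⟨∑ i, ‖czBasis K i‖, Finset.sum_nonneg (fun _ _ => norm_nonneg _), fun y hy => ?_⟩
  have hlt : ∀ i, |(czBasis K).equivFun y i| ≤ 1 := by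
    intro i
    by_contra hcon
    exact hy (Finset.prod_eq_zero (Finset.mem_univ i) (czTent_eq_zero (le_of_lt (not_le.mp hcon))))
  have hy' : y = ∑ i, (czBasis K).equivFun y i • czBasis K i := ((czBasis K).sum_equivFun y).symm
  rw [hy']
  refine (norm_sum_le _ _).trans (Finset.sum_le_sum (fun i _ => ?_))
  rw [_root_.norm_smul, Real.norm_eq_abs]
  exact mul_le_of_le_one_left (norm_nonneg _) (hlt i)

/-- The bijection `torsion × ℤ^r ≃ units` given by Dirichlet's unit theorem. -/
noncomputable def czUnitEquiv : torsion K × (Fin (rank K) → ℤ) ≃ (𝓞 K)ˣ :=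
  Equiv.ofBijective (fun ζe => (ζe.1 : (𝓞 K)ˣ) * ∏ i, fundSystem K i ^ ζe.2 i)
    ⟨fun a b hab => by
      obtain ⟨c, _, hc⟩ := exist_unique_eq_mul_prod K ((a.1 : (𝓞 K)ˣ) * ∏ i, fundSystem K i ^ a.2 i)
      exact (hc a rfl).trans (hc b hab).symm,
     fun x => by
      obtain ⟨c, hc, _⟩ := exist_unique_eq_mul_prod K x
      exact ⟨c, hc.symm⟩⟩

theorem czUnitEquiv_apply (ζe : torsion K × (Fin (rank K) → ℤ)) :
    czUnitEquiv K ζe = (ζe.1 : (𝓞 K)ˣ) * ∏ i, fundSystem K i ^ ζe.2 i := rfl

theorem cz_logEmbedding_unitEquiv (ζe : torsion K × (Fin (rank K) → ℤ)) :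
    logEmbedding K (Additive.ofMul (czUnitEquiv K ζe)) = ∑ i, (ζe.2 i : ℝ) • czBasis K i := by
  rw [czUnitEquiv_apply, ofMul_mul, map_add, ofMul_prod, map_sum,
    (logEmbedding_eq_zero_iff (K := K)).mpr ζe.1.2, zero_add]
  refine Finset.sum_congr rfl (fun i _ => ?_)
  rw [ofMul_zpow, map_zsmul, logEmbedding_fundSystem, czBasis,
    Module.Basis.ofZLatticeBasis_apply, Int.cast_smul_eq_zsmul]

theorem czG_unitEquiv (ζe : torsion K × (Fin (rank K) → ℤ)) (y : logSpace K) :
    czG K (logEmbedding K (Additive.ofMul (czUnitEquiv K ζe)) + y) =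
      ∏ i, czTent ((ζe.2 i : ℝ) + (czBasis K).equivFun y i) := by
  unfold czG
  refine Finset.prod_congr rfl (fun i _ => ?_)
  rw [cz_logEmbedding_unitEquiv, map_add, Pi.add_apply]
  congr 2
  have : ∑ j, (ζe.2 j : ℝ) • czBasis K j = (czBasis K).equivFun.symm (fun j => (ζe.2 j : ℝ)) := by
    rw [Module.Basis.equivFun_symm_apply]
  rw [this, LinearEquiv.apply_symm_apply]

/-- **Unfolding identity for the weight**: summing the weight over a unit orbit gives the number
of roots of unity. -/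
theorem czG_unit_hasSum (y : logSpace K) :
    HasSum (fun u : (𝓞 K)ˣ => czG K (logEmbedding K (Additive.ofMul u) + y)) (torsionOrder K) := by
  rw [← (czUnitEquiv K).hasSum_iff]
  have : Fintype (torsion K) := Fintype.ofFinite _
  obtain ⟨s, hs0, hs1⟩ := czTent_pi_sum ((czBasis K).equivFun y)
  have hfun : ((fun u : (𝓞 K)ˣ => czG K (logEmbedding K (Additive.ofMul u) + y)) ∘ czUnitEquiv K) =
      fun ζe : torsion K × (Fin (rank K) → ℤ) =>
        ∏ i, czTent ((ζe.2 i : ℝ) + (czBasis K).equivFun y i) := by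
    funext ζe
    exact czG_unitEquiv K ζe y
  rw [hfun]
  have h0 : ∀ ζe : torsion K × (Fin (rank K) → ℤ), ζe ∉ (Finset.univ ×ˢ s) →
      ∏ i, czTent ((ζe.2 i : ℝ) + (czBasis K).equivFun y i) = 0 := by
    intro ζe hζe
    apply hs0
    simpa using hζe
  have hsum : HasSum (fun ζe : torsion K × (Fin (rank K) → ℤ) =>
      ∏ i, czTent ((ζe.2 i : ℝ) + (czBasis K).equivFun y i))
      (∑ ζe ∈ (Finset.univ ×ˢ s), ∏ i, czTent ((ζe.2 i : ℝ) + (czBasis K).equivFun y i)) :=
    hasSum_sum_of_ne_finset_zero h0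
  convert hsum using 1
  rw [Finset.sum_product]
  simp only [hs1, Finset.sum_const, Finset.card_univ, nsmul_eq_mul, mul_one]
  rw [torsionOrder, Nat.card_eq_fintype_card]

end Fermat.Agent.CFT
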