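/-
CFT / Analytic: the weight `czPhi s x = czG (logMap x) * norm x ^ (-s)` on the mixed space and its
homogeneous Lipschitz estimate (`czPhi_lipschitz`), pointwise bound (`czPhi_bound`) and domination
by a power of the norm (`czPhi_le_rpow`).
-/
import Fermat.Agent.CFT.Analytic.UnitWeight

set_option autoImplicit false

namespace Fermat.Agent.CFT

open NumberField NumberField.InfinitePlace NumberField.mixedEmbedding NumberField.Units
  NumberField.Units.dirichletUnitTheorem

/-! ### Two real-variable inequalities -/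

theorem cz_log_sub_log_le {a b m : ℝ} (hm : 0 < m) (ha : m ≤ a) (hb : m ≤ b) :
    |Real.log a - Real.log b| ≤ |a - b| / m := by
  have key : ∀ {a b : ℝ}, m ≤ a → m ≤ b → b ≤ a → |Real.log a - Real.log b| ≤ |a - b| / m := by
    intro a b ha hb hab
    have ha0 : 0 < a := lt_of_lt_of_le hm ha
    have hb0 : 0 < b := lt_of_lt_of_le hm hb
    have h1 : 0 ≤ Real.log a - Real.log b := sub_nonneg.mpr (Real.log_le_log hb0 hab)
    rw [abs_of_nonneg h1, abs_of_nonneg (sub_nonneg.mpr hab), ← Real.log_div ha0.ne' hb0.ne']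
    have h2 : Real.log (a / b) ≤ a / b - 1 := Real.log_le_sub_one_of_pos (div_pos ha0 hb0)
    have h3 : a / b - 1 = (a - b) / b := by field_simp
    rw [h3] at h2
    exact h2.trans (div_le_div_of_nonneg_left (sub_nonneg.mpr hab) hm hb)
  rcases le_total b a with h | h
  · exact key ha hb h
  · rw [abs_sub_comm, abs_sub_comm a b]
    exact key hb ha h

theorem cz_exp_sub_exp_le (a b : ℝ) :
    |Real.exp a - Real.exp b| ≤ max (Real.exp a) (Real.exp b) * |a - b| := by
  have key : ∀ a b : ℝ, b ≤ a → |Real.exp a - Real.exp b| ≤ Real.exp a * |a - b| := by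
    intro a b hab
    rw [abs_of_nonneg (sub_nonneg.mpr (Real.exp_le_exp.mpr hab)), abs_of_nonneg (sub_nonneg.mpr hab)]
    have h1 : 1 - (a - b) ≤ Real.exp (b - a) := by
      have := Real.add_one_le_exp (b - a)
      linarith
    have h2 : Real.exp b = Real.exp a * Real.exp (b - a) := by
      rw [← Real.exp_add]; congr 1; ring
    rw [h2]
    have h3 : 0 < Real.exp a := Real.exp_pos a
    nlinarith
  rcases le_total b a with h | h
  · exact (key a b h).trans (mul_le_mul_of_nonneg_right (le_max_left _ _) (abs_nonneg _))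
  · rw [abs_sub_comm, abs_sub_comm a b]
    exact (key b a h).trans (mul_le_mul_of_nonneg_right (le_max_right _ _) (abs_nonneg _))

variable (K : Type*) [Field K] [NumberField K]

open scoped Classical

/-! ### Elementary facts on the mixed space -/

theorem cz_normAtPlace_le (w : InfinitePlace K) (x : mixedSpace K) : normAtPlace w x ≤ ‖x‖ := by
  rw [norm_eq_sup'_normAtPlace]
  exact Finset.le_sup' (fun w => normAtPlace w x) (Finset.mem_univ w)

theorem cz_exists_normAtPlace_eq (x : mixedSpace K) : ∃ w : InfinitePlace K, normAtPlace w x = ‖x‖ := by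
  obtain ⟨w, -, hw⟩ := Finset.exists_mem_eq_sup' (Finset.univ_nonempty (α := InfinitePlace K))
    (fun w => normAtPlace w x)
  exact ⟨w, by rw [norm_eq_sup'_normAtPlace, hw]⟩

theorem cz_normAtPlace_sub_le (w : InfinitePlace K) (x y : mixedSpace K) :
    |normAtPlace w x - normAtPlace w y| ≤ ‖x - y‖ := by
  have h1 : normAtPlace w x ≤ normAtPlace w y + normAtPlace w (x - y) := by
    have := normAtPlace_add_le w y (x - y)
    simpa using this
  have h2 : normAtPlace w y ≤ normAtPlace w x + normAtPlace w (x - y) := by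
    have := normAtPlace_add_le w x (-(x - y))
    rw [normAtPlace_neg] at this
    simpa using this
  have h3 := cz_normAtPlace_le K w (x - y)
  rw [abs_le]
  constructor <;> linarith

theorem cz_norm_ge {x : mixedSpace K} {m : ℝ} (hm : 0 ≤ m) (h : ∀ w, m ≤ normAtPlace w x) :
    m ^ (Module.finrank ℚ K) ≤ mixedEmbedding.norm x := by
  rw [mixedEmbedding.norm_apply, ← sum_mult_eq, ← Finset.prod_pow_eq_pow_sum]
  exact Finset.prod_le_prod (fun w _ => pow_nonneg hm _) (fun w _ => pow_le_pow_left₀ hm (h w) _)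

theorem cz_log_norm {x : mixedSpace K} (h : ∀ w, 0 < normAtPlace w x) :
    Real.log (mixedEmbedding.norm x) = ∑ w, (mult w : ℝ) * Real.log (normAtPlace w x) := by
  rw [mixedEmbedding.norm_apply, Real.log_prod (fun w _ => pow_ne_zero _ (h w).ne')]
  exact Finset.sum_congr rfl (fun w _ => Real.log_pow _ _)

theorem cz_sum_mult : (∑ w : InfinitePlace K, (mult w : ℝ)) = (Module.finrank ℚ K : ℝ) := by
  rw [← Nat.cast_sum, sum_mult_eq]

omit [NumberField K] in
theorem cz_mult_le_two (w : InfinitePlace K) : (mult w : ℝ) ≤ 2 := by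
  unfold mult
  split_ifs <;> norm_num

/-! ### The weight on the mixed space -/

/-- The function whose lattice sums unfold the partial zeta functions. -/
noncomputable def czPhi (s : ℝ) (x : mixedSpace K) : ℝ :=
  czG K (logMap x) * (mixedEmbedding.norm x) ^ (-s)

/-- On the support of the weight, all the `normAtPlace w x` are comparable to `‖x‖`. -/
theorem cz_support_comparable : ∃ c₀ : ℝ, 0 < c₀ ∧ c₀ ≤ 1 ∧ ∀ x : mixedSpace K,
    mixedEmbedding.norm x ≠ 0 → czG K (logMap x) ≠ 0 → ∀ w, c₀ * ‖x‖ ≤ normAtPlace w x := by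
  obtain ⟨Rg, hRg0, hRg⟩ := czG_support K
  have hN1 : (1 : ℝ) ≤ (Module.finrank ℚ K : ℝ) := by
    exact_mod_cast Module.finrank_pos (R := ℚ) (M := K)
  set N : ℝ := (Module.finrank ℚ K : ℝ) with hN
  have hN0 : 0 < N := lt_of_lt_of_le one_pos hN1
  refine ⟨Real.exp (-(2 * N * Rg)), Real.exp_pos _, ?_, ?_⟩
  · rw [Real.exp_le_one_iff]
    have : 0 ≤ 2 * N * Rg := by positivity
    linarith
  intro x hν hg w
  have hpos : ∀ w, 0 < normAtPlace w x := fun w =>
    lt_of_le_of_ne (normAtPlace_nonneg w x) (Ne.symm (mixedEmbedding.norm_ne_zero_iff.mp hν w))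
  have hL : ‖logMap x‖ ≤ Rg := hRg _ hg
  -- the normalised logarithms
  set a : InfinitePlace K → ℝ := fun w =>
    Real.log (normAtPlace w x) - Real.log (mixedEmbedding.norm x) * N⁻¹ with ha
  have hsum0 : ∑ w, (mult w : ℝ) * a w = 0 := by
    simp only [ha, mul_sub, Finset.sum_sub_distrib]
    rw [← cz_log_norm K hpos, ← Finset.sum_mul, cz_sum_mult, ← hN]
    field_simp
    ring
  have hne : ∀ w : InfinitePlace K, w ≠ w₀ → |(mult w : ℝ) * a w| ≤ Rg := by
    intro w hw
    have h1 : logMap x ⟨w, hw⟩ = (mult w : ℝ) * a w := by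
      rw [logMap_apply]
    rw [← h1]
    exact (norm_le_pi_norm (logMap x) ⟨w, hw⟩).trans hL
  have hmult1 : ∀ w : InfinitePlace K, (1 : ℝ) ≤ mult w := fun w => one_le_mult
  have hall : ∀ w : InfinitePlace K, |a w| ≤ N * Rg := by
    intro w
    have habs : |a w| ≤ |(mult w : ℝ) * a w| := by
      rw [abs_mul, abs_of_nonneg (by linarith [hmult1 w] : (0:ℝ) ≤ mult w)]
      exact le_mul_of_one_le_left (abs_nonneg _) (hmult1 w)
    refine habs.trans ?_
    by_cases hw : w = w₀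
    · -- use the sum relation
      have h2 : (mult w : ℝ) * a w = -∑ v ∈ Finset.univ.erase w, (mult v : ℝ) * a v := by
        have := Finset.add_sum_erase Finset.univ (fun v => (mult v : ℝ) * a v) (Finset.mem_univ w)
        linarith
      rw [h2, abs_neg]
      refine (Finset.abs_sum_le_sum_abs _ _).trans ?_
      calc ∑ v ∈ Finset.univ.erase w, |(mult v : ℝ) * a v|
          ≤ ∑ v ∈ Finset.univ.erase w, (mult v : ℝ) * Rg := by
            refine Finset.sum_le_sum (fun v hv => ?_)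
            have hvw : v ≠ w₀ := by
              rw [← hw]; exact Finset.ne_of_mem_erase hv
            exact (hne v hvw).trans (le_mul_of_one_le_left hRg0 (hmult1 v))
        _ ≤ ∑ v : InfinitePlace K, (mult v : ℝ) * Rg :=
            Finset.sum_le_sum_of_subset_of_nonneg (Finset.erase_subset _ _)
              (fun v _ _ => mul_nonneg (by linarith [hmult1 v]) hRg0)
        _ = N * Rg := by rw [← Finset.sum_mul, cz_sum_mult]
    · exact (hne w hw).trans (le_mul_of_one_le_left hRg0 hN1)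
  -- compare with the place where the norm is attained
  obtain ⟨v, hv⟩ := cz_exists_normAtPlace_eq K x
  have hxpos : 0 < ‖x‖ := hv ▸ hpos v
  have h3 : Real.log ‖x‖ - 2 * N * Rg ≤ Real.log (normAtPlace w x) := by
    have hav := (abs_le.mp (hall v)).2
    have haw := (abs_le.mp (hall w)).1
    have e1 : Real.log ‖x‖ = a v + Real.log (mixedEmbedding.norm x) * N⁻¹ := by
      rw [← hv]; simp only [ha]; ring
    have e2 : Real.log (normAtPlace w x) = a w + Real.log (mixedEmbedding.norm x) * N⁻¹ := by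
      simp only [ha]; ring
    rw [e1, e2]
    linarith
  calc Real.exp (-(2 * N * Rg)) * ‖x‖ = Real.exp (Real.log ‖x‖ - 2 * N * Rg) := by
        rw [sub_eq_add_neg, Real.exp_add, Real.exp_log hxpos, mul_comm]
    _ ≤ Real.exp (Real.log (normAtPlace w x)) := Real.exp_le_exp.mpr h3
    _ = normAtPlace w x := Real.exp_log (hpos w)

theorem cz_rpow_neg_succ {m : ℝ} (hm : 0 < m) (n : ℕ) :
    m ^ (-((n : ℝ) + 1)) = (m ^ n)⁻¹ * m⁻¹ := by
  rw [Real.rpow_neg hm.le, Real.rpow_add_one hm.ne', Real.rpow_natCast, mul_inv]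

/-- Lipschitz estimate for `czPhi` on the region where all `normAtPlace` are at least `m ≥ 1`. -/
theorem czPhi_lipschitz_aux : ∃ C₁ : ℝ, 0 ≤ C₁ ∧ ∀ s : ℝ, 1 ≤ s → s ≤ 2 →
    ∀ (x y : mixedSpace K) (m : ℝ), 1 ≤ m →
    (∀ w, m ≤ normAtPlace w x) → (∀ w, m ≤ normAtPlace w y) →
    |czPhi K s x - czPhi K s y| ≤ C₁ * ‖x - y‖ * m ^ (-((Module.finrank ℚ K : ℝ) + 1)) := by
  obtain ⟨Lg, hLg0, hLg⟩ := czG_lipschitz K
  have hN1 : (1 : ℝ) ≤ (Module.finrank ℚ K : ℝ) := by
    exact_mod_cast Module.finrank_pos (R := ℚ) (M := K)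
  set N : ℝ := (Module.finrank ℚ K : ℝ) with hN
  have hN0 : 0 < N := lt_of_lt_of_le one_pos hN1
  refine ⟨2 * N + 4 * Lg, by positivity, ?_⟩
  intro s hs1 hs2 x y m hm hx hy
  have hm0 : 0 < m := lt_of_lt_of_le one_pos hm
  set δ : ℝ := ‖x - y‖ with hδ
  have hδ0 : 0 ≤ δ := norm_nonneg _
  have hx0 : ∀ w, 0 < normAtPlace w x := fun w => lt_of_lt_of_le hm0 (hx w)
  have hy0 : ∀ w, 0 < normAtPlace w y := fun w => lt_of_lt_of_le hm0 (hy w)
  -- (B1)
  have hlog : ∀ w, |Real.log (normAtPlace w x) - Real.log (normAtPlace w y)| ≤ δ / m := fun w =>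
    (cz_log_sub_log_le hm0 (hx w) (hy w)).trans
      (div_le_div_of_nonneg_right (cz_normAtPlace_sub_le K w x y) hm0.le)
  -- (B2)
  have hlogν : |Real.log (mixedEmbedding.norm x) - Real.log (mixedEmbedding.norm y)| ≤ N * (δ / m) := by
    rw [cz_log_norm K hx0, cz_log_norm K hy0, ← Finset.sum_sub_distrib]
    refine (Finset.abs_sum_le_sum_abs _ _).trans ?_
    calc ∑ w, |(mult w : ℝ) * Real.log (normAtPlace w x) - (mult w : ℝ) * Real.log (normAtPlace w y)|
        ≤ ∑ w : InfinitePlace K, (mult w : ℝ) * (δ / m) := by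
          refine Finset.sum_le_sum (fun w _ => ?_)
          rw [← mul_sub, abs_mul, abs_of_nonneg (Nat.cast_nonneg _)]
          exact mul_le_mul_of_nonneg_left (hlog w) (Nat.cast_nonneg _)
      _ = N * (δ / m) := by rw [← Finset.sum_mul, cz_sum_mult]
  -- (B3)
  have hLM : ‖logMap x - logMap y‖ ≤ 4 * (δ / m) := by
    refine (pi_norm_le_iff_of_nonneg (by positivity)).mpr (fun w' => ?_)
    rw [Pi.sub_apply, logMap_apply, logMap_apply, ← mul_sub, Real.norm_eq_abs, abs_mul,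
      abs_of_nonneg (Nat.cast_nonneg _)]
    have e : (Real.log (normAtPlace w'.val x) - Real.log (mixedEmbedding.norm x) * (N)⁻¹) -
        (Real.log (normAtPlace w'.val y) - Real.log (mixedEmbedding.norm y) * (N)⁻¹) =
        (Real.log (normAtPlace w'.val x) - Real.log (normAtPlace w'.val y)) -
        (Real.log (mixedEmbedding.norm x) - Real.log (mixedEmbedding.norm y)) * N⁻¹ := by ring
    rw [e]
    have h1 : |(Real.log (normAtPlace w'.val x) - Real.log (normAtPlace w'.val y)) -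
        (Real.log (mixedEmbedding.norm x) - Real.log (mixedEmbedding.norm y)) * N⁻¹| ≤ 2 * (δ / m) := by
      refine (abs_sub _ _).trans ?_
      have h2 : |(Real.log (mixedEmbedding.norm x) - Real.log (mixedEmbedding.norm y)) * N⁻¹| ≤ δ / m := by
        rw [abs_mul, abs_of_pos (inv_pos.mpr hN0)]
        calc |Real.log (mixedEmbedding.norm x) - Real.log (mixedEmbedding.norm y)| * N⁻¹
            ≤ (N * (δ / m)) * N⁻¹ := mul_le_mul_of_nonneg_right hlogν (inv_pos.mpr hN0).le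
          _ = δ / m := by field_simp
      linarith [hlog w'.val]
    have hδm : 0 ≤ δ / m := div_nonneg hδ0 hm0.le
    calc (mult w'.val : ℝ) * _ ≤ 2 * (2 * (δ / m)) :=
          mul_le_mul (cz_mult_le_two K w'.val) h1 (abs_nonneg _) (by norm_num)
      _ = 4 * (δ / m) := by ring
  -- (B4)
  set P : ℝ := (m ^ (Module.finrank ℚ K))⁻¹ with hP
  have hmN1 : (1 : ℝ) ≤ m ^ (Module.finrank ℚ K) := one_le_pow₀ hm
  have hP0 : 0 < P := inv_pos.mpr (lt_of_lt_of_le one_pos hmN1)
  have hνx : m ^ (Module.finrank ℚ K) ≤ mixedEmbedding.norm x := cz_norm_ge K hm0.le hx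
  have hνy : m ^ (Module.finrank ℚ K) ≤ mixedEmbedding.norm y := cz_norm_ge K hm0.le hy
  have hνx0 : 0 < mixedEmbedding.norm x := lt_of_lt_of_le (lt_of_lt_of_le one_pos hmN1) hνx
  have hνy0 : 0 < mixedEmbedding.norm y := lt_of_lt_of_le (lt_of_lt_of_le one_pos hmN1) hνy
  have hpow : ∀ ν : ℝ, m ^ (Module.finrank ℚ K) ≤ ν → ν ^ (-s) ≤ P := by
    intro ν hν
    calc ν ^ (-s) ≤ (m ^ (Module.finrank ℚ K)) ^ (-s) :=
          Real.rpow_le_rpow_of_nonpos (lt_of_lt_of_le one_pos hmN1) hν (by linarith)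
      _ ≤ (m ^ (Module.finrank ℚ K)) ^ (-1 : ℝ) :=
          Real.rpow_le_rpow_of_exponent_le hmN1 (by linarith)
      _ = P := by rw [Real.rpow_neg_one]
  -- (B5)
  have hB5 : |(mixedEmbedding.norm x) ^ (-s) - (mixedEmbedding.norm y) ^ (-s)| ≤ P * (2 * (N * (δ / m))) := by
    rw [Real.rpow_def_of_pos hνx0, Real.rpow_def_of_pos hνy0]
    refine (cz_exp_sub_exp_le _ _).trans ?_
    have hmax : max (Real.exp (Real.log (mixedEmbedding.norm x) * -s))
        (Real.exp (Real.log (mixedEmbedding.norm y) * -s)) ≤ P := by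
      rw [← Real.rpow_def_of_pos hνx0, ← Real.rpow_def_of_pos hνy0]
      exact max_le (hpow _ hνx) (hpow _ hνy)
    have hdiff : |Real.log (mixedEmbedding.norm x) * -s - Real.log (mixedEmbedding.norm y) * -s| ≤
        2 * (N * (δ / m)) := by
      have e : Real.log (mixedEmbedding.norm x) * -s - Real.log (mixedEmbedding.norm y) * -s =
          -s * (Real.log (mixedEmbedding.norm x) - Real.log (mixedEmbedding.norm y)) := by ring
      rw [e, abs_mul, abs_neg, abs_of_nonneg (by linarith : (0:ℝ) ≤ s)]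
      exact mul_le_mul hs2 hlogν (abs_nonneg _) (by norm_num)
    exact mul_le_mul hmax hdiff (abs_nonneg _) hP0.le
  -- assembly
  have hg : |czG K (logMap x) - czG K (logMap y)| ≤ Lg * (4 * (δ / m)) :=
    (hLg _ _).trans (mul_le_mul_of_nonneg_left hLM hLg0)
  have e : czPhi K s x - czPhi K s y =
      czG K (logMap x) * ((mixedEmbedding.norm x) ^ (-s) - (mixedEmbedding.norm y) ^ (-s)) +
      (mixedEmbedding.norm y) ^ (-s) * (czG K (logMap x) - czG K (logMap y)) := by
    unfold czPhi; ring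
  rw [e]
  refine (abs_add_le _ _).trans ?_
  rw [abs_mul, abs_mul]
  have hνys : 0 ≤ (mixedEmbedding.norm y) ^ (-s) := Real.rpow_nonneg hνy0.le _
  have t1 : |czG K (logMap x)| * |(mixedEmbedding.norm x) ^ (-s) - (mixedEmbedding.norm y) ^ (-s)| ≤
      1 * (P * (2 * (N * (δ / m)))) :=
    mul_le_mul (czG_abs_le_one K _) hB5 (abs_nonneg _) zero_le_one
  have t2 : |(mixedEmbedding.norm y) ^ (-s)| * |czG K (logMap x) - czG K (logMap y)| ≤
      P * (Lg * (4 * (δ / m))) := by
    rw [abs_of_nonneg hνys]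
    exact mul_le_mul (hpow _ hνy) hg (abs_nonneg _) hP0.le
  rw [cz_rpow_neg_succ hm0, ← hP]
  calc _ ≤ 1 * (P * (2 * (N * (δ / m)))) + P * (Lg * (4 * (δ / m))) := add_le_add t1 t2
    _ = (2 * N + 4 * Lg) * δ * (P * m⁻¹) := by field_simp

theorem czPhi_eq_zero_of_norm_eq_zero {s : ℝ} (hs : s ≠ 0) {x : mixedSpace K}
    (hx : mixedEmbedding.norm x = 0) : czPhi K s x = 0 := by
  unfold czPhi
  rw [hx, Real.zero_rpow (neg_ne_zero.mpr hs), mul_zero]

theorem czPhi_ne_zero {s : ℝ} (hs : s ≠ 0) {x : mixedSpace K} (h : czPhi K s x ≠ 0) :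
    mixedEmbedding.norm x ≠ 0 ∧ czG K (logMap x) ≠ 0 := by
  refine ⟨fun h0 => h (czPhi_eq_zero_of_norm_eq_zero K hs h0), fun h0 => h ?_⟩
  unfold czPhi
  rw [h0, zero_mul]

/-- **Homogeneous Lipschitz estimate** for the weight `czPhi`. -/
theorem czPhi_lipschitz : ∃ C R : ℝ, 0 ≤ C ∧ ∀ s ∈ Set.Ioc (1 : ℝ) 2, ∀ x v : mixedSpace K,
    R * (1 + ‖v‖) ≤ ‖x‖ →
    |czPhi K s (x + v) - czPhi K s x| ≤ C * ‖v‖ * ‖x‖ ^ (-((Module.finrank ℚ K : ℝ) + 1)) := by
  obtain ⟨c₀, hc0, hc1, hcomp⟩ := cz_support_comparable K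
  obtain ⟨C₁, hC1, hB⟩ := czPhi_lipschitz_aux K
  refine ⟨C₁ * (c₀ / 2) ^ (-((Module.finrank ℚ K : ℝ) + 1)), 4 / c₀,
    mul_nonneg hC1 (Real.rpow_nonneg (by positivity) _), ?_⟩
  intro s hs x v hxv
  have hs1 : 1 ≤ s := hs.1.le
  have hs2 : s ≤ 2 := hs.2
  have hs0 : s ≠ 0 := by linarith
  have hv0 : 0 ≤ ‖v‖ := norm_nonneg v
  have hR : 4 ≤ 4 / c₀ := by
    rw [le_div_iff₀ hc0]; nlinarith
  have hx4 : 4 / c₀ ≤ ‖x‖ := by nlinarith [mul_nonneg (by linarith : (0:ℝ) ≤ 4 / c₀) hv0]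
  have hxpos : 0 < ‖x‖ := by linarith
  have hvle : ‖v‖ ≤ c₀ * ‖x‖ / 4 := by
    have h1 : (4 / c₀) * ‖v‖ ≤ ‖x‖ := by nlinarith
    have h2 : ‖v‖ = c₀ / 4 * ((4 / c₀) * ‖v‖) := by field_simp
    rw [h2]
    have : c₀ / 4 * ((4 / c₀) * ‖v‖) ≤ c₀ / 4 * ‖x‖ :=
      mul_le_mul_of_nonneg_left h1 (by positivity)
    linarith
  set m : ℝ := c₀ / 2 * ‖x‖ with hm
  have hm1 : 1 ≤ m := by
    have : c₀ / 2 * (4 / c₀) ≤ c₀ / 2 * ‖x‖ := mul_le_mul_of_nonneg_left hx4 (by positivity)
    have e : c₀ / 2 * (4 / c₀) = 2 := by field_simp; ring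
    rw [hm]; linarith
  have hRHS : 0 ≤ C₁ * (c₀ / 2) ^ (-((Module.finrank ℚ K : ℝ) + 1)) * ‖v‖ *
      ‖x‖ ^ (-((Module.finrank ℚ K : ℝ) + 1)) :=
    mul_nonneg (mul_nonneg (mul_nonneg hC1 (Real.rpow_nonneg (by positivity) _)) hv0)
      (Real.rpow_nonneg hxpos.le _)
  by_cases h0 : czPhi K s (x + v) = 0 ∧ czPhi K s x = 0
  · rw [h0.1, h0.2, sub_zero, abs_zero]; exact hRHS
  · -- both points lie in the region where all places are ≥ m
    have hboth : (∀ w, m ≤ normAtPlace w (x + v)) ∧ (∀ w, m ≤ normAtPlace w x) := by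
      rw [not_and_or] at h0
      rcases h0 with h | h
      · obtain ⟨hν, hg⟩ := czPhi_ne_zero K hs0 h
        have hc := hcomp (x + v) hν hg
        have hxv' : ‖x‖ - ‖v‖ ≤ ‖x + v‖ := by
          have := norm_sub_norm_le x (-v)
          simpa [sub_neg_eq_add] using this
        have h1 : ∀ w, 3 * c₀ / 4 * ‖x‖ ≤ normAtPlace w (x + v) := by
          intro w
          refine le_trans ?_ (hc w)
          have : c₀ * (‖x‖ - ‖v‖) ≤ c₀ * ‖x + v‖ := mul_le_mul_of_nonneg_left hxv' hc0.le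
          nlinarith
        refine ⟨fun w => by rw [hm]; nlinarith [h1 w], fun w => ?_⟩
        have h2 := cz_normAtPlace_sub_le K w (x + v) x
        rw [add_sub_cancel_left] at h2
        have h3 := (abs_le.mp h2).2
        rw [hm]; nlinarith [h1 w]
      · obtain ⟨hν, hg⟩ := czPhi_ne_zero K hs0 h
        have hc := hcomp x hν hg
        refine ⟨fun w => ?_, fun w => by rw [hm]; nlinarith [hc w]⟩
        have h2 := cz_normAtPlace_sub_le K w (x + v) x
        rw [add_sub_cancel_left] at h2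
        have h3 := (abs_le.mp h2).1
        rw [hm]; nlinarith [hc w]
    have key := hB s hs1 hs2 (x + v) x m hm1 hboth.1 hboth.2
    rw [add_sub_cancel_left] at key
    refine key.trans (le_of_eq ?_)
    rw [hm, Real.mul_rpow (by positivity) hxpos.le]
    ring

/-- Pointwise bound, uniform in `s ∈ (1,2]`. -/
theorem czPhi_bound (x : mixedSpace K) : ∃ M : ℝ, ∀ s ∈ Set.Ioc (1 : ℝ) 2, |czPhi K s x| ≤ M := by
  refine ⟨1 + (mixedEmbedding.norm x) ^ (-2 : ℝ), fun s hs => ?_⟩
  have hν0 : 0 ≤ mixedEmbedding.norm x := mixedEmbedding.norm_nonneg x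
  have h2 : 0 ≤ (mixedEmbedding.norm x) ^ (-2 : ℝ) := Real.rpow_nonneg hν0 _
  unfold czPhi
  rw [abs_mul, abs_of_nonneg (Real.rpow_nonneg hν0 _)]
  refine (mul_le_of_le_one_left (Real.rpow_nonneg hν0 _) (czG_abs_le_one K _)).trans ?_
  rcases hν0.eq_or_lt with h | h
  · rw [← h, Real.zero_rpow (by linarith [hs.1] : -s ≠ 0), Real.zero_rpow (by norm_num : (-2 : ℝ) ≠ 0)]
    norm_num
  · rcases le_or_gt 1 (mixedEmbedding.norm x) with h1 | h1
    · have := Real.rpow_le_one_of_one_le_of_nonpos h1 (by linarith [hs.1] : -s ≤ 0)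
      linarith
    · have := Real.rpow_le_rpow_of_exponent_ge h h1.le (by linarith [hs.2] : (-2 : ℝ) ≤ -s)
      linarith

/-- Domination of `czPhi` by a power of the norm. -/
theorem czPhi_le_rpow : ∃ A : ℝ, 0 ≤ A ∧ ∀ s ∈ Set.Ioc (1 : ℝ) 2, ∀ x : mixedSpace K,
    |czPhi K s x| ≤ A * ‖x‖ ^ (-((Module.finrank ℚ K : ℝ) * s)) := by
  obtain ⟨c₀, hc0, hc1, hcomp⟩ := cz_support_comparable K
  refine ⟨(c₀ ^ (Module.finrank ℚ K)) ^ (-2 : ℝ), Real.rpow_nonneg (by positivity) _, ?_⟩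
  intro s hs x
  have hs0 : s ≠ 0 := by linarith [hs.1]
  have hA0 : 0 ≤ (c₀ ^ (Module.finrank ℚ K)) ^ (-2 : ℝ) := Real.rpow_nonneg (by positivity) _
  by_cases h0 : czPhi K s x = 0
  · rw [h0, abs_zero]
    exact mul_nonneg hA0 (Real.rpow_nonneg (norm_nonneg _) _)
  obtain ⟨hν, hg⟩ := czPhi_ne_zero K hs0 h0
  have hc := hcomp x hν hg
  have hxpos : 0 < ‖x‖ := by
    rcases (norm_nonneg x).eq_or_lt with h | h
    · exfalso
      have hx0 : x = 0 := norm_eq_zero.mp h.symm
      rw [hx0] at hν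
      exact hν (map_zero _)
    · exact h
  have hνge : (c₀ * ‖x‖) ^ (Module.finrank ℚ K) ≤ mixedEmbedding.norm x :=
    cz_norm_ge K (by positivity) hc
  have hpos : 0 < (c₀ * ‖x‖) ^ (Module.finrank ℚ K) := by positivity
  unfold czPhi
  rw [abs_mul, abs_of_nonneg (Real.rpow_nonneg (mixedEmbedding.norm_nonneg x) _)]
  refine (mul_le_of_le_one_left (Real.rpow_nonneg (mixedEmbedding.norm_nonneg x) _)
    (czG_abs_le_one K _)).trans ?_
  calc (mixedEmbedding.norm x) ^ (-s) ≤ ((c₀ * ‖x‖) ^ (Module.finrank ℚ K)) ^ (-s) :=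
        Real.rpow_le_rpow_of_nonpos hpos hνge (by linarith [hs.1])
    _ = (c₀ ^ (Module.finrank ℚ K)) ^ (-s) * ‖x‖ ^ (-((Module.finrank ℚ K : ℝ) * s)) := by
        rw [mul_pow, Real.mul_rpow (by positivity) (by positivity)]
        congr 1
        rw [← Real.rpow_natCast ‖x‖, ← Real.rpow_mul hxpos.le]
        congr 1; ring
    _ ≤ (c₀ ^ (Module.finrank ℚ K)) ^ (-2 : ℝ) * ‖x‖ ^ (-((Module.finrank ℚ K : ℝ) * s)) := by
        refine mul_le_mul_of_nonneg_right ?_ (Real.rpow_nonneg hxpos.le _)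
        exact Real.rpow_le_rpow_of_exponent_ge (by positivity) (pow_le_one₀ hc0.le hc1)
          (by linarith [hs.2])

end Fermat.Agent.CFT
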