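import Fermat.Agent.CFT.Analytic.EulerIdeal
import Fermat.Agent.Lib.Frob.PrimeSumOfZeta
import Fermat.Agent.Lib.Frob.AbelianSplit

/-!
# The universal norm index inequality ("second inequality"), ideal-theoretic form

`E` a number field, `H` a subgroup of its class group.

* `primeSum_le_of_classZeta_bdd`: if `S` is a set of primes of `E` whose classes lie in `H`, then
  `[Cl_E : H] · ∑_{𝔭 ∈ S} N𝔭^(-s) ≤ log (1/(s-1)) + C` on `(1, 2]`.
* `index_le_finrank_of_bdd`: for a finite extension `M/E`, if `H` contains the classes of all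
  primes of `E` below a prime of `M` of relative degree one, then `[Cl_E : H] ≤ [M : E]`.
* `index_le_finrank_of_bdd'` (interface shape (I1) of the CFT plan), `index_le_finrank_of_bdd_relNorm`: the same for `H` containing the classes of the
  relative norms of the primes of `M`.

All three take as hypothesis `hbdd` the analytic input "the partial zeta functions of two ideal
classes differ by a bounded function on `(1, 2]`" (`classZetaR`).
The proof uses the class-group `L`-series `classL`, their Euler products (`EulerIdeal.lean`),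
orthogonality of characters, and the degree-one prime sum of `ζ_M` (`Lib/Frob/PrimeSumOfZeta`).
-/

set_option linter.unusedSectionVars false
set_option linter.style.haveILetI false

namespace Fermat.Agent.CFT.SecondIneq

open Filter Topology NumberField IsDedekindDomain
open scoped nonZeroDivisors
open Fermat.Agent.Lib.Frob (wt pw zetaR NzIdeal)

section Characters

variable {A : Type*} [CommGroup A] [Finite A] [DecidableEq A]

theorem si_finite_char : Finite (A →* ℂˣ) := by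
  have : NeZero (Monoid.exponent A) := ⟨Monoid.exponent_ne_zero_of_finite⟩
  obtain ⟨e⟩ := CommGroup.monoidHom_mulEquiv_of_hasEnoughRootsOfUnity A ℂ
  exact Finite.of_equiv A e.symm.toEquiv

theorem si_card_char : Nat.card (A →* ℂˣ) = Nat.card A := by
  have : NeZero (Monoid.exponent A) := ⟨Monoid.exponent_ne_zero_of_finite⟩
  exact CommGroup.card_monoidHom_of_hasEnoughRootsOfUnity A ℂ

theorem si_norm_char (χ : A →* ℂˣ) (a : A) : ‖((χ a : ℂˣ) : ℂ)‖ = 1 := by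
  have h : ((χ a : ℂˣ) : ℂ) ^ Nat.card A = 1 := by
    rw [← Units.val_pow_eq_pow_val, ← map_pow, pow_card_eq_one', map_one, Units.val_one]
  exact Complex.norm_eq_one_of_pow_eq_one h Nat.card_pos.ne'

/-- Orthogonality: the sum of `χ a` over all characters `χ`. -/
theorem si_sum_char_apply [Fintype (A →* ℂˣ)] (a : A) :
    ∑ χ : A →* ℂˣ, ((χ a : ℂˣ) : ℂ) = if a = 1 then (Nat.card A : ℂ) else 0 := by
  split_ifs with ha
  · subst ha
    simp only [map_one, Units.val_one, Finset.sum_const, Finset.card_univ, nsmul_eq_mul, mul_one]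
    rw [← Nat.card_eq_fintype_card, si_card_char]
  · have : NeZero (Monoid.exponent A) := ⟨Monoid.exponent_ne_zero_of_finite⟩
    obtain ⟨χ₀, hχ₀⟩ := CommGroup.exists_apply_ne_one_of_hasEnoughRootsOfUnity A ℂ ha
    have hS : ∑ χ : A →* ℂˣ, ((χ a : ℂˣ) : ℂ) =
        ((χ₀ a : ℂˣ) : ℂ) * ∑ χ : A →* ℂˣ, ((χ a : ℂˣ) : ℂ) := by
      rw [Finset.mul_sum]
      rw [← Equiv.sum_comp (Equiv.mulLeft χ₀) (fun χ : A →* ℂˣ => ((χ a : ℂˣ) : ℂ))]
      refine Finset.sum_congr rfl fun χ _ => ?_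
      simp [MonoidHom.mul_apply]
    have hne : ((χ₀ a : ℂˣ) : ℂ) ≠ 1 := by
      intro h
      exact hχ₀ (Units.ext h)
    have h2 : (1 - ((χ₀ a : ℂˣ) : ℂ)) * ∑ χ : A →* ℂˣ, ((χ a : ℂˣ) : ℂ) = 0 := by
      rw [sub_mul, one_mul, ← hS, sub_self]
    rcases mul_eq_zero.mp h2 with h | h
    · exact absurd (sub_eq_zero.mp h).symm hne
    · exact h

/-- The sum of a nontrivial character over the group vanishes. -/
theorem si_sum_group_char {G : Type*} [CommGroup G] [Fintype G] (ψ : G →* ℂˣ) (hψ : ψ ≠ 1) :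
    ∑ g : G, ((ψ g : ℂˣ) : ℂ) = 0 := by
  obtain ⟨g₀, hg₀⟩ : ∃ g₀, ψ g₀ ≠ 1 := by
    by_contra h
    push Not at h
    exact hψ (MonoidHom.ext fun g => by simpa using h g)
  have hS : ∑ g : G, ((ψ g : ℂˣ) : ℂ) = ((ψ g₀ : ℂˣ) : ℂ) * ∑ g : G, ((ψ g : ℂˣ) : ℂ) := by
    rw [Finset.mul_sum, ← Equiv.sum_comp (Equiv.mulLeft g₀) (fun g : G => ((ψ g : ℂˣ) : ℂ))]
    refine Finset.sum_congr rfl fun g _ => ?_
    simp
  have hne : ((ψ g₀ : ℂˣ) : ℂ) ≠ 1 := fun h => hg₀ (Units.ext h)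
  have h2 : (1 - ((ψ g₀ : ℂˣ) : ℂ)) * ∑ g : G, ((ψ g : ℂˣ) : ℂ) = 0 := by
    rw [sub_mul, one_mul, ← hS, sub_self]
  rcases mul_eq_zero.mp h2 with h | h
  · exact absurd (sub_eq_zero.mp h).symm hne
  · exact h

theorem si_neg_log_norm_eq {z : ℂ} (hz : ‖z‖ < 1) :
    HasSum (fun n : ℕ => (z ^ n / n).re) (-Real.log ‖1 - z‖) := by
  have h := Complex.hasSum_taylorSeries_neg_log hz
  have h2 := Complex.hasSum_re h
  rwa [Complex.neg_re, Complex.log_re] at h2

/-- Key positivity: `∑_χ -log |1 - χ(a) x| ≥ #A · x` if `a = 1`, and `≥ 0` in general. -/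
theorem si_sum_char_neg_log [Fintype (A →* ℂˣ)] (a : A) {x : ℝ} (hx0 : 0 ≤ x) (hx1 : x < 1) :
    (if a = 1 then (Nat.card A : ℝ) * x else 0) ≤
      ∑ χ : A →* ℂˣ, -Real.log ‖1 - ((χ a : ℂˣ) : ℂ) * (x : ℂ)‖ := by
  classical
  have hz : ∀ χ : A →* ℂˣ, ‖((χ a : ℂˣ) : ℂ) * (x : ℂ)‖ < 1 := by
    intro χ
    rw [norm_mul, si_norm_char, one_mul, Complex.norm_real, Real.norm_of_nonneg hx0]
    exact hx1
  have hs : ∀ χ : A →* ℂˣ, HasSum (fun n : ℕ => ((((χ a : ℂˣ) : ℂ) * (x : ℂ)) ^ n / n).re)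
      (-Real.log ‖1 - ((χ a : ℂˣ) : ℂ) * (x : ℂ)‖) := fun χ => si_neg_log_norm_eq (hz χ)
  have hsum : HasSum (fun n : ℕ => ∑ χ : A →* ℂˣ, ((((χ a : ℂˣ) : ℂ) * (x : ℂ)) ^ n / n).re)
      (∑ χ : A →* ℂˣ, -Real.log ‖1 - ((χ a : ℂˣ) : ℂ) * (x : ℂ)‖) :=
    hasSum_sum fun χ _ => hs χ
  have hterm : ∀ n : ℕ, ∑ χ : A →* ℂˣ, ((((χ a : ℂˣ) : ℂ) * (x : ℂ)) ^ n / n).re =
      (if a ^ n = 1 then (Nat.card A : ℝ) else 0) * (x ^ n / n) := by
    intro n
    have h1 : ∀ χ : A →* ℂˣ, ((((χ a : ℂˣ) : ℂ) * (x : ℂ)) ^ n / n).re =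
        (((χ (a ^ n) : ℂˣ) : ℂ)).re * (x ^ n / n) := by
      intro χ
      have : (((χ a : ℂˣ) : ℂ) * (x : ℂ)) ^ n / n =
          ((χ (a ^ n) : ℂˣ) : ℂ) * (((x ^ n / n : ℝ)) : ℂ) := by
        rw [map_pow, Units.val_pow_eq_pow_val, mul_pow]
        push_cast
        ring
      rw [this, Complex.re_mul_ofReal]
    simp only [h1]
    rw [← Finset.sum_mul, ← Complex.re_sum, si_sum_char_apply]
    split_ifs <;> simp
  have hnn : ∀ n : ℕ, 0 ≤ ∑ χ : A →* ℂˣ, ((((χ a : ℂˣ) : ℂ) * (x : ℂ)) ^ n / n).re := by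
    intro n
    rw [hterm]
    have : (0 : ℝ) ≤ x ^ n / n := by positivity
    split_ifs
    · exact mul_nonneg (Nat.cast_nonneg _) this
    · simp
  have hle := le_hasSum hsum 1 (fun j _ => hnn j)
  rw [hterm 1] at hle
  simpa using hle

end Characters

section ClassL

variable (E : Type*) [Field E] [NumberField E]

/-- The partial zeta function of an ideal class, for real `s`. -/
noncomputable def classZetaR (c : ClassGroup (𝓞 E)) (s : ℝ) : ℝ :=
  ∑' I : {I : (Ideal (𝓞 E))⁰ // ClassGroup.mk0 I = c},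
    (Ideal.absNorm (I.1 : Ideal (𝓞 E)) : ℝ) ^ (-s)

/-- The class-group `L`-series, for real `s`. -/
noncomputable def classL (ψ : ClassGroup (𝓞 E) →* ℂˣ) (s : ℝ) : ℂ :=
  ∑' I : (Ideal (𝓞 E))⁰, ((ψ (ClassGroup.mk0 I) : ℂˣ) : ℂ) * ((wt E s I.1 : ℝ) : ℂ)

/-- The class of an ideal (`1` for the zero ideal). -/
noncomputable def idealClass (I : Ideal (𝓞 E)) : ClassGroup (𝓞 E) :=
  if h : I = ⊥ then 1 else ClassGroup.mk0 ⟨I, mem_nonZeroDivisors_of_ne_zero h⟩

/-- The completely multiplicative function `I ↦ ψ([I]) N(I)^(-s)`. -/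
noncomputable def classTerm (ψ : ClassGroup (𝓞 E) →* ℂˣ) (s : ℝ) (I : Ideal (𝓞 E)) : ℂ :=
  ((ψ (idealClass E I) : ℂˣ) : ℂ) * ((wt E s I : ℝ) : ℂ)

variable {E}

theorem idealClass_coe (I : (Ideal (𝓞 E))⁰) : idealClass E I.1 = ClassGroup.mk0 I := by
  unfold idealClass
  have h : (I.1 : Ideal (𝓞 E)) ≠ ⊥ := nonZeroDivisors.ne_zero I.2
  rw [dif_neg h]

theorem idealClass_of_ne_bot {I : Ideal (𝓞 E)} (h : I ≠ ⊥) :
    idealClass E I = ClassGroup.mk0 ⟨I, mem_nonZeroDivisors_of_ne_zero h⟩ := by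
  unfold idealClass
  rw [dif_neg h]

theorem idealClass_top : idealClass E (⊤ : Ideal (𝓞 E)) = 1 := by
  rw [idealClass_of_ne_bot top_ne_bot]
  have : (⟨⊤, mem_nonZeroDivisors_of_ne_zero top_ne_bot⟩ : (Ideal (𝓞 E))⁰) = 1 :=
    Subtype.ext Ideal.one_eq_top.symm
  rw [this, map_one]

theorem idealClass_mul {I J : Ideal (𝓞 E)} (hI : I ≠ ⊥) (hJ : J ≠ ⊥) :
    idealClass E (I * J) = idealClass E I * idealClass E J := by
  have hIJ : I * J ≠ ⊥ := mul_ne_zero hI hJ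
  rw [idealClass_of_ne_bot hI, idealClass_of_ne_bot hJ, idealClass_of_ne_bot hIJ, ← map_mul]
  rfl

theorem wt_bot {s : ℝ} (hs : 0 < s) : wt E s (⊥ : Ideal (𝓞 E)) = 0 := by
  unfold wt
  rw [Ideal.absNorm_bot, Nat.cast_zero, Real.zero_rpow (neg_ne_zero.mpr hs.ne')]

theorem classTerm_bot (ψ : ClassGroup (𝓞 E) →* ℂˣ) {s : ℝ} (hs : 0 < s) :
    classTerm E ψ s ⊥ = 0 := by
  unfold classTerm
  rw [wt_bot hs, Complex.ofReal_zero, mul_zero]

theorem classTerm_top (ψ : ClassGroup (𝓞 E) →* ℂˣ) (s : ℝ) : classTerm E ψ s ⊤ = 1 := by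
  unfold classTerm
  rw [idealClass_top, map_one, Units.val_one, one_mul, ← Ideal.one_eq_top,
    Fermat.Agent.Lib.Frob.wt_one, Complex.ofReal_one]

theorem classTerm_mul (ψ : ClassGroup (𝓞 E) →* ℂˣ) {s : ℝ} (hs : 0 < s) (I J : Ideal (𝓞 E)) :
    classTerm E ψ s (I * J) = classTerm E ψ s I * classTerm E ψ s J := by
  by_cases hI : I = ⊥
  · subst hI
    rw [Ideal.bot_mul, classTerm_bot ψ hs, zero_mul]
  by_cases hJ : J = ⊥
  · subst hJ
    rw [Ideal.mul_bot, classTerm_bot ψ hs, mul_zero]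
  unfold classTerm
  rw [idealClass_mul hI hJ, map_mul, Units.val_mul, Fermat.Agent.Lib.Frob.wt_mul,
    Complex.ofReal_mul]
  ring

theorem si_norm_unit (ψ : ClassGroup (𝓞 E) →* ℂˣ) (c : ClassGroup (𝓞 E)) :
    ‖((ψ c : ℂˣ) : ℂ)‖ = 1 := by
  have h : ((ψ c : ℂˣ) : ℂ) ^ Nat.card (ClassGroup (𝓞 E)) = 1 := by
    rw [← Units.val_pow_eq_pow_val, ← map_pow, pow_card_eq_one', map_one, Units.val_one]
  exact Complex.norm_eq_one_of_pow_eq_one h Nat.card_pos.ne'

theorem norm_classTerm (ψ : ClassGroup (𝓞 E) →* ℂˣ) (s : ℝ) (I : Ideal (𝓞 E)) :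
    ‖classTerm E ψ s I‖ = wt E s I := by
  unfold classTerm
  rw [norm_mul, si_norm_unit, one_mul, Complex.norm_real,
    Real.norm_of_nonneg (Fermat.Agent.Lib.Frob.wt_nonneg s I)]

variable (E) in
theorem summable_wt_all {s : ℝ} (hs : 1 < s) : Summable (fun I : Ideal (𝓞 E) => wt E s I) := by
  have h := (Fermat.Agent.Lib.Frob.summable_wt E hs).hasSum
  have hsupp : Function.support (fun I : Ideal (𝓞 E) => wt E s I) ⊆ {I : Ideal (𝓞 E) | I ≠ ⊥} := by
    intro I hI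
    rw [Function.mem_support] at hI
    intro hbot
    exact hI (by rw [hbot]; exact wt_bot (by linarith))
  exact ((hasSum_subtype_iff_of_support_subset hsupp).mp h).summable

theorem tsum_wt_all {s : ℝ} (hs : 1 < s) : ∑' I : Ideal (𝓞 E), wt E s I = zetaR E s := by
  have hsupp : Function.support (fun I : Ideal (𝓞 E) => wt E s I) ⊆ {I : Ideal (𝓞 E) | I ≠ ⊥} := by
    intro I hI
    rw [Function.mem_support] at hI
    intro hbot
    exact hI (by rw [hbot]; exact wt_bot (by linarith))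
  exact (tsum_subtype_eq_of_support_subset hsupp).symm

theorem summable_classTerm (ψ : ClassGroup (𝓞 E) →* ℂˣ) {s : ℝ} (hs : 1 < s) :
    Summable (fun I : Ideal (𝓞 E) => ‖classTerm E ψ s I‖) := by
  simp only [norm_classTerm]
  exact summable_wt_all E hs

theorem classL_eq_tsum_classTerm (ψ : ClassGroup (𝓞 E) →* ℂˣ) {s : ℝ} (hs : 1 < s) :
    classL E ψ s = ∑' I : Ideal (𝓞 E), classTerm E ψ s I := by
  have hsupp : Function.support (fun I : Ideal (𝓞 E) => classTerm E ψ s I) ⊆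
      ((Ideal (𝓞 E))⁰ : Set (Ideal (𝓞 E))) := by
    intro I hI
    rw [Function.mem_support] at hI
    refine mem_nonZeroDivisors_of_ne_zero ?_
    intro hbot
    exact hI (by rw [show I = ⊥ from hbot]; exact classTerm_bot ψ (by linarith))
  rw [← tsum_subtype_eq_of_support_subset hsupp]
  unfold classL
  refine tsum_congr fun I => ?_
  unfold classTerm
  rw [idealClass_coe]


theorem classL_eq_sum (ψ : ClassGroup (𝓞 E) →* ℂˣ) {s : ℝ} (hs : 1 < s) :
    classL E ψ s = ∑ c : ClassGroup (𝓞 E), ((ψ c : ℂˣ) : ℂ) * ((classZetaR E c s : ℝ) : ℂ) := by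
  have hF : Summable (fun I : (Ideal (𝓞 E))⁰ =>
      ((ψ (ClassGroup.mk0 I) : ℂˣ) : ℂ) * ((wt E s I.1 : ℝ) : ℂ)) := by
    refine Summable.of_norm ?_
    have h := (summable_wt_all E hs).subtype ((Ideal (𝓞 E))⁰ : Set (Ideal (𝓞 E)))
    refine h.congr fun I => ?_
    rw [norm_mul, si_norm_unit, one_mul, Complex.norm_real,
      Real.norm_of_nonneg (Fermat.Agent.Lib.Frob.wt_nonneg s _)]
    rfl
  let G : (Σ c : ClassGroup (𝓞 E), {I : (Ideal (𝓞 E))⁰ // ClassGroup.mk0 I = c}) → ℂ :=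
    fun x => ((ψ x.1 : ℂˣ) : ℂ) * ((wt E s x.2.1.1 : ℝ) : ℂ)
  have hGF : ∀ x : (Σ c : ClassGroup (𝓞 E), {I : (Ideal (𝓞 E))⁰ // ClassGroup.mk0 I = c}),
      ((ψ (ClassGroup.mk0
        ((Equiv.sigmaFiberEquiv (fun I : (Ideal (𝓞 E))⁰ => ClassGroup.mk0 I)) x)) : ℂˣ) : ℂ) *
        ((wt E s ((Equiv.sigmaFiberEquiv (fun I : (Ideal (𝓞 E))⁰ => ClassGroup.mk0 I)) x).1 : ℝ) : ℂ)
        = G x := by
    rintro ⟨c, I, hI⟩
    show ((ψ (ClassGroup.mk0 I) : ℂˣ) : ℂ) * ((wt E s I.1 : ℝ) : ℂ) = _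
    rw [hI]
  have hG : Summable G := by
    have h := (Equiv.sigmaFiberEquiv (fun I : (Ideal (𝓞 E))⁰ => ClassGroup.mk0 I)).summable_iff.mpr hF
    exact h.congr fun x => hGF x
  have h1 : classL E ψ s = ∑' x, G x := by
    unfold classL
    rw [← (Equiv.sigmaFiberEquiv (fun I : (Ideal (𝓞 E))⁰ => ClassGroup.mk0 I)).tsum_eq
      (fun I : (Ideal (𝓞 E))⁰ => ((ψ (ClassGroup.mk0 I) : ℂˣ) : ℂ) * ((wt E s I.1 : ℝ) : ℂ))]
    exact tsum_congr hGF
  rw [h1, Summable.tsum_sigma' (fun c => hG.sigma_factor c) hG, tsum_fintype]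
  refine Finset.sum_congr rfl fun c _ => ?_
  unfold classZetaR
  rw [Complex.ofReal_tsum, ← tsum_mul_left]
  rfl

theorem norm_classL_le (ψ : ClassGroup (𝓞 E) →* ℂˣ) (hψ : ψ ≠ 1) {s : ℝ} (hs : 1 < s) :
    ‖classL E ψ s‖ ≤ ∑ c : ClassGroup (𝓞 E), |classZetaR E c s - classZetaR E 1 s| := by
  have h0 := si_sum_group_char ψ hψ
  have h1 : classL E ψ s = ∑ c : ClassGroup (𝓞 E), ((ψ c : ℂˣ) : ℂ) *
      (((classZetaR E c s - classZetaR E 1 s : ℝ)) : ℂ) := by
    rw [classL_eq_sum ψ hs]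
    have : ∀ c : ClassGroup (𝓞 E), ((ψ c : ℂˣ) : ℂ) * (((classZetaR E c s - classZetaR E 1 s : ℝ)) : ℂ)
        = ((ψ c : ℂˣ) : ℂ) * ((classZetaR E c s : ℝ) : ℂ) -
          ((ψ c : ℂˣ) : ℂ) * ((classZetaR E 1 s : ℝ) : ℂ) := by
      intro c
      push_cast
      ring
    simp only [this]
    rw [Finset.sum_sub_distrib, ← Finset.sum_mul, h0, zero_mul, sub_zero]
  rw [h1]
  refine (norm_sum_le _ _).trans (le_of_eq ?_)
  refine Finset.sum_congr rfl fun c _ => ?_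
  rw [norm_mul, si_norm_unit, one_mul, Complex.norm_real, Real.norm_eq_abs]

theorem classL_one {s : ℝ} (hs : 1 < s) :
    classL E (1 : ClassGroup (𝓞 E) →* ℂˣ) s = ((zetaR E s : ℝ) : ℂ) := by
  rw [classL_eq_tsum_classTerm _ hs, ← tsum_wt_all hs, Complex.ofReal_tsum]
  refine tsum_congr fun I => ?_
  unfold classTerm
  rw [MonoidHom.one_apply, Units.val_one, one_mul]

theorem classL_euler (ψ : ClassGroup (𝓞 E) →* ℂˣ) {s : ℝ} (hs : 1 < s) :
    Summable (fun v : HeightOneSpectrum (𝓞 E) =>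
      -Real.log ‖1 - ((ψ (idealClass E v.asIdeal) : ℂˣ) : ℂ) * ((pw E s v : ℝ) : ℂ)‖) ∧
    ‖classL E ψ s‖ = Real.exp (∑' v : HeightOneSpectrum (𝓞 E),
      -Real.log ‖1 - ((ψ (idealClass E v.asIdeal) : ℂˣ) : ℂ) * ((pw E s v : ℝ) : ℂ)‖) := by
  have hs0 : (0 : ℝ) < s := by linarith
  obtain ⟨hsum, hexp⟩ := euler_exp_log (φ := classTerm E ψ s) (classTerm_bot ψ hs0)
    (classTerm_top ψ s) (classTerm_mul ψ hs0) (summable_classTerm ψ hs)
  have hre := Complex.hasSum_re hsum.hasSum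
  have hterm : ∀ v : HeightOneSpectrum (𝓞 E),
      (-Complex.log (1 - classTerm E ψ s v.asIdeal)).re =
      -Real.log ‖1 - ((ψ (idealClass E v.asIdeal) : ℂˣ) : ℂ) * ((pw E s v : ℝ) : ℂ)‖ := by
    intro v
    rw [Complex.neg_re, Complex.log_re]
    rfl
  simp only [hterm] at hre
  refine ⟨hre.summable, ?_⟩
  rw [classL_eq_tsum_classTerm ψ hs, ← hexp, Complex.norm_exp, hre.tsum_eq]


variable (E) in
/-- **Upper bound for the prime sum over a set of primes whose classes lie in a subgroup `H` of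
the class group**, given that the partial zeta functions of any two ideal classes differ by a
bounded function on `(1, 2]`:  `[Cl : H] · ∑_{𝔭 ∈ S} N𝔭^(-s) ≤ log (1/(s-1)) + C`. -/
theorem primeSum_le_of_classZeta_bdd (H : Subgroup (ClassGroup (𝓞 E)))
    (S : Set (HeightOneSpectrum (𝓞 E)))
    (hS : ∀ v ∈ S, ClassGroup.mk0
      (⟨v.asIdeal, mem_nonZeroDivisors_of_ne_zero v.ne_bot⟩ : (Ideal (𝓞 E))⁰) ∈ H)
    (hbdd : ∀ c c' : ClassGroup (𝓞 E), ∃ B : ℝ, ∀ s : ℝ, 1 < s → s ≤ 2 →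
      |classZetaR E c s - classZetaR E c' s| ≤ B) :
    ∃ C : ℝ, ∀ s : ℝ, 1 < s → s ≤ 2 →
      (H.index : ℝ) * ∑' v : S, pw E s v.1 ≤ Real.log (1 / (s - 1)) + C := by
  classical
  have : Finite ((ClassGroup (𝓞 E) ⧸ H) →* ℂˣ) := si_finite_char
  let _ : Fintype ((ClassGroup (𝓞 E) ⧸ H) →* ℂˣ) := Fintype.ofFinite _
  set π : ClassGroup (𝓞 E) →* (ClassGroup (𝓞 E) ⧸ H) := QuotientGroup.mk' H with hπ
  choose Bf hBf using (fun c => hbdd c 1)
  obtain ⟨Cz, hCz⟩ := Fermat.Agent.Lib.Frob.exists_bound_log_zetaR_Ioc E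
  set B' : ℝ := max 1 (∑ c : ClassGroup (𝓞 E), Bf c) with hB'
  have hB'1 : (1 : ℝ) ≤ B' := le_max_left _ _
  have hlogB' : 0 ≤ Real.log B' := Real.log_nonneg hB'1
  refine ⟨Cz + (Fintype.card ((ClassGroup (𝓞 E) ⧸ H) →* ℂˣ) : ℝ) * Real.log B',
    fun s hs1 hs2 => ?_⟩
  set u : ((ClassGroup (𝓞 E) ⧸ H) →* ℂˣ) → HeightOneSpectrum (𝓞 E) → ℝ := fun χ v =>
    -Real.log ‖1 - (((χ.comp π) (idealClass E v.asIdeal) : ℂˣ) : ℂ) * ((pw E s v : ℝ) : ℂ)‖
    with hu
  have hχ : ∀ χ : (ClassGroup (𝓞 E) ⧸ H) →* ℂˣ,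
      Summable (u χ) ∧ ‖classL E (χ.comp π) s‖ = Real.exp (∑' v, u χ v) :=
    fun χ => classL_euler (χ.comp π) hs1
  have hpw0 : ∀ v : HeightOneSpectrum (𝓞 E), 0 ≤ pw E s v :=
    fun v => Fermat.Agent.Lib.Frob.pw_nonneg s v
  have hpw1 : ∀ v : HeightOneSpectrum (𝓞 E), pw E s v < 1 := fun v =>
    lt_of_le_of_lt (Fermat.Agent.Lib.Frob.pw_le_half hs1.le v) (by norm_num)
  have hpt : ∀ v : HeightOneSpectrum (𝓞 E),
      (if π (idealClass E v.asIdeal) = 1 then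
        (Nat.card (ClassGroup (𝓞 E) ⧸ H) : ℝ) * pw E s v else 0) ≤ ∑ χ, u χ v := by
    intro v
    exact si_sum_char_neg_log (π (idealClass E v.asIdeal)) (hpw0 v) (hpw1 v)
  have hnn : ∀ v : HeightOneSpectrum (𝓞 E), 0 ≤ ∑ χ, u χ v := by
    intro v
    refine le_trans ?_ (hpt v)
    split_ifs
    · exact mul_nonneg (Nat.cast_nonneg _) (hpw0 v)
    · exact le_rfl
  have hsumV : Summable (fun v : HeightOneSpectrum (𝓞 E) => ∑ χ, u χ v) :=
    summable_sum fun χ _ => (hχ χ).1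
  have hSsum : Summable (fun v : S => pw E s v.1) :=
    (Fermat.Agent.Lib.Frob.summable_pw E hs1).subtype S
  have hlow : (Nat.card (ClassGroup (𝓞 E) ⧸ H) : ℝ) * ∑' v : S, pw E s v.1 ≤
      ∑ χ, ∑' v, u χ v := by
    rw [← Summable.tsum_finsetSum (fun χ _ => (hχ χ).1), ← tsum_mul_left]
    refine le_trans (Summable.tsum_le_tsum (fun v : S => ?_) (hSsum.mul_left _)
      (hsumV.subtype S)) (Summable.tsum_subtype_le _ S hnn hsumV)
    have h1 : π (idealClass E v.1.asIdeal) = 1 := by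
      rw [idealClass_of_ne_bot v.1.ne_bot]
      exact (QuotientGroup.eq_one_iff _).mpr (hS v.1 v.2)
    have := hpt v.1
    rwa [if_pos h1] at this
  have hlogeq : ∀ χ : (ClassGroup (𝓞 E) ⧸ H) →* ℂˣ,
      Real.log ‖classL E (χ.comp π) s‖ = ∑' v, u χ v := fun χ => by
    rw [(hχ χ).2, Real.log_exp]
  have hup1 : Real.log ‖classL E ((1 : (ClassGroup (𝓞 E) ⧸ H) →* ℂˣ).comp π) s‖ ≤
      Real.log (1 / (s - 1)) + Cz := by
    rw [MonoidHom.one_comp, classL_one hs1, Complex.norm_real,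
      Real.norm_of_nonneg (Fermat.Agent.Lib.Frob.zetaR_pos E hs1).le]
    have := hCz s hs1 hs2
    linarith [(abs_le.mp this).2]
  have hupχ : ∀ χ : (ClassGroup (𝓞 E) ⧸ H) →* ℂˣ, χ ≠ 1 →
      Real.log ‖classL E (χ.comp π) s‖ ≤ Real.log B' := by
    intro χ hχ1
    have hne : χ.comp π ≠ 1 := by
      intro h
      apply hχ1
      refine MonoidHom.ext fun a => ?_
      obtain ⟨c, rfl⟩ := QuotientGroup.mk'_surjective H a
      have h2 : (χ.comp π) c = 1 := by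
        rw [h]
        rfl
      exact h2
    have hpos : 0 < ‖classL E (χ.comp π) s‖ := by
      rw [(hχ χ).2]
      exact Real.exp_pos _
    refine Real.log_le_log hpos ?_
    refine (norm_classL_le _ hne hs1).trans (le_trans ?_ (le_max_right _ _))
    exact Finset.sum_le_sum fun c _ => hBf c s hs1 hs2
  have hup : ∑ χ, ∑' v, u χ v ≤ Real.log (1 / (s - 1)) + Cz +
      (Fintype.card ((ClassGroup (𝓞 E) ⧸ H) →* ℂˣ) : ℝ) * Real.log B' := by
    simp only [← hlogeq]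
    rw [← Finset.add_sum_erase Finset.univ _ (Finset.mem_univ (1 : (ClassGroup (𝓞 E) ⧸ H) →* ℂˣ))]
    refine add_le_add hup1 ?_
    refine (Finset.sum_le_card_nsmul _ _ (Real.log B')
      (fun χ hχ' => hupχ χ (Finset.ne_of_mem_erase hχ'))).trans ?_
    rw [nsmul_eq_mul]
    refine mul_le_mul_of_nonneg_right ?_ hlogB'
    exact_mod_cast Finset.card_le_univ _
  have hidx : (H.index : ℝ) = (Nat.card (ClassGroup (𝓞 E) ⧸ H) : ℝ) := rfl
  rw [hidx]
  linarith

end ClassL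

section Relative

open Fermat.Agent.Lib.Frob (degOne)

variable (E M : Type*) [Field E] [NumberField E] [Field M] [NumberField M] [Algebra E M]

/-- Primes of `E` lying below a prime of `M` of relative residue degree one. -/
def splitPrimes : Set (HeightOneSpectrum (𝓞 E)) :=
  {v | ∃ w : HeightOneSpectrum (𝓞 M), w.asIdeal.inertiaDeg (𝓞 E) = 1 ∧ w.under (𝓞 E) = v}

theorem si_card_fiber_le (v : HeightOneSpectrum (𝓞 E)) (G : Finset (HeightOneSpectrum (𝓞 M)))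
    (hG : ∀ w ∈ G, w.under (𝓞 E) = v) : G.card ≤ Module.finrank E M := by
  classical
  have hsum := Ideal.sum_ramification_inertia_eq_finrank v.asIdeal (𝓞 M)
  rw [IsFractionRing.finrank_eq (𝓞 E) E (𝓞 M) M, ← hsum]
  have hmem : ∀ w ∈ G, w.asIdeal ∈ v.asIdeal.primesOver (𝓞 M) := by
    intro w hw
    refine ⟨w.isPrime, ⟨?_⟩⟩
    rw [← hG w hw]
    rfl
  calc G.card = (G.attach.image (fun w =>
          (⟨w.1.asIdeal, hmem w.1 w.2⟩ : v.asIdeal.primesOver (𝓞 M)))).card := by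
        rw [Finset.card_image_of_injective, Finset.card_attach]
        intro a b h
        exact Subtype.ext (HeightOneSpectrum.ext (congrArg Subtype.val h))
    _ ≤ (Finset.univ : Finset (v.asIdeal.primesOver (𝓞 M))).card := Finset.card_le_univ _
    _ = ∑ _q : v.asIdeal.primesOver (𝓞 M), 1 := by simp
    _ ≤ ∑ q : v.asIdeal.primesOver (𝓞 M),
          q.1.ramificationIdx (𝓞 E) * q.1.inertiaDeg (𝓞 E) := by
        refine Finset.sum_le_sum fun q _ => ?_
        have hq : q.1.IsPrime := q.2.1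
        exact Nat.one_le_iff_ne_zero.mpr (mul_ne_zero (Ideal.ramificationIdx_pos q.1 (𝓞 E)).ne'
          (Ideal.inertiaDeg_pos q.1 (𝓞 E)).ne')

theorem si_tsum_comp_le {α β : Type*} (g : α → β) (d : ℕ)
    (hfib : ∀ (G : Finset α) (b : β), (∀ a ∈ G, g a = b) → G.card ≤ d)
    (F : β → ℝ) (hF0 : ∀ b, 0 ≤ F b) (hF : Summable F) :
    ∑' a, F (g a) ≤ d * ∑' b, F b := by
  classical
  refine Real.tsum_le_of_sum_le (fun a => hF0 _) (fun u => ?_)
  calc ∑ a ∈ u, F (g a) = ∑ b ∈ u.image g, ∑ a ∈ u with g a = b, F (g a) :=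
        (Finset.sum_fiberwise_of_maps_to (fun a ha => Finset.mem_image_of_mem g ha) _).symm
    _ = ∑ b ∈ u.image g, ((u.filter (fun a => g a = b)).card : ℝ) * F b := by
        refine Finset.sum_congr rfl fun b _ => ?_
        rw [Finset.sum_congr rfl (fun a ha => by rw [(Finset.mem_filter.mp ha).2]),
          Finset.sum_const, nsmul_eq_mul]
    _ ≤ ∑ b ∈ u.image g, (d : ℝ) * F b :=
        Finset.sum_le_sum fun b _ => mul_le_mul_of_nonneg_right
          (by exact_mod_cast hfib _ b (fun a ha => (Finset.mem_filter.mp ha).2)) (hF0 b)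
    _ = d * ∑ b ∈ u.image g, F b := by rw [Finset.mul_sum]
    _ ≤ d * ∑' b, F b :=
        mul_le_mul_of_nonneg_left (hF.sum_le_tsum _ (fun b _ => hF0 b)) (Nat.cast_nonneg d)

theorem si_degOne_le {s : ℝ} (hs : 1 < s) :
    ∑' w : ↥(degOne M), pw M s w.1 ≤
      (Module.finrank E M : ℝ) * ∑' v : ↥(splitPrimes E M), pw E s v.1 := by
  have hmem : ∀ w : ↥(degOne M), w.1.under (𝓞 E) ∈ splitPrimes E M := fun w =>
    ⟨w.1, (Fermat.Agent.Lib.Frob.AbSplit.prime_absNorm_under E w.1 w.2).2.2, rfl⟩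
  let g : ↥(degOne M) → ↥(splitPrimes E M) := fun w => ⟨w.1.under (𝓞 E), hmem w⟩
  have hpw : ∀ w : ↥(degOne M), pw M s w.1 = pw E s (g w).1 := by
    intro w
    rw [Fermat.Agent.Lib.Frob.pw_eq, Fermat.Agent.Lib.Frob.pw_eq,
      (Fermat.Agent.Lib.Frob.AbSplit.prime_absNorm_under E w.1 w.2).2.1]
  have hfib : ∀ (G : Finset ↥(degOne M)) (b : ↥(splitPrimes E M)),
      (∀ a ∈ G, g a = b) → G.card ≤ Module.finrank E M := by
    intro G b hG
    classical
    have := si_card_fiber_le E M b.1 (G.image Subtype.val) (by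
      intro w hw
      obtain ⟨a, ha, rfl⟩ := Finset.mem_image.mp hw
      exact congrArg Subtype.val (hG a ha))
    rwa [Finset.card_image_of_injective _ Subtype.val_injective] at this
  simp only [hpw]
  exact si_tsum_comp_le g _ hfib (fun v => pw E s v.1)
    (fun v => Fermat.Agent.Lib.Frob.pw_nonneg s v.1)
    ((Fermat.Agent.Lib.Frob.summable_pw E hs).subtype _)

/-- **Universal norm index inequality** (the "second inequality" of class field theory, in its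
ideal-theoretic form, for an arbitrary finite extension `M/E` of number fields): a subgroup `H`
of the class group of `E` containing the classes of all primes of `E` lying below a prime of `M`
of relative degree one has index at most `[M : E]` — provided the partial zeta functions of any
two ideal classes of `E` differ by a bounded function on `(1, 2]`. -/
theorem index_le_finrank_of_bdd (H : Subgroup (ClassGroup (𝓞 E)))
    (hH : ∀ w : HeightOneSpectrum (𝓞 M), w.asIdeal.inertiaDeg (𝓞 E) = 1 →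
      ClassGroup.mk0 (⟨(w.under (𝓞 E)).asIdeal,
        mem_nonZeroDivisors_of_ne_zero (w.under (𝓞 E)).ne_bot⟩ : (Ideal (𝓞 E))⁰) ∈ H)
    (hbdd : ∀ c c' : ClassGroup (𝓞 E), ∃ B : ℝ, ∀ s : ℝ, 1 < s → s ≤ 2 →
      |classZetaR E c s - classZetaR E c' s| ≤ B) :
    H.index ≤ Module.finrank E M := by
  by_contra hcon
  push Not at hcon
  have hS : ∀ v ∈ splitPrimes E M, ClassGroup.mk0
      (⟨v.asIdeal, mem_nonZeroDivisors_of_ne_zero v.ne_bot⟩ : (Ideal (𝓞 E))⁰) ∈ H := by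
    rintro v ⟨w, hw, rfl⟩
    exact hH w hw
  obtain ⟨C₁, hC₁⟩ := primeSum_le_of_classZeta_bdd E H (splitPrimes E M) hS hbdd
  obtain ⟨C₂, hC₂⟩ := Fermat.Agent.Lib.Frob.tsum_degOne_sub_log_bounded_Ioc M
  set d := Module.finrank E M with hd
  set K : ℝ := d * C₁ + (d + 1) * C₂ with hK
  set s : ℝ := 1 + Real.exp (-(|K| + 1)) with hs
  have hs1 : 1 < s := by
    have := Real.exp_pos (-(|K| + 1))
    linarith
  have hs2 : s ≤ 2 := by
    have : Real.exp (-(|K| + 1)) ≤ 1 := Real.exp_le_one_iff.mpr (by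
      have := abs_nonneg K
      linarith)
    linarith
  have hℓ : Real.log (1 / (s - 1)) = |K| + 1 := by
    rw [hs, add_sub_cancel_left, one_div, Real.log_inv, Real.log_exp, neg_neg]
  have h1 := hC₁ s hs1 hs2
  have h2 := (abs_le.mp (hC₂ s hs1 hs2)).1
  have h3 := si_degOne_le E M hs1
  set P := ∑' v : ↥(splitPrimes E M), pw E s v.1 with hP
  have hP0 : 0 ≤ P := tsum_nonneg fun v => Fermat.Agent.Lib.Frob.pw_nonneg s v.1
  have hidx : ((d : ℝ) + 1) ≤ (H.index : ℝ) := by exact_mod_cast hcon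
  have hd0 : (0 : ℝ) ≤ d := Nat.cast_nonneg d
  have h4 : ((d : ℝ) + 1) * P ≤ Real.log (1 / (s - 1)) + C₁ :=
    le_trans (mul_le_mul_of_nonneg_right hidx hP0) h1
  have h5 : (d : ℝ) * (((d : ℝ) + 1) * P) ≤ d * (Real.log (1 / (s - 1)) + C₁) :=
    mul_le_mul_of_nonneg_left h4 hd0
  have h6 : ((d : ℝ) + 1) * (Real.log (1 / (s - 1)) - C₂) ≤ ((d : ℝ) + 1) * (d * P) :=
    mul_le_mul_of_nonneg_left (by linarith) (by linarith)
  rw [hℓ] at h5 h6
  have h7 : |K| + 1 ≤ K := by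
    rw [hK]
    nlinarith
  linarith [le_abs_self K]

/-- Variant of `index_le_finrank_of_bdd`: `H` contains the class of the relative norm of
every prime of `M`. So `[Cl_E : N_{M/E} Cl_M] ≤ [M : E]`. -/
theorem index_le_finrank_of_bdd_relNorm (H : Subgroup (ClassGroup (𝓞 E)))
    (hH : ∀ (w : HeightOneSpectrum (𝓞 M)) (h : Ideal.relNorm (𝓞 E) w.asIdeal ≠ ⊥),
      ClassGroup.mk0 (⟨Ideal.relNorm (𝓞 E) w.asIdeal,
        mem_nonZeroDivisors_of_ne_zero h⟩ : (Ideal (𝓞 E))⁰) ∈ H)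
    (hbdd : ∀ c c' : ClassGroup (𝓞 E), ∃ B : ℝ, ∀ s : ℝ, 1 < s → s ≤ 2 →
      |classZetaR E c s - classZetaR E c' s| ≤ B) :
    H.index ≤ Module.finrank E M := by
  refine index_le_finrank_of_bdd E M H (fun w hw => ?_) hbdd
  have hrel : Ideal.relNorm (𝓞 E) w.asIdeal = (w.under (𝓞 E)).asIdeal := by
    haveI : w.asIdeal.LiesOver (w.under (𝓞 E)).asIdeal := ⟨rfl⟩
    haveI := w.isMaximal
    haveI := (w.under (𝓞 E)).isMaximal
    rw [Ideal.relNorm_eq_pow_of_isMaximal w.asIdeal (w.under (𝓞 E)).asIdeal, hw, pow_one]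
  have hne : Ideal.relNorm (𝓞 E) w.asIdeal ≠ ⊥ := by
    rw [hrel]
    exact (w.under (𝓞 E)).ne_bot
  have key : (⟨(w.under (𝓞 E)).asIdeal,
      mem_nonZeroDivisors_of_ne_zero (w.under (𝓞 E)).ne_bot⟩ : (Ideal (𝓞 E))⁰) =
      ⟨Ideal.relNorm (𝓞 E) w.asIdeal, mem_nonZeroDivisors_of_ne_zero hne⟩ :=
    Subtype.ext hrel.symm
  rw [key]
  exact hH w hne

/-- Interface shape (I1): `H` contains the class of every prime `𝔭` of `E` having a prime `𝔓`
of `M` above it with residue degree one. -/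
theorem index_le_finrank_of_bdd' (H : Subgroup (ClassGroup (𝓞 E)))
    (hH : ∀ (𝔓 : HeightOneSpectrum (𝓞 M)) (𝔭 : HeightOneSpectrum (𝓞 E)),
      𝔓.asIdeal.LiesOver 𝔭.asIdeal → Ideal.inertiaDeg' 𝔭.asIdeal 𝔓.asIdeal = 1 →
      ClassGroup.mk0 (⟨𝔭.asIdeal, mem_nonZeroDivisors_of_ne_zero 𝔭.ne_bot⟩ :
        (Ideal (𝓞 E))⁰) ∈ H)
    (hbdd : ∀ c c' : ClassGroup (𝓞 E), ∃ B : ℝ, ∀ s : ℝ, 1 < s → s ≤ 2 →
      |classZetaR E c s - classZetaR E c' s| ≤ B) :
    H.index ≤ Module.finrank E M := by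
  refine index_le_finrank_of_bdd E M H (fun w hw => ?_) hbdd
  have hlo : w.asIdeal.LiesOver (w.under (𝓞 E)).asIdeal := ⟨rfl⟩
  refine hH w (w.under (𝓞 E)) hlo ?_
  haveI := w.isMaximal
  haveI := (w.under (𝓞 E)).isMaximal
  rw [Ideal.inertiaDeg'_eq_inertiaDeg (w.under (𝓞 E)).asIdeal w.asIdeal, hw]

end Relative

end Fermat.Agent.CFT.SecondIneq
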