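import Fermat.Agent.CFT.Analytic.SecondIneq
import Fermat.Agent.CFT.Analytic.ClassZetaBdd

/-!
# The universal norm index inequality ("second inequality"), unconditional

`E ⊆ M` number fields, `H` a subgroup of the class group of `E` containing the classes of all
primes of `E` lying below a prime of `M` of relative residue degree one. Then
`[Cl_E : H] ≤ [M : E]`.

Interface (I1) of the CFT project: `classGroup_index_le_finrank` (three equivalent shapes of the
hypothesis on `H`).
-/

open NumberField IsDedekindDomain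
open scoped nonZeroDivisors

namespace Fermat.Agent.CFT

variable (E M : Type*) [Field E] [NumberField E] [Field M] [NumberField M] [Algebra E M]

/-- The partial zeta functions of two ideal classes differ by a bounded function on `(1, 2]`. -/
theorem classZetaR_sub_bounded (c c' : ClassGroup (𝓞 E)) :
    ∃ B : ℝ, ∀ s : ℝ, 1 < s → s ≤ 2 →
      |SecondIneq.classZetaR E c s - SecondIneq.classZetaR E c' s| ≤ B :=
  classZeta_sub_bounded E c c'

/-- **Second inequality, interface (I1)**: `H` contains the class of every prime `𝔭` of `E`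
having a prime `𝔓` of `M` above it with residue degree one. -/
theorem classGroup_index_le_finrank (H : Subgroup (ClassGroup (𝓞 E)))
    (hH : ∀ (𝔓 : HeightOneSpectrum (𝓞 M)) (𝔭 : HeightOneSpectrum (𝓞 E)),
      𝔓.asIdeal.LiesOver 𝔭.asIdeal → Ideal.inertiaDeg' 𝔭.asIdeal 𝔓.asIdeal = 1 →
      ClassGroup.mk0 (⟨𝔭.asIdeal, mem_nonZeroDivisors_of_ne_zero 𝔭.ne_bot⟩ :
        (Ideal (𝓞 E))⁰) ∈ H) :
    H.index ≤ Module.finrank E M :=
  SecondIneq.index_le_finrank_of_bdd' E M H hH (classZetaR_sub_bounded E)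

/-- **Second inequality**, `under` form: `H` contains the class of `w ∩ 𝓞 E` for every prime `w`
of `M` of relative residue degree one. -/
theorem classGroup_index_le_finrank_under (H : Subgroup (ClassGroup (𝓞 E)))
    (hH : ∀ w : HeightOneSpectrum (𝓞 M), w.asIdeal.inertiaDeg (𝓞 E) = 1 →
      ClassGroup.mk0 (⟨(w.under (𝓞 E)).asIdeal,
        mem_nonZeroDivisors_of_ne_zero (w.under (𝓞 E)).ne_bot⟩ : (Ideal (𝓞 E))⁰) ∈ H) :
    H.index ≤ Module.finrank E M :=
  SecondIneq.index_le_finrank_of_bdd E M H hH (classZetaR_sub_bounded E)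

/-- **Second inequality**, norm form: `H` contains the classes of the relative norms of the
primes of `M`; i.e. `[Cl_E : N_{M/E} Cl_M] ≤ [M : E]`. -/
theorem classGroup_index_le_finrank_relNorm (H : Subgroup (ClassGroup (𝓞 E)))
    (hH : ∀ (w : HeightOneSpectrum (𝓞 M)) (h : Ideal.relNorm (𝓞 E) w.asIdeal ≠ ⊥),
      ClassGroup.mk0 (⟨Ideal.relNorm (𝓞 E) w.asIdeal,
        mem_nonZeroDivisors_of_ne_zero h⟩ : (Ideal (𝓞 E))⁰) ∈ H) :
    H.index ≤ Module.finrank E M :=
  SecondIneq.index_le_finrank_of_bdd_relNorm E M H hH (classZetaR_sub_bounded E)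

/-- Upper bound for the prime sum over a set of primes whose classes lie in `H`:
`[Cl_E : H] · ∑_{𝔭 ∈ S} N𝔭^(-s) ≤ log (1/(s-1)) + C` on `(1, 2]`. -/
theorem classGroup_primeSum_le (H : Subgroup (ClassGroup (𝓞 E)))
    (S : Set (HeightOneSpectrum (𝓞 E)))
    (hS : ∀ v ∈ S, ClassGroup.mk0
      (⟨v.asIdeal, mem_nonZeroDivisors_of_ne_zero v.ne_bot⟩ : (Ideal (𝓞 E))⁰) ∈ H) :
    ∃ C : ℝ, ∀ s : ℝ, 1 < s → s ≤ 2 →
      (H.index : ℝ) * ∑' v : S, Fermat.Agent.Lib.Frob.pw E s v.1 ≤ Real.log (1 / (s - 1)) + C :=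
  SecondIneq.primeSum_le_of_classZeta_bdd E H S hS (classZetaR_sub_bounded E)

end Fermat.Agent.CFT
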