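import Mathlib
import Fermat.Agent.Lib.Frob.PrimeZeta
import Fermat.Agent.Lib.Frob.PrimeSumOfZeta
import Fermat.Agent.Lib.Frob.AbelianSplit

/-!
# The prime sum over primes below a degree-one prime, and the final limit argument

`E ⊆ M` number fields.  `underDegOne E M` is the set of primes of `E` lying below a prime of `M`
of prime absolute norm.  We show
`log (1/(s-1)) - C ≤ [M:E] · ∑_{𝔭 ∈ underDegOne E M} N𝔭^(-s)` on `(1, 2]`, and deduce that a
subgroup `H` of the class group with `[Cl : H] · ∑_{𝔭 ∈ underDegOne E M} N𝔭^(-s) ≤ log (1/(s-1)) + C`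
has index at most `[M:E]`.
-/

set_option autoImplicit false

namespace Fermat.Agent.CFT.Analytic

open NumberField IsDedekindDomain Fermat.Agent.Lib.Frob

variable (E M : Type*) [Field E] [NumberField E] [Field M] [NumberField M] [Algebra E M]

/-- The primes of `E` below a prime of `M` of prime absolute norm. -/
def underDegOne : Set (HeightOneSpectrum (𝓞 E)) :=
  {𝔭 | ∃ w : HeightOneSpectrum (𝓞 M), (Ideal.absNorm w.asIdeal).Prime ∧ w.under (𝓞 E) = 𝔭}

variable {E M} in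
theorem underDegOne_spec {𝔭 : HeightOneSpectrum (𝓞 E)} (h : 𝔭 ∈ underDegOne E M) :
    ∃ w : HeightOneSpectrum (𝓞 M), w.asIdeal.LiesOver 𝔭.asIdeal ∧
      w.asIdeal.inertiaDeg (𝓞 E) = 1 ∧ Ideal.absNorm w.asIdeal = Ideal.absNorm 𝔭.asIdeal := by
  obtain ⟨w, hw, rfl⟩ := h
  obtain ⟨_, h2, h3⟩ := AbSplit.prime_absNorm_under E w hw
  exact ⟨w, ⟨rfl⟩, h3, h2⟩

/-- At most `[M:E]` primes of `M` lie over a given prime of `E`. -/
theorem card_fiber_under_le (𝔭 : HeightOneSpectrum (𝓞 E))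
    (G : Finset (HeightOneSpectrum (𝓞 M))) (hG : ∀ w ∈ G, w.under (𝓞 E) = 𝔭) :
    G.card ≤ Module.finrank E M := by
  classical
  have := 𝔭.isMaximal
  have hnz : NoZeroSMulDivisors (𝓞 E) (𝓞 M) := ⟨fun {c x} h => by
    rw [Algebra.smul_def, mul_eq_zero] at h
    rcases h with h | h
    · left
      exact (RingOfIntegers.algebraMap.injective E M) (h.trans (map_zero _).symm)
    · right; exact h⟩
  have hle := Ideal.card_primesOverFinset_le_finrank (𝓞 M) E M 𝔭.ne_bot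
  refine le_trans ?_ hle
  have hinj : Set.InjOn (fun w : HeightOneSpectrum (𝓞 M) => w.asIdeal) (G : Set _) :=
    fun a _ b _ h => HeightOneSpectrum.ext h
  rw [← Finset.card_image_of_injOn hinj]
  refine Finset.card_le_card fun I hI => ?_
  obtain ⟨w, hw, rfl⟩ := Finset.mem_image.mp hI
  rw [IsDedekindDomain.mem_primesOverFinset_iff 𝔭.ne_bot]
  refine ⟨w.isPrime, ⟨?_⟩⟩
  rw [← hG w hw]
  rfl

/-- The sum over the degree-one primes of `M` is at most `[M:E]` times the sum over the primes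
of `E` below them. -/
theorem tsum_degOne_le_finrank_mul {s : ℝ} (hs : 1 < s) :
    ∑' w : ↥(degOne M), pw M s w.1
      ≤ (Module.finrank E M : ℝ) * ∑' 𝔭 : underDegOne E M, (Ideal.absNorm 𝔭.1.asIdeal : ℝ) ^ (-s) := by
  classical
  have hsum : Summable fun 𝔭 : underDegOne E M => (Ideal.absNorm 𝔭.1.asIdeal : ℝ) ^ (-s) :=
    summable_pw_subtype E (underDegOne E M) hs
  have hnn : ∀ 𝔭 : underDegOne E M, 0 ≤ (Ideal.absNorm 𝔭.1.asIdeal : ℝ) ^ (-s) := fun 𝔭 =>
    Real.rpow_nonneg (Nat.cast_nonneg _) _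
  -- the projection to the prime below
  let π : ↥(degOne M) → underDegOne E M := fun w => ⟨w.1.under (𝓞 E), ⟨w.1, w.2, rfl⟩⟩
  have hval : ∀ w : ↥(degOne M), pw M s w.1 = (Ideal.absNorm (π w).1.asIdeal : ℝ) ^ (-s) := by
    intro w
    have h := (AbSplit.prime_absNorm_under E w.1 w.2).2.1
    show (Ideal.absNorm w.1.asIdeal : ℝ) ^ (-s) = _
    rw [h]
  refine Real.tsum_le_of_sum_le (fun w => pw_nonneg s w.1) fun T => ?_
  have h1 : ∑ w ∈ T, pw M s w.1
      = ∑ 𝔭 ∈ T.image π, ((T.filter fun w => π w = 𝔭).card : ℝ)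
          * (Ideal.absNorm 𝔭.1.asIdeal : ℝ) ^ (-s) := by
    rw [Finset.sum_congr rfl fun w _ => hval w,
      Finset.sum_comp (fun 𝔭 : underDegOne E M => (Ideal.absNorm 𝔭.1.asIdeal : ℝ) ^ (-s)) π]
    refine Finset.sum_congr rfl fun 𝔭 _ => ?_
    rw [nsmul_eq_mul]
  rw [h1]
  have h2 : ∀ 𝔭 ∈ T.image π, ((T.filter fun w => π w = 𝔭).card : ℝ)
      * (Ideal.absNorm 𝔭.1.asIdeal : ℝ) ^ (-s)
        ≤ (Module.finrank E M : ℝ) * (Ideal.absNorm 𝔭.1.asIdeal : ℝ) ^ (-s) := by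
    intro 𝔭 _
    refine mul_le_mul_of_nonneg_right ?_ (hnn 𝔭)
    have hcard : ((T.filter fun w => π w = 𝔭).image
        (fun w : ↥(degOne M) => (w : HeightOneSpectrum (𝓞 M)))).card ≤ Module.finrank E M := by
      refine card_fiber_under_le E M 𝔭.1 _ fun w hw => ?_
      obtain ⟨w', hw', rfl⟩ := Finset.mem_image.mp hw
      have := (Finset.mem_filter.mp hw').2
      exact congrArg Subtype.val this
    rw [Finset.card_image_of_injective _ Subtype.val_injective] at hcard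
    exact_mod_cast hcard
  calc ∑ 𝔭 ∈ T.image π, ((T.filter fun w => π w = 𝔭).card : ℝ)
          * (Ideal.absNorm 𝔭.1.asIdeal : ℝ) ^ (-s)
      ≤ ∑ 𝔭 ∈ T.image π, (Module.finrank E M : ℝ) * (Ideal.absNorm 𝔭.1.asIdeal : ℝ) ^ (-s) :=
        Finset.sum_le_sum h2
    _ = (Module.finrank E M : ℝ) * ∑ 𝔭 ∈ T.image π, (Ideal.absNorm 𝔭.1.asIdeal : ℝ) ^ (-s) := by
        rw [Finset.mul_sum]
    _ ≤ (Module.finrank E M : ℝ) * ∑' 𝔭 : underDegOne E M, (Ideal.absNorm 𝔭.1.asIdeal : ℝ) ^ (-s) :=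
        mul_le_mul_of_nonneg_left (hsum.sum_le_tsum _ fun 𝔭 _ => hnn 𝔭) (Nat.cast_nonneg _)

/-- **Lower bound for the prime sum.** -/
theorem primeSum_underDegOne_ge : ∃ C : ℝ, ∀ s : ℝ, 1 < s → s ≤ 2 →
    Real.log (1 / (s - 1)) - C
      ≤ (Module.finrank E M : ℝ) * ∑' 𝔭 : underDegOne E M, (Ideal.absNorm 𝔭.1.asIdeal : ℝ) ^ (-s) := by
  obtain ⟨C, hC⟩ := tsum_degOne_sub_log_bounded_Ioc M
  refine ⟨C, fun s hs1 hs2 => ?_⟩
  have h1 := hC s hs1 hs2
  have h2 := tsum_degOne_le_finrank_mul E M hs1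
  rw [abs_le] at h1
  linarith [h1.1]

/-- **The limit argument.**  If `[Cl : H] · P(s) ≤ log (1/(s-1)) + C` on `(1, 2]` for the prime
sum `P` over `underDegOne E M`, then `[Cl : H] ≤ [M : E]`. -/
theorem index_le_finrank_of_primeSum_le (H : Subgroup (ClassGroup (𝓞 E)))
    (hSI1 : ∃ C : ℝ, ∀ s : ℝ, 1 < s → s ≤ 2 →
      (H.index : ℝ) * ∑' 𝔭 : underDegOne E M, (Ideal.absNorm 𝔭.1.asIdeal : ℝ) ^ (-s)
        ≤ Real.log (1 / (s - 1)) + C) :
    H.index ≤ Module.finrank E M := by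
  obtain ⟨C1, hC1⟩ := hSI1
  obtain ⟨C, hC⟩ := primeSum_underDegOne_ge E M
  by_contra hcon
  rw [not_le] at hcon
  set h : ℝ := (H.index : ℝ) with hh
  set n : ℝ := (Module.finrank E M : ℝ) with hn
  have hn0 : 0 ≤ n := Nat.cast_nonneg _
  have hh0 : 0 ≤ h := Nat.cast_nonneg _
  have hgap : n + 1 ≤ h := by
    rw [hh, hn]
    exact_mod_cast hcon
  -- choose `s` with `log (1/(s-1)) = t` large
  set t : ℝ := max (h * C + n * C1 + 1) 0 with ht
  have ht0 : 0 ≤ t := le_max_right _ _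
  have htb : h * C + n * C1 + 1 ≤ t := le_max_left _ _
  set s : ℝ := 1 + Real.exp (-t) with hs
  have hs1 : 1 < s := by rw [hs]; linarith [Real.exp_pos (-t)]
  have hs2 : s ≤ 2 := by
    have : Real.exp (-t) ≤ 1 := Real.exp_le_one_iff.mpr (by linarith)
    rw [hs]; linarith
  have hlog : Real.log (1 / (s - 1)) = t := by
    rw [hs, add_sub_cancel_left, one_div, ← Real.exp_neg, neg_neg, Real.log_exp]
  set P : ℝ := ∑' 𝔭 : underDegOne E M, (Ideal.absNorm 𝔭.1.asIdeal : ℝ) ^ (-s) with hP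
  have h1 : h * P ≤ t + C1 := by
    have := hC1 s hs1 hs2
    rwa [hlog] at this
  have h2 : t - C ≤ n * P := by
    have := hC s hs1 hs2
    rwa [hlog] at this
  -- `h (t - C) ≤ h n P ≤ n (t + C1)`
  have h3 : h * (t - C) ≤ n * (t + C1) := by
    calc h * (t - C) ≤ h * (n * P) := mul_le_mul_of_nonneg_left h2 hh0
      _ = n * (h * P) := by ring
      _ ≤ n * (t + C1) := mul_le_mul_of_nonneg_left h1 hn0
  have h4 : (h - n) * t ≤ h * C + n * C1 := by nlinarith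
  have h5 : t ≤ (h - n) * t := by
    have : (1 : ℝ) ≤ h - n := by linarith
    nlinarith
  linarith

end Fermat.Agent.CFT.Analytic
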