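import Mathlib
import Fermat.Agent.Lib.Frob.PrimeZeta
import Fermat.Agent.Lib.Frob.PrimeSumOfZeta
import Fermat.Agent.Lib.Frob.AbelianSplit
import Fermat.Agent.Lib.Frob.FibreSum
import Fermat.Agent.CFT.Analytic.SplitPrimeSum
import Fermat.Agent.CFT.Analytic.SecondIneqMain

/-!
# Uniqueness of class fields: the Dirichlet-density step

`E` a number field, `M, M'` Galois extensions of `E` with compositum `Ω` (Galois over `E`; the
hypothesis `hgen` says that an automorphism of `Ω/E` fixing `M` and `M'` is trivial).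

* `index_mul_le_of_two_fields`: a subgroup `H` of the class group of `E` containing the classes of
  all primes lying below a prime of prime absolute norm of `M` or of `M'` satisfies
  `[Cl : H] · (1/[M:E] + 1/[M':E] - 1/[Ω:E]) ≤ 1`.
* `index_lt_of_two_fields`, `ne_of_two_fields`: for `[M:E] = [M':E] = p`, `[Ω:E] = p²`: such an
  `H` has index `< p`; hence the "norm class groups" of `M` and `M'` (of index `≥ p`) differ.

Proof: inclusion-exclusion for the prime sums, the lower bound `primeSum_underDegOne_ge`, the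
trivial upper bound for the primes splitting completely in `Ω`, and the upper bound
`classGroup_primeSum_le` (second inequality machinery).
-/

set_option autoImplicit false

namespace Fermat.Agent.CFT.Analytic

open NumberField IsDedekindDomain Fermat.Agent.Lib.Frob

open scoped nonZeroDivisors

section Uniq

variable (E M M' Ω : Type*) [Field E] [NumberField E] [Field M] [NumberField M]
  [Field M'] [NumberField M'] [Field Ω] [NumberField Ω]
  [Algebra E M] [Algebra E M'] [Algebra E Ω] [Algebra M Ω] [Algebra M' Ω]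
  [IsScalarTower E M Ω] [IsScalarTower E M' Ω]
  [IsGalois E M] [IsGalois E M'] [IsGalois E Ω]

omit [IsGalois E M'] [IsGalois E Ω] [Field M'] [NumberField M'] [Field Ω] [NumberField Ω]
  [Algebra E M'] [Algebra E Ω] [Algebra M Ω] [Algebra M' Ω]
  [IsScalarTower E M Ω] [IsScalarTower E M' Ω] in
/-- In a Galois extension `M/E`, if some prime of `M` above `𝔭` has prime absolute norm, then
every prime of `M` above `𝔭` has residue degree one. -/
theorem ucf_inertiaDeg_eq_one {𝔭 : HeightOneSpectrum (𝓞 E)} (h𝔭 : 𝔭 ∈ underDegOne E M)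
    (w : HeightOneSpectrum (𝓞 M)) (hw : w.under (𝓞 E) = 𝔭) :
    w.asIdeal.inertiaDeg (𝓞 E) = 1 := by
  obtain ⟨w₀, hw₀, hw₀𝔭⟩ := h𝔭
  have h1 := (AbSplit.prime_absNorm_under E w₀ hw₀).2.2
  have i1 : w₀.asIdeal.LiesOver 𝔭.asIdeal := ⟨by rw [← hw₀𝔭]; rfl⟩
  have i2 : w.asIdeal.LiesOver 𝔭.asIdeal := ⟨by rw [← hw]; rfl⟩
  rw [← Ideal.inertiaDegIn_eq_inertiaDeg 𝔭.asIdeal w.asIdeal (M ≃ₐ[E] M),
    Ideal.inertiaDegIn_eq_inertiaDeg 𝔭.asIdeal w₀.asIdeal (M ≃ₐ[E] M)]
  exact h1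

/-- If `𝔭` (unramified in `Ω`) lies below degree-one primes of both `M` and `M'`, and
`Ω = M · M'`, then the identity is an arithmetic Frobenius at every prime of `Ω` above `𝔭`. -/
theorem ucf_frob_eq_one
    (hgen : ∀ σ : Ω ≃ₐ[E] Ω, (∀ x : M, σ (algebraMap M Ω x) = algebraMap M Ω x) →
      (∀ x : M', σ (algebraMap M' Ω x) = algebraMap M' Ω x) → σ = 1)
    {𝔭 : HeightOneSpectrum (𝓞 E)} (hA : 𝔭 ∈ underDegOne E M) (hA' : 𝔭 ∈ underDegOne E M')
    (hun : 𝔭 ∈ AbSplit.unramSet E Ω) :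
    ∀ P : Ideal (𝓞 Ω), P.IsPrime → P.LiesOver 𝔭.asIdeal →
      IsArithFrobAt (𝓞 E) (1 : Ω ≃ₐ[E] Ω) P := by
  intro P hP hP𝔭
  have hPne : P ≠ ⊥ := Ideal.ne_bot_of_liesOver_of_ne_bot 𝔭.ne_bot P
  have : Finite (𝓞 Ω ⧸ P) := Ideal.finiteQuotientOfFreeOfNeBot P hPne
  obtain ⟨σ, hσ⟩ := IsArithFrobAt.exists_of_isInvariant (𝓞 E) (Ω ≃ₐ[E] Ω) P
  have hunP : Algebra.IsUnramifiedAt (𝓞 E) P := hun P hP hP𝔭
  let Pω : HeightOneSpectrum (𝓞 Ω) := ⟨P, hP, hPne⟩
  -- the prime below in `M`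
  let w : HeightOneSpectrum (𝓞 M) := Pω.under (𝓞 M)
  have iw : P.LiesOver w.asIdeal := ⟨rfl⟩
  have hw : w.under (𝓞 E) = 𝔭 := by
    apply HeightOneSpectrum.ext
    show (P.under (𝓞 M)).under (𝓞 E) = 𝔭.asIdeal
    rw [Ideal.under_under, ← hP𝔭.over]
  have h1 := AbSplit.fix_of_inertiaDeg_eq_one M w P hunP hσ (ucf_inertiaDeg_eq_one E M hA w hw)
  -- the prime below in `M'`
  let w' : HeightOneSpectrum (𝓞 M') := Pω.under (𝓞 M')
  have iw' : P.LiesOver w'.asIdeal := ⟨rfl⟩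
  have hw' : w'.under (𝓞 E) = 𝔭 := by
    apply HeightOneSpectrum.ext
    show (P.under (𝓞 M')).under (𝓞 E) = 𝔭.asIdeal
    rw [Ideal.under_under, ← hP𝔭.over]
  have h2 := AbSplit.fix_of_inertiaDeg_eq_one M' w' P hunP hσ
    (ucf_inertiaDeg_eq_one E M' hA' w' hw')
  have h3 : σ = 1 := hgen σ h1 h2
  rwa [h3] at hσ

/-- Such a prime has exactly `[Ω : E]` primes of `Ω` above it. -/
theorem ucf_card_fiber
    (hgen : ∀ σ : Ω ≃ₐ[E] Ω, (∀ x : M, σ (algebraMap M Ω x) = algebraMap M Ω x) →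
      (∀ x : M', σ (algebraMap M' Ω x) = algebraMap M' Ω x) → σ = 1)
    {𝔭 : HeightOneSpectrum (𝓞 E)} (hA : 𝔭 ∈ underDegOne E M) (hA' : 𝔭 ∈ underDegOne E M')
    (hun : 𝔭 ∈ AbSplit.unramSet E Ω) :
    Nat.card {P : HeightOneSpectrum (𝓞 Ω) // P.under (𝓞 E) = 𝔭} = Module.finrank E Ω :=
  AbSplit.card_fiber_of_fix Ω 𝔭 hun (σ := 1) (ucf_frob_eq_one E M M' Ω hgen hA hA' hun)
    (fun _ => rfl)

/-- ... all of the same absolute norm as `𝔭`. -/
theorem ucf_absNorm_eq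
    (hgen : ∀ σ : Ω ≃ₐ[E] Ω, (∀ x : M, σ (algebraMap M Ω x) = algebraMap M Ω x) →
      (∀ x : M', σ (algebraMap M' Ω x) = algebraMap M' Ω x) → σ = 1)
    {𝔭 : HeightOneSpectrum (𝓞 E)} (hA : 𝔭 ∈ underDegOne E M) (hA' : 𝔭 ∈ underDegOne E M')
    (hun : 𝔭 ∈ AbSplit.unramSet E Ω) (P : HeightOneSpectrum (𝓞 Ω)) (hP : P.under (𝓞 E) = 𝔭) :
    Ideal.absNorm P.asIdeal = Ideal.absNorm 𝔭.asIdeal :=
  AbSplit.absNorm_eq_of_fix Ω 𝔭 (σ := 1) (ucf_frob_eq_one E M M' Ω hgen hA hA' hun)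
    (fun _ => rfl) P hP


/-- **Trivial upper bound for the completely split primes.**  The sum over the primes of `E`
below degree-one primes of both `M` and `M'` is at most `(1/[Ω:E]) · log (1/(s-1)) + O(1)`. -/
theorem ucf_inter_sum_le
    (hgen : ∀ σ : Ω ≃ₐ[E] Ω, (∀ x : M, σ (algebraMap M Ω x) = algebraMap M Ω x) →
      (∀ x : M', σ (algebraMap M' Ω x) = algebraMap M' Ω x) → σ = 1) :
    ∃ C : ℝ, ∀ s : ℝ, 1 < s → s ≤ 2 →
      (Module.finrank E Ω : ℝ) * ∑' 𝔭 : ↥(underDegOne E M ∩ underDegOne E M'), pw E s 𝔭.1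
        ≤ Real.log (1 / (s - 1)) + C := by
  classical
  obtain ⟨C, hC⟩ := tsum_degOne_sub_log_bounded_Ioc Ω
  have hT₁fin : ((underDegOne E M ∩ underDegOne E M') \ AbSplit.unramSet E Ω).Finite :=
    (AbSplit.finite_compl_unramSet E Ω).subset (fun x hx => hx.2)
  refine ⟨C + Module.finrank E Ω *
    (((underDegOne E M ∩ underDegOne E M') \ AbSplit.unramSet E Ω).ncard * (1 / 2)),
    fun s hs1 hs2 => ?_⟩
  have hsplit : ∑' 𝔭 : ↥(underDegOne E M ∩ underDegOne E M'), pw E s 𝔭.1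
      = ∑' 𝔭 : ↥((underDegOne E M ∩ underDegOne E M') ∩ AbSplit.unramSet E Ω), pw E s 𝔭.1
        + ∑' 𝔭 : ↥((underDegOne E M ∩ underDegOne E M') \ AbSplit.unramSet E Ω), pw E s 𝔭.1 := by
    have hdisj : Disjoint ((underDegOne E M ∩ underDegOne E M') ∩ AbSplit.unramSet E Ω)
        ((underDegOne E M ∩ underDegOne E M') \ AbSplit.unramSet E Ω) :=
      Set.disjoint_left.mpr fun x hx hx' => hx'.2 hx.2
    have h := Summable.tsum_union_disjoint (f := pw E s) hdisj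
      (summable_pw_subtype E _ hs1) (summable_pw_subtype E _ hs1)
    rw [Set.inter_union_sdiff] at h
    exact h
  set T₀ : Set (HeightOneSpectrum (𝓞 E)) :=
    (underDegOne E M ∩ underDegOne E M') ∩ AbSplit.unramSet E Ω with hT₀
  let u : HeightOneSpectrum (𝓞 Ω) → HeightOneSpectrum (𝓞 E) := fun P => P.under (𝓞 E)
  let T' : Set (HeightOneSpectrum (𝓞 Ω)) := {P | u P ∈ T₀}
  have hd : 0 < Module.finrank E Ω := Module.finrank_pos
  have key := summable_and_tsum_fibre u T' T₀ (pw E s) (pw_nonneg s)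
    (summable_pw_subtype E T₀ hs1) hd (fun x hx => hx) (fun y hy => by
      rw [← ucf_card_fiber E M M' Ω hgen hy.1.1 hy.1.2 hy.2]
      exact Nat.card_congr (Equiv.subtypeEquivRight fun x =>
        ⟨fun h => h.2, fun h => ⟨by show x.under (𝓞 E) ∈ T₀; rw [h]; exact hy, h⟩⟩))
  have h1 : ∑' x : T', pw E s (u x) = ∑' x : T', pw Ω s x.1 := tsum_congr fun x => by
    rw [pw_eq, pw_eq, ucf_absNorm_eq E M M' Ω hgen x.2.1.1 x.2.1.2 x.2.2 x.1 rfl]
  have h2 : ∑' x : T', pw Ω s x.1 ≤ ∑' x : ↥(degOne Ω), pw Ω s x.1 := by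
    have hsub : T' ⊆ degOne Ω := fun x hx => by
      show (Ideal.absNorm x.asIdeal).Prime
      rw [ucf_absNorm_eq E M M' Ω hgen hx.1.1 hx.1.2 hx.2 x rfl]
      obtain ⟨w₀, hw₀, hw₀𝔭⟩ := hx.1.1
      have := (AbSplit.prime_absNorm_under E w₀ hw₀).1
      rwa [hw₀𝔭] at this
    have := primeIdealZetaSum_mono Ω hsub hs1
    rwa [primeIdealZetaSum_eq, primeIdealZetaSum_eq] at this
  have h3 := (abs_le.mp (hC s hs1 hs2)).2
  have h4 := tsum_subtype_le_of_finite _ hT₁fin (pw E s) (fun x _ => pw_le_half hs1.le x)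
  have h5 : (0 : ℝ) ≤ Module.finrank E Ω := Nat.cast_nonneg _
  have h6 := mul_le_mul_of_nonneg_left h4 h5
  rw [hsplit, mul_add, ← key.2, h1]
  linarith


omit [NumberField M] [NumberField M'] [Field M] [Field M'] [Field Ω] [NumberField Ω]
  [Algebra E M] [Algebra E M'] [Algebra E Ω] [Algebra M Ω] [Algebra M' Ω]
  [IsScalarTower E M Ω] [IsScalarTower E M' Ω] [IsGalois E M] [IsGalois E M'] [IsGalois E Ω] in
/-- Inclusion–exclusion for the prime sums. -/
theorem ucf_incl_excl (A A' : Set (HeightOneSpectrum (𝓞 E))) {s : ℝ} (hs : 1 < s) :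
    ∑' v : ↥(A ∪ A'), pw E s v.1 + ∑' v : ↥(A ∩ A'), pw E s v.1
      = ∑' v : A, pw E s v.1 + ∑' v : A', pw E s v.1 := by
  have hsum : ∀ S : Set (HeightOneSpectrum (𝓞 E)), Summable (S.indicator (pw E s)) := fun S =>
    summable_subtype_iff_indicator.mp (summable_pw_subtype E S hs)
  rw [tsum_subtype, tsum_subtype, tsum_subtype, tsum_subtype,
    ← (hsum _).tsum_add (hsum _), ← (hsum _).tsum_add (hsum _)]
  exact tsum_congr fun x => Set.indicator_union_add_inter_apply (pw E s) A A' x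

/-- **Density step of the uniqueness theorem of class field theory.**  Let `M, M'` be Galois
over `E` with compositum `Ω` (Galois over `E`).  If a subgroup `H` of the class group of `E`
contains the classes of all primes lying below a degree-one prime of `M` or of `M'`, then
`[Cl : H] · (1/[M:E] + 1/[M':E] - 1/[Ω:E]) ≤ 1`. -/
theorem index_mul_le_of_two_fields
    (hgen : ∀ σ : Ω ≃ₐ[E] Ω, (∀ x : M, σ (algebraMap M Ω x) = algebraMap M Ω x) →
      (∀ x : M', σ (algebraMap M' Ω x) = algebraMap M' Ω x) → σ = 1)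
    (H : Subgroup (ClassGroup (𝓞 E)))
    (hH : ∀ 𝔭 : HeightOneSpectrum (𝓞 E), 𝔭 ∈ underDegOne E M ∪ underDegOne E M' →
      ClassGroup.mk0 (⟨𝔭.asIdeal, mem_nonZeroDivisors_of_ne_zero 𝔭.ne_bot⟩ :
        (Ideal (𝓞 E))⁰) ∈ H) :
    (H.index : ℝ) * (1 / (Module.finrank E M : ℝ) + 1 / (Module.finrank E M' : ℝ)
      - 1 / (Module.finrank E Ω : ℝ)) ≤ 1 := by
  obtain ⟨C₁, h₁⟩ := primeSum_underDegOne_ge E M
  obtain ⟨C₂, h₂⟩ := primeSum_underDegOne_ge E M'
  obtain ⟨C₃, h₃⟩ := ucf_inter_sum_le E M M' Ω hgen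
  obtain ⟨C₄, h₄⟩ := classGroup_primeSum_le E H (underDegOne E M ∪ underDegOne E M') hH
  by_contra hcon
  rw [not_le] at hcon
  have hm : (0 : ℝ) < (Module.finrank E M : ℝ) := Nat.cast_pos.mpr Module.finrank_pos
  have hm' : (0 : ℝ) < (Module.finrank E M' : ℝ) := Nat.cast_pos.mpr Module.finrank_pos
  have hn : (0 : ℝ) < (Module.finrank E Ω : ℝ) := Nat.cast_pos.mpr Module.finrank_pos
  have hh : (0 : ℝ) ≤ (H.index : ℝ) := Nat.cast_nonneg _
  set m : ℝ := (Module.finrank E M : ℝ) with hmdef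
  set m' : ℝ := (Module.finrank E M' : ℝ) with hm'def
  set n : ℝ := (Module.finrank E Ω : ℝ) with hndef
  set h : ℝ := (H.index : ℝ) with hhdef
  set c : ℝ := h * (1 / m + 1 / m' - 1 / n) - 1 with hc
  have hc0 : 0 < c := by rw [hc]; linarith
  set K : ℝ := C₄ + h * (C₁ / m + C₂ / m' + C₃ / n) with hK
  have hkey : ∀ s : ℝ, 1 < s → s ≤ 2 → Real.log (1 / (s - 1)) * c ≤ K := by
    intro s hs1 hs2
    have e1 := h₁ s hs1 hs2
    have e2 := h₂ s hs1 hs2
    have e3 := h₃ s hs1 hs2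
    have e4 := h₄ s hs1 hs2
    have e5 := ucf_incl_excl E (underDegOne E M) (underDegOne E M') hs1
    set L : ℝ := Real.log (1 / (s - 1)) with hL
    set SA : ℝ := ∑' v : ↥(underDegOne E M), pw E s v.1 with hSA
    set SA' : ℝ := ∑' v : ↥(underDegOne E M'), pw E s v.1 with hSA'
    set SU : ℝ := ∑' v : ↥(underDegOne E M ∪ underDegOne E M'), pw E s v.1 with hSU
    set SI : ℝ := ∑' v : ↥(underDegOne E M ∩ underDegOne E M'), pw E s v.1 with hSI
    have e1' : L - C₁ ≤ m * SA := e1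
    have e2' : L - C₂ ≤ m' * SA' := e2
    have f1 : (L - C₁) / m ≤ SA := by rw [div_le_iff₀ hm]; linarith
    have f2 : (L - C₂) / m' ≤ SA' := by rw [div_le_iff₀ hm']; linarith
    have f3 : SI ≤ (L + C₃) / n := by rw [le_div_iff₀ hn]; linarith
    have f4 : (L - C₁) / m + (L - C₂) / m' - (L + C₃) / n ≤ SU := by linarith
    have f5 : h * ((L - C₁) / m + (L - C₂) / m' - (L + C₃) / n) ≤ L + C₄ :=
      le_trans (mul_le_mul_of_nonneg_left f4 hh) e4
    have f6 : h * ((L - C₁) / m + (L - C₂) / m' - (L + C₃) / n)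
        = L * (c + 1) - h * (C₁ / m + C₂ / m' + C₃ / n) := by
      rw [hc]; ring
    rw [hK]
    nlinarith
  -- choose `s` with `log (1/(s-1)) = K / c + 1`
  set t : ℝ := |K| / c + 1 with ht
  have ht0 : 0 < t := by
    have : 0 ≤ |K| / c := div_nonneg (abs_nonneg _) hc0.le
    linarith
  have hexp1 : Real.exp (-t) ≤ 1 := Real.exp_le_one_iff.mpr (by linarith)
  have hexp0 : 0 < Real.exp (-t) := Real.exp_pos _
  have := hkey (1 + Real.exp (-t)) (by linarith) (by linarith)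
  rw [add_sub_cancel_left, one_div, Real.log_inv, Real.log_exp, neg_neg] at this
  have h2 : t * c = |K| + c := by
    rw [ht]; field_simp
  have := le_abs_self K
  nlinarith


/-- **Uniqueness step, prime degree.**  If `M, M'` are Galois of degree `p` over `E` with
compositum `Ω` of degree `p²`, then a subgroup of the class group containing the classes of all
primes below a degree-one prime of `M` or of `M'` has index `< p`. -/
theorem index_lt_of_two_fields {p : ℕ} (hp : 2 ≤ p)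
    (hM : Module.finrank E M = p) (hM' : Module.finrank E M' = p)
    (hΩ : Module.finrank E Ω = p * p)
    (hgen : ∀ σ : Ω ≃ₐ[E] Ω, (∀ x : M, σ (algebraMap M Ω x) = algebraMap M Ω x) →
      (∀ x : M', σ (algebraMap M' Ω x) = algebraMap M' Ω x) → σ = 1)
    (H : Subgroup (ClassGroup (𝓞 E)))
    (hH : ∀ 𝔭 : HeightOneSpectrum (𝓞 E), 𝔭 ∈ underDegOne E M ∪ underDegOne E M' →
      ClassGroup.mk0 (⟨𝔭.asIdeal, mem_nonZeroDivisors_of_ne_zero 𝔭.ne_bot⟩ :
        (Ideal (𝓞 E))⁰) ∈ H) :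
    H.index < p := by
  have h := index_mul_le_of_two_fields E M M' Ω hgen H hH
  rw [hM, hM', hΩ] at h
  by_contra hcon
  rw [not_lt] at hcon
  have hpR : (2 : ℝ) ≤ (p : ℝ) := by exact_mod_cast hp
  have hhR : (p : ℝ) ≤ (H.index : ℝ) := by exact_mod_cast hcon
  have hp0 : (0 : ℝ) < (p : ℝ) := by linarith
  have e : (1 / (p : ℝ) + 1 / (p : ℝ) - 1 / ((p * p : ℕ) : ℝ)) = (2 * p - 1) / (p * p) := by
    push_cast
    field_simp
    ring
  rw [e] at h
  have hpos : (0 : ℝ) < (2 * p - 1) / (p * p) := by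
    apply div_pos <;> nlinarith
  have h2 : (p : ℝ) * ((2 * p - 1) / (p * p)) ≤ 1 :=
    le_trans (mul_le_mul_of_nonneg_right hhR hpos.le) h
  have h3 : (p : ℝ) * ((2 * p - 1) / (p * p)) = (2 * p - 1) / p := by
    field_simp
  rw [h3, div_le_one hp0] at h2
  linarith

/-- **Uniqueness of class fields (prime degree).**  Two subgroups `H, H'` of index `≥ p` of the
class group of `E`, containing the classes of the primes below degree-one primes of `M`, resp.
`M'` (Galois of degree `p` over `E`, compositum of degree `p²`), are different. -/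
theorem ne_of_two_fields {p : ℕ} (hp : 2 ≤ p)
    (hM : Module.finrank E M = p) (hM' : Module.finrank E M' = p)
    (hΩ : Module.finrank E Ω = p * p)
    (hgen : ∀ σ : Ω ≃ₐ[E] Ω, (∀ x : M, σ (algebraMap M Ω x) = algebraMap M Ω x) →
      (∀ x : M', σ (algebraMap M' Ω x) = algebraMap M' Ω x) → σ = 1)
    (H H' : Subgroup (ClassGroup (𝓞 E)))
    (hH : ∀ 𝔭 : HeightOneSpectrum (𝓞 E), 𝔭 ∈ underDegOne E M →
      ClassGroup.mk0 (⟨𝔭.asIdeal, mem_nonZeroDivisors_of_ne_zero 𝔭.ne_bot⟩ :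
        (Ideal (𝓞 E))⁰) ∈ H)
    (hH' : ∀ 𝔭 : HeightOneSpectrum (𝓞 E), 𝔭 ∈ underDegOne E M' →
      ClassGroup.mk0 (⟨𝔭.asIdeal, mem_nonZeroDivisors_of_ne_zero 𝔭.ne_bot⟩ :
        (Ideal (𝓞 E))⁰) ∈ H')
    (hidx : p ≤ H.index) : H ≠ H' := by
  rintro rfl
  have := index_lt_of_two_fields E M M' Ω hp hM hM' hΩ hgen H (fun 𝔭 h𝔭 => by
    rcases h𝔭 with h | h
    · exact hH 𝔭 h
    · exact hH' 𝔭 h)
  omega

end Uniq

end Fermat.Agent.CFT.Analytic
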